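import Fermat.Agent.XMB.ActData
import Fermat.Agent.ModDeg.General
import Fermat.Agent.HeckeRed.Degrees
import Fermat.Agent.X0Places.Degree

/-!
# The residue field of the field of level `Γ(Q)`
-/

set_option autoImplicit false
set_option linter.unusedSectionVars false

noncomputable section

open ModularCurve CongruenceSubgroup IntermediateField
open scoped MatrixGroups

namespace Fermat.Agent.XMB

open Fermat.Agent.Igusa Fermat.Agent.LGRes Fermat.Agent.XM.Abs Fermat.Agent.ModDeg

section General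

variable {K : Type*} [Field K]

theorem fullOne_eq : modularFunctionFieldFullC K 1 = adjoin K {jqModC K} := by
  apply le_antisymm
  · rw [modularFunctionFieldFullC, adjoin_le_iff]
    rintro _ ⟨d, hd, hd1, rfl⟩
    have h1 : d = 1 := Nat.dvd_one.mp hd1
    subst h1
    have h2 : @qExpand K _ 1 hd (jqModC K) = jqModC K := by
      ext k
      have := @qExpand_coeff_mul K _ 1 hd (jqModC K) k
      simpa using this
    rw [h2]
    exact mem_adjoin_simple_self K _
  · rw [adjoin_le_iff, Set.singleton_subset_iff]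
    exact jqModC_mem_full K 1

theorem map_adjoin_h (Q : ℕ) [NeZero Q] :
    (adjoin K {jqModC K}).map (qExpandAlgHomC K Q) = adjoin K {qExpand K Q (jqModC K)} := by
  rw [adjoin_map, Set.image_singleton]
  rfl

theorem mem_adjoin_h_iff (Q : ℕ) [NeZero Q] {y : LaurentSeries K} :
    y ∈ adjoin K {qExpand K Q (jqModC K)} ↔ ∃ g ∈ adjoin K {jqModC K}, qExpand K Q g = y := by
  rw [← map_adjoin_h]
  exact Iff.rfl

end General

section Gauss

variable {L : Type*} [Field L] {A : ValuationSubring L} {κ : Type*} [Field κ] {π : A →+* κ}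

/-- `qExpand` reflects the Gauss ring on tame elements. -/
theorem mem_gaussRing_of_qExpand {Q : ℕ} [NeZero Q] {F : IntermediateField L (LaurentSeries L)}
    (hF : IsTameField F) {g : LaurentSeries L} (hg : g ∈ F)
    (h : qExpand L Q g ∈ gaussRing A π) : g ∈ gaussRing A π := by
  by_contra hcon
  have hinv : g⁻¹ ∈ gaussRing A π :=
    (mem_or_inv_mem_gaussRing A π hg hF).resolve_left hcon
  have h1 : gaussRes A π ⟨g⁻¹, hinv⟩ = 0 := by
    by_contra hne
    apply hcon
    have := inv_mem_gaussRing (x := ⟨g⁻¹, hinv⟩) hne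
    rwa [inv_inv] at this
  have h2 : Red A π g⁻¹ 0 := ⟨hinv, h1⟩
  have h3 := (LG.Red.qExpand h2 Q).mul (red_of_mem h)
  have hg0 : g ≠ 0 := by
    rintro rfl
    exact hcon (zero_mem _)
  rw [map_zero, zero_mul, ← map_mul, inv_mul_cancel₀ hg0, map_one] at h3
  exact one_ne_zero (Red.one.unique h3)

theorem exists_red_adjoin_j (hπ : Function.Surjective π) [IsLocalHom π] {z : LaurentSeries κ}
    (hz : z ∈ adjoin κ {jqModC κ}) : ∃ g ∈ adjoin L {jqModC L}, Red A π g z := by
  have h1 := full_le_gaussImage (L := L) A π hπ 1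
  rw [fullOne_eq] at h1
  obtain ⟨x, hx⟩ := h1 hz
  have h2 : ∀ y : modularFunctionFieldFullC L 1, (y : LaurentSeries L) ∈ adjoin L {jqModC L} := by
    intro y
    have h3 : ∀ y ∈ modularFunctionFieldFullC L 1, y ∈ adjoin L {jqModC L} := by
      rw [fullOne_eq]
      exact fun y hy => hy
    exact h3 y y.2
  exact ⟨_, h2 x.1, x.2, hx⟩

end Gauss

namespace ActData

variable {L : Type*} [Field L]
variable {Q : ℕ} [NeZero Q] {F : IntermediateField L (LaurentSeries L)} (D : ActData Q F)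
  {A : ValuationSubring L} {κ : Type*} [Field κ] {π : A →+* κ} (hF : IsTameField F)

/-- the fixed field is `L(j(X^Q))` -/
structure FixH : Prop where
  mem : qExpand L Q (jqModC L) ∈ F
  iff : ∀ x : F, (∀ γ, D.act γ x = x) ↔
    ∃ g ∈ adjoin L {jqModC L}, qExpand L Q g = (x : LaurentSeries L)

variable {D}

theorem FixH.mem' (hfix : D.FixH) {g : LaurentSeries L} (hg : g ∈ adjoin L {jqModC L}) :
    qExpand L Q g ∈ F := by
  have h3 : adjoin L {qExpand L Q (jqModC L)} ≤ F := by
    rw [adjoin_le_iff, Set.singleton_subset_iff]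
    exact hfix.mem
  exact h3 ((mem_adjoin_h_iff Q).mpr ⟨g, hg, rfl⟩)

theorem fixed_iff (x : F) : (∀ g : D.G, g • x = x) ↔ ∀ γ, D.act γ x = x := by
  rw [D.forall_G]
  simp only [D.cl_inv_smul]

theorem mem_adjoin_h_iff_fixed (hfix : D.FixH) (hπ : Function.Surjective π) [IsLocalHom π]
    (y : LaurentSeries κ) : y ∈ adjoin κ {qExpand κ Q (jqModC κ)} ↔
      ∃ x : gaussVal A π hF, (∀ g : D.G, g • (x : F) = x) ∧ gaussValRes A π hF x = y := by
  rw [mem_adjoin_h_iff]
  constructor
  · rintro ⟨z, hz, rfl⟩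
    obtain ⟨g, hg, hgz⟩ := exists_red_adjoin_j (L := L) (A := A) hπ hz
    have h1 := LG.Red.qExpand hgz Q
    refine ⟨⟨⟨_, hfix.mem' hg⟩, h1.mem⟩, ?_, ?_⟩
    · rw [fixed_iff]
      exact (hfix.iff _).mpr ⟨g, hg, rfl⟩
    · obtain ⟨h3, h4⟩ := h1
      exact h4
  · rintro ⟨x, hx, rfl⟩
    rw [fixed_iff] at hx
    obtain ⟨g, hg, hgx⟩ := (hfix.iff _).mp hx
    have h1 : qExpand L Q g ∈ gaussRing A π := by rw [hgx]; exact x.2
    have hg' : g ∈ gaussRing A π :=
      mem_gaussRing_of_qExpand (isTameField_full (L := L) 1) (by rw [fullOne_eq]; exact hg) h1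
    refine ⟨gaussRes A π ⟨g, hg'⟩, gaussRes_mem_adjoin_j A π hg, ?_⟩
    have h2 := LG.Red.qExpand (red_of_mem hg') Q
    rw [hgx] at h2
    obtain ⟨h3, h4⟩ := h2
    exact h4.symm

theorem rho_zero_iff (x : gaussVal A π hF) :
    gaussValRes A π hF x = 0 ↔ (gaussVal A π hF).valuation (x : F) < 1 := by
  rw [valuation_lt_one_iff]
  exact ⟨fun h => ⟨x.2, h⟩, fun ⟨_, h⟩ => h⟩

/-- **The degree of the residue field.** -/
theorem relfinrank_h (hfix : D.FixH) (hg : Good D.G (gaussVal A π hF))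
    (hπ : Function.Surjective π) [IsLocalHom π] :
    relfinrank (adjoin κ {qExpand κ Q (jqModC κ)}) (gaussImage A π hF hπ) = Nat.card D.G := by
  have h := hg.relfinrank_eq (gaussValRes A π hF) (rho_zero_iff hF) ⊥
    (adjoin κ {qExpand κ Q (jqModC κ)}).toSubfield (gaussImage A π hF hπ).toSubfield
    (fun y => mem_adjoin_h_iff_fixed hF hfix hπ y) (fun y => by
      constructor
      · rintro ⟨x, hx⟩
        refine ⟨x, fun g hg => ?_, hx⟩
        rw [Subgroup.mem_bot] at hg
        rw [hg, one_smul]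
      · rintro ⟨x, -, hx⟩
        exact ⟨x, hx⟩)
  rw [Subgroup.card_bot, mul_one] at h
  exact h

/-- the residue field is Galois over `κ(j(X^Q))` -/
theorem isGalois_of_mem_iff (hfix : D.FixH) (hg : Good D.G (gaussVal A π hF))
    (hπ : Function.Surjective π) [IsLocalHom π] {K1 : IntermediateField κ (LaurentSeries κ)}
    (hK1 : ∀ y, y ∈ K1 ↔ ∃ x, gaussValRes A π hF x = y) (h1 : K1)
    (hh1 : (h1 : LaurentSeries κ) = qExpand κ Q (jqModC κ)) :
    IsGalois κ⟮h1⟯ K1 := by
  classical
  set W := gaussVal A π hF with hW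
  letI := hg.actW
  haveI := hg.faithful_res
  let ρ : W →+* K1 := RingHom.codRestrict (gaussValRes A π hF) K1 (fun x => (hK1 _).mpr ⟨x, rfl⟩)
  have hρ : ∀ x, ρ x = 0 ↔ W.valuation (x : F) < 1 := by
    intro x
    rw [← rho_zero_iff hF x]
    exact ⟨fun h => congrArg Subtype.val h, fun h => Subtype.ext h⟩
  haveI : IsLocalHom ρ := by
    constructor
    intro a ha
    by_contra hna
    have h1 : W.valuation (a : F) < 1 := by
      rw [← W.valuation_lt_one_iff, IsLocalRing.mem_maximalIdeal, mem_nonunits_iff]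
      exact hna
    rw [← hρ] at h1
    rw [h1] at ha
    exact not_isUnit_zero ha
  let φ : IsLocalRing.ResidueField W →+* K1 := IsLocalRing.ResidueField.lift ρ
  have hφ : ∀ x, φ (IsLocalRing.residue W x) = ρ x := fun x =>
    IsLocalRing.ResidueField.lift_residue_apply ρ x
  have hφb : Function.Bijective φ := by
    refine ⟨φ.injective, ?_⟩
    rintro ⟨y, hy⟩
    obtain ⟨x, rfl⟩ := (hK1 y).mp hy
    exact ⟨IsLocalRing.residue W x, hφ x⟩
  let e : IsLocalRing.ResidueField W ≃+* K1 := RingEquiv.ofBijective φ hφb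
  let S := FixedPoints.subfield D.G (IsLocalRing.ResidueField W)
  have hmem : ∀ z : IsLocalRing.ResidueField W, z ∈ S ↔ φ z ∈ κ⟮h1⟯ := by
    have hA : ∀ y : K1, y ∈ κ⟮h1⟯ ↔ (y : LaurentSeries κ) ∈ adjoin κ {qExpand κ Q (jqModC κ)} := by
      intro y
      have h2 : (adjoin κ {qExpand κ Q (jqModC κ)}) = (κ⟮h1⟯).map K1.val := by
        rw [adjoin_map, Set.image_singleton]
        congr 2
        exact hh1.symm
      rw [h2]
      constructor
      · intro hy
        exact ⟨y, hy, rfl⟩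
      · rintro ⟨y', hy', hyy⟩
        have : y' = y := Subtype.ext hyy
        rwa [← this]
    intro z
    rw [hA, mem_adjoin_h_iff_fixed hF hfix hπ]
    constructor
    · intro hz
      obtain ⟨w, rfl⟩ := IsLocalRing.residue_surjective z
      obtain ⟨x, hxW, hx, hxw⟩ := hg.exists_fixed_lift ⊤ w.2 (fun g _ => by
        have h1 : g • IsLocalRing.residue W w = IsLocalRing.residue W w := hz g
        rw [hg.residue_smul, ← sub_eq_zero, ← map_sub, residue_eq_zero_iff] at h1
        exact h1)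
      refine ⟨⟨x, hxW⟩, fun g => hx g (Subgroup.mem_top _), ?_⟩
      rw [hφ]
      have h2 : ρ (⟨x, hxW⟩ - w) = 0 := (hρ _).mpr hxw
      rw [map_sub, sub_eq_zero] at h2
      exact congrArg Subtype.val h2
    · rintro ⟨x, hx, hxz⟩
      have h2 : φ (IsLocalRing.residue W x) = φ z := by
        apply Subtype.ext
        rw [← hxz, hφ]
        rfl
      have h3 := φ.injective h2
      rw [← h3]
      intro g
      show g • IsLocalRing.residue W x = _
      rw [hg.residue_smul]
      congr 1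
      exact Subtype.ext (hx g)
  let f0 : S →+* κ⟮h1⟯ := RingHom.codRestrict (φ.comp S.subtype) κ⟮h1⟯
    (fun z => (hmem z).mp z.2)
  have hf0 : Function.Bijective f0 := by
    refine ⟨f0.injective, ?_⟩
    rintro ⟨y, hy⟩
    obtain ⟨z, rfl⟩ := hφb.2 y
    exact ⟨⟨z, (hmem z).mpr hy⟩, rfl⟩
  let f : S ≃+* κ⟮h1⟯ := RingEquiv.ofBijective f0 hf0
  haveI : IsGalois S (IsLocalRing.ResidueField W) :=
    inferInstanceAs (IsGalois (FixedPoints.subfield D.G (IsLocalRing.ResidueField W)) _)
  exact IsGalois.of_equiv_equiv (f := f) (g := e) (by ext1 z; rfl)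

theorem isGalois_h (hfix : D.FixH) (hg : Good D.G (gaussVal A π hF))
    (hπ : Function.Surjective π) [IsLocalHom π] (h1 : gaussImage A π hF hπ)
    (hh1 : (h1 : LaurentSeries κ) = qExpand κ Q (jqModC κ)) :
    IsGalois κ⟮h1⟯ (gaussImage A π hF hπ) :=
  isGalois_of_mem_iff hF hfix hg hπ (fun _ => Iff.rfl) h1 hh1

/-- degree in characteristic zero -/
theorem relfinrank_F (hfix : D.FixH) :
    relfinrank (adjoin L {qExpand L Q (jqModC L)}) F = Nat.card D.G := by
  classical
  haveI := Fintype.ofFinite D.G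
  have h1 := FixedPoints.finrank_eq_card D.G F
  have h2 : (adjoin L {qExpand L Q (jqModC L)}).toSubfield =
      (FixedPoints.subfield D.G F).map (F.val : F →+* LaurentSeries L) := by
    ext y
    rw [Subfield.mem_map]
    constructor
    · intro hy
      obtain ⟨g, hg, rfl⟩ := (mem_adjoin_h_iff Q).mp hy
      refine ⟨⟨_, hfix.mem' hg⟩, ?_, rfl⟩
      intro g'
      exact (fixed_iff _).mpr ((hfix.iff ⟨_, hfix.mem' hg⟩).mpr ⟨g, hg, rfl⟩) g'
    · rintro ⟨x, hx, rfl⟩
      obtain ⟨g, hg, hgx⟩ := (hfix.iff x).mp ((fixed_iff x).mp fun g => hx g)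
      exact (mem_adjoin_h_iff Q).mpr ⟨g, hg, hgx⟩
  have h3 : F.toSubfield = (⊤ : Subfield F).map (F.val : F →+* LaurentSeries L) := by
    ext y
    rw [Subfield.mem_map]
    constructor
    · intro hy
      exact ⟨⟨y, hy⟩, trivial, rfl⟩
    · rintro ⟨x, -, rfl⟩
      exact x.2
  show Subfield.relfinrank (adjoin L {qExpand L Q (jqModC L)}).toSubfield F.toSubfield = _
  rw [h2, h3, Subfield.relfinrank_map_map, Subfield.relfinrank_top_right, h1,
    Nat.card_eq_fintype_card]

/-- Galois in characteristic zero -/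
theorem isGalois_F (hfix : D.FixH) (h1 : F)
    (hh1 : (h1 : LaurentSeries L) = qExpand L Q (jqModC L)) : IsGalois L⟮h1⟯ F := by
  classical
  let S := FixedPoints.subfield D.G F
  have hA : ∀ y : F, y ∈ L⟮h1⟯ ↔ (y : LaurentSeries L) ∈ adjoin L {qExpand L Q (jqModC L)} := by
    intro y
    have h2 : (adjoin L {qExpand L Q (jqModC L)}) = (L⟮h1⟯).map F.val := by
      rw [adjoin_map, Set.image_singleton]
      congr 2
      exact hh1.symm
    rw [h2]
    constructor
    · intro hy
      exact ⟨y, hy, rfl⟩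
    · rintro ⟨y', hy', hyy⟩
      have : y' = y := Subtype.ext hyy
      rwa [← this]
  have hmem : ∀ z : F, z ∈ S ↔ z ∈ L⟮h1⟯ := by
    intro z
    rw [hA, mem_adjoin_h_iff, ← hfix.iff, ← fixed_iff]
    exact Iff.rfl
  let f0 : S →+* L⟮h1⟯ := RingHom.codRestrict S.subtype L⟮h1⟯ (fun z => (hmem z).mp z.2)
  have hf0 : Function.Bijective f0 := by
    refine ⟨f0.injective, ?_⟩
    rintro ⟨y, hy⟩
    exact ⟨⟨y, (hmem y).mpr hy⟩, rfl⟩
  let f : S ≃+* L⟮h1⟯ := RingEquiv.ofBijective f0 hf0
  haveI : IsGalois S F := inferInstanceAs (IsGalois (FixedPoints.subfield D.G F) _)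
  exact IsGalois.of_equiv_equiv (f := f) (g := RingEquiv.refl F) (by ext1 z; rfl)

end ActData

end Fermat.Agent.XMB
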