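import Fermat.Agent.XMB.Fix
import Fermat.Agent.Cusps.ResEmb
import Fermat.Agent.LGRes.Red

/-!
# Integrality of the conjugates of the functions of level `Γ₀(Q)`
-/

set_option autoImplicit false
set_option linter.unusedSectionVars false

noncomputable section

open UpperHalfPlane Function ModularCurve Filter ModularForm AlgebraicCurve WithZero
  CongruenceSubgroup Module
open scoped Manifold MatrixGroups Topology ModularForm

namespace Fermat.Agent.XMB

open Fermat.Agent.FunField Fermat.Agent.LG Fermat.Agent.Igusa Fermat.Agent.LGRes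

section Gauss

variable {L : Type*} [Field L] {A : ValuationSubring L} {κ : Type*} [Field κ] {π : A →+* κ}

theorem red_qExpand (n : ℕ) [NeZero n] {x : LaurentSeries L} {y : LaurentSeries κ}
    (h : Red A π x y) : Red A π (qExpand L n x) (qExpand κ n y) := by
  obtain ⟨h1, rfl⟩ := h
  exact ⟨Cusps.qExpand_mem_gaussRing A π n h1, Cusps.gaussRes_qExpand A π n ⟨x, h1⟩⟩

/-- an element of a tame field is integral if `x(q^n)` is -/
theorem mem_gaussRing_of_qExpand_h1 [IsLocalHom π] (n : ℕ) [NeZero n] {x : LaurentSeries L}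
    (hx : x ∈ tameQ L) (h : qExpand L n x ∈ gaussRing A π) : x ∈ gaussRing A π := by
  by_cases hx0 : x = 0
  · rw [hx0]; exact zero_mem _
  obtain ⟨c, hc0, w, y, hy0, hw, hxw⟩ := exists_norm (A := A) (π := π) hx hx0
  have h1 := red_qExpand n hw
  have hy0' : qExpand κ n y ≠ 0 := fun h0 => hy0 (qExpand_injective n (h0.trans (map_zero _).symm))
  have h2 : qExpand L n x = algebraMap L (LaurentSeries L) c * qExpand L n w := by
    rw [hxw, map_mul]
    congr 1
    exact (qExpandAlgHomC L n).commutes c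
  rw [h2] at h
  have h3 := red_of_mem h
  obtain ⟨hc, -⟩ := mem_of_red_mul h1 hy0' h3
  rw [hxw]
  exact mul_mem (algebraMap_mem_gaussRing A π ⟨c, hc⟩) hw.mem

end Gauss

variable {L : Type*} [Field L] [IsAlgClosed L] [Algebra ℚ L] (ι : L →+* ℂ)
  {A : ValuationSubring L} {κ : Type*} [Field κ] (π : A →+* κ) [IsLocalHom π]
  (hπ : Function.Surjective π) {Q N : ℕ} [NeZero Q] [NeZero N] (hN : N ∣ Q) (hNκ : (N : κ) ≠ 0)
  (hQ : 2 < Q) (hF : IsTameField (FG ι (Gs Q) (Q ^ 2)))

/-- `g(τ) ↦ g(Qτ)` -/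
def scaleFull : modularFunctionFieldFullC L N →+* FG ι (Gs Q) (Q ^ 2) :=
  (scaleQ hN ι).comp
    (IntermediateField.inclusion (FG_gamma0_eq_full ι N).ge : _ →+* FG ι (Gamma0 N) N)

@[simp] theorem coe_scaleFull (x : modularFunctionFieldFullC L N) :
    ((scaleFull ι hN x : FG ι (Gs Q) (Q ^ 2)) : LaurentSeries L) = qExpand L Q x := rfl

theorem act_scaleFull {γ : SL(2, ℤ)} (hγ : γ ∈ Gamma0 N) (x : modularFunctionFieldFullC L N) :
    act ι hQ γ (scaleFull ι hN x) = scaleFull ι hN x := act_scaleQ hN ι hQ hγ _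

include hπ hNκ in
/-- the conjugates of the integral functions of level `Γ₀(N)` are integral -/
theorem act_scaleFull_mem {x : modularFunctionFieldFullC L N}
    (hx : x ∈ gaussVal A π (isTameField_full (L := L) N)) (γ : SL(2, ℤ)) :
    act ι hQ γ (scaleFull ι hN x) ∈ gaussVal A π hF := by
  have hNL : (N : L) ≠ 0 := by
    have : CharZero L := algebraRat.charZero L
    exact Nat.cast_ne_zero.mpr (NeZero.ne N)
  have hd := Fermat.Agent.ModDeg.relfinrank_full L N hNL
  have hd₁ := Fermat.Agent.ModDeg.relfinrank_full κ N hNκ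
  have hpos : 0 < dedekindPsi N := Fermat.Agent.HeckeRed.dedekindPsi_pos N
  obtain ⟨b, hb⟩ := Cusps.exists_resIndep_full A π N hπ hpos hd₁
  have hfin : 0 < finrank (baseSub (modularFunctionFieldFullC L N)
      (IntermediateField.adjoin L {jqModC L})) (modularFunctionFieldFullC L N) := by
    rw [finrank_baseSub, hd]; exact hpos
  have : FiniteDimensional (baseSub (modularFunctionFieldFullC L N)
    (IntermediateField.adjoin L {jqModC L})) (modularFunctionFieldFullC L N) :=
    FiniteDimensional.of_finrank_pos hfin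
  have h1 := hb.isIntegral (resLocal_gaussVal A π (isTameField_full N)) (by
    rw [Fintype.card_fin, finrank_baseSub, hd]) hx
  let s : modularFunctionFieldFullC L N →+* FG ι (Gs Q) (Q ^ 2) :=
    ((act ι hQ γ : FG ι (Gs Q) (Q ^ 2) ≃ₐ[L] FG ι (Gs Q) (Q ^ 2)) :
      FG ι (Gs Q) (Q ^ 2) →+* FG ι (Gs Q) (Q ^ 2)).comp (scaleFull ι hN)
  refine Cusps.mem_of_isIntegral_of_le ((gaussVal A π hF).comap s) _ ?_ h1
  rintro y ⟨hy1, hy2⟩
  show act ι hQ γ (scaleFull ι hN y) ∈ gaussVal A π hF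
  have h2 : act ι hQ γ (scaleFull ι hN y) = scaleFull ι hN y :=
    (fix_all_iff ι hQ).2 ⟨(y : LaurentSeries L), hy2, rfl⟩ γ
  rw [h2, mem_gaussVal_iff]
  exact Cusps.qExpand_mem_gaussRing A π Q hy1

include hπ hN hNκ in
/-- **[H1]** an integral element fixed by `Γ₀(N)` has integral conjugates -/
theorem act_mem_gaussVal_of_fix {x : FG ι (Gs Q) (Q ^ 2)} (hx : x ∈ gaussVal A π hF)
    (hfix : ∀ γ ∈ Gamma0 N, act ι hQ γ x = x) (γ : SL(2, ℤ)) :
    act ι hQ γ x ∈ gaussVal A π hF := by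
  obtain ⟨g, hg, hxg⟩ := exists_of_fix ι hQ hfix
  rw [FG_gamma0_eq_full ι N] at hg
  have h1 : x = scaleFull ι hN ⟨g, hg⟩ := Subtype.ext hxg
  rw [h1]
  refine act_scaleFull_mem ι π hπ hN hNκ hQ hF ?_ γ
  rw [mem_gaussVal_iff]
  refine mem_gaussRing_of_qExpand_h1 Q (isTameField_full (L := L) N _ hg) ?_
  rw [mem_gaussVal_iff, hxg] at hx
  exact hx

end Fermat.Agent.XMB
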