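import Fermat.Agent.XMB.Act

/-!
# The action of `SL₂(ℤ)` on the field of level `Γ(Q)`: kernel and the action of `T`
-/

set_option autoImplicit false
set_option linter.unusedSectionVars false
set_option linter.style.haveILetI false

noncomputable section

open UpperHalfPlane Function ModularCurve Filter ModularForm AlgebraicCurve WithZero
  CongruenceSubgroup IntermediateField
open scoped Manifold MatrixGroups Topology ModularForm

namespace Fermat.Agent.XMB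

open Fermat.Agent.X0Places Fermat.Agent.TorsCmp Fermat.Agent.FunField Fermat.Agent.LG
open Fermat.Agent.ModPoly (twist twist_coeff)
open Matrix.SpecialLinearGroup (mapGL)
open Function.Periodic (qParam)

variable {Q : ℕ} [hQ : NeZero Q]

theorem scaleH_dgam (γ : SL(2, ℤ)) (τ : ℍ) :
    scaleH Q (Q_pos Q) (dgam Q γ • τ) = γ • scaleH Q (Q_pos Q) τ := by
  rw [← LG.heckeDiag_smul Q (Q_pos Q), ← mul_smul, heckeDiag_mul_dgam, mul_smul,
    LG.heckeDiag_smul Q (Q_pos Q)]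
  rfl

theorem coe_dgam_T_smul (τ : ℍ) :
    ((dgam Q ModularGroup.T • τ : ℍ) : ℂ) = τ + 1 / Q := by
  have h1 := congrArg UpperHalfPlane.coe (scaleH_dgam (Q := Q) ModularGroup.T τ)
  rw [coe_scaleH, coe_SL_smul, coe_scaleH] at h1
  have hQc : (Q : ℂ) ≠ 0 := by exact_mod_cast hQ.out
  have e00 : (ModularGroup.T 0 0 : ℤ) = 1 := rfl
  have e01 : (ModularGroup.T 0 1 : ℤ) = 1 := rfl
  have e10 : (ModularGroup.T 1 0 : ℤ) = 0 := rfl
  have e11 : (ModularGroup.T 1 1 : ℤ) = 1 := rfl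
  rw [e00, e01, e10, e11] at h1
  generalize ((dgam Q ModularGroup.T • τ : ℍ) : ℂ) = z at h1 ⊢
  simp only [Int.cast_one, Int.cast_zero, one_mul, zero_mul, zero_add, div_one] at h1
  field_simp
  linear_combination h1

theorem qParam_dgam_T (τ : ℍ) : qParam 1 (dgam Q ModularGroup.T • τ : ℍ) =
    zetaN Q * qParam 1 τ ^ 1 := by
  rw [coe_dgam_T_smul, pow_one, zetaN, Units.val_mk0]
  simp only [qParam]
  rw [← Complex.exp_add]
  congr 1
  have hQc : (Q : ℂ) ≠ 0 := by exact_mod_cast hQ.out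
  push_cast
  field_simp
  ring

/-- a matrix whose upper right entry is divisible by `Q` -/
theorem exists_of_dvd {γ : SL(2, ℤ)} (h : (Q : ℤ) ∣ γ 0 1) : ∃ g : SL(2, ℤ),
    dgam Q γ = mapGL ℝ g ∧ g 1 0 = γ 1 0 * Q ∧ g 1 1 = γ 1 1 := by
  obtain ⟨b, hb⟩ := h
  have hdet : γ 0 0 * γ 1 1 - γ 0 1 * γ 1 0 = 1 := by
    have := γ.det_coe
    rwa [Matrix.det_fin_two] at this
  have hdet' : γ 0 0 * γ 1 1 - b * (γ 1 0 * Q) = 1 := by
    rw [hb] at hdet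
    linear_combination hdet
  refine ⟨mkSL (γ 0 0) b (γ 1 0 * Q) (γ 1 1) hdet', ?_, rfl, rfl⟩
  have h4 : mapGL ℝ γ * heckeDiagMatrix Q =
      heckeDiagMatrix Q * mapGL ℝ (mkSL (γ 0 0) b (γ 1 0 * Q) (γ 1 1) hdet') := by
    apply Units.ext
    rw [Units.val_mul, Units.val_mul, val_heckeDiagMatrix hQ.out]
    have hb' : ((γ 0 1 : ℤ) : ℝ) = (Q : ℝ) * b := by rw [hb]; push_cast; ring
    ext i j
    fin_cases i <;> fin_cases j <;>
      simp [Matrix.mul_apply, Fin.sum_univ_two, mapGL, hb'] <;> ring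
  rw [dgam, mul_assoc, h4, inv_mul_cancel_left]

variable {L : Type*} [Field L] [Algebra ℚ L] [IsAlgClosed L] (ι : L →+* ℂ) (hQ2 : 2 < Q)

/-! ### the action of `T` -/

theorem act_T_an {ζ : Lˣ} (hζ : Units.map (ι : L →* ℂ) ζ = zetaN Q)
    (a : AnR ι (Gs Q) (Q ^ 2)) :
    (act ι hQ2 ModularGroup.T (algebraMap _ _ a) : LaurentSeries L) =
      twist ζ (a : LaurentSeries L) := by
  obtain ⟨b, hb, hb'⟩ := exists_act_coe ι hQ2 ModularGroup.T a
  rw [hb, algebraMap_an]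
  apply Fermat.Agent.ModPoly.coeffMap_injective ι.injective
  have h1 := (hasLaurent_anFn a).subst (h' := 1) (fun τ => dgam Q ModularGroup.T • τ)
    (zetaN Q) 1 (fun τ => qParam_dgam_T τ)
  rw [qExpand_one_apply] at h1
  have h2 : anFn a ∘ (fun τ => dgam Q ModularGroup.T • τ) = anFn b := hb'.symm
  rw [h2] at h1
  rw [(hasLaurent_anFn b).unique one_pos h1, Fermat.Agent.ModPoly.coeffMap_twist, hζ]

/-- **the action of `T`** is `q ↦ ζ q` -/
theorem act_T {ζ : Lˣ} (hζ : Units.map (ι : L →* ℂ) ζ = zetaN Q) (f : FG ι (Gs Q) (Q ^ 2)) :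
    (act ι hQ2 ModularGroup.T f : LaurentSeries L) = twist ζ (f : LaurentSeries L) := by
  obtain ⟨a, b, -, rfl⟩ := IsFractionRing.div_surjective (A := AnR ι (Gs Q) (Q ^ 2)) f
  have h1 : ∀ x y : FG ι (Gs Q) (Q ^ 2), ((x / y : FG ι (Gs Q) (Q ^ 2)) : LaurentSeries L) =
    (x : LaurentSeries L) / (y : LaurentSeries L) := fun x y => rfl
  rw [map_div₀, h1, h1, act_T_an ι hQ2 hζ, act_T_an ι hQ2 hζ, map_div₀, algebraMap_an,
    algebraMap_an]

/-! ### the kernel -/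

theorem act_of_mem_PG {γ : SL(2, ℤ)} (hγ : γ ∈ PG Q) (f : FG ι (Gs Q) (Q ^ 2)) :
    act ι hQ2 γ f = f := by
  obtain ⟨g, hg, h⟩ := exists_Gs Q hγ
  apply act_eq_of_toM
  rw [h, compG_mapGL, compMer_toM hg]

theorem dvd_of_jG {γ : SL(2, ℤ)} (h : act ι hQ2 γ (jG ι (Gs Q) (Q ^ 2)) = jG ι (Gs Q) (Q ^ 2)) :
    (Q : ℤ) ∣ γ 0 1 := by
  have h1 := toM_act ι hQ2 γ (jG ι (Gs Q) (Q ^ 2))
  rw [h, toM_jG, compG_algebraMap _ (det_dgam_pos Q γ)] at h1
  have h2 : ∀ τ : ℍ, Fermat.Agent.JInv.jInv τ = Fermat.Agent.JInv.jInv (dgam Q γ • τ) :=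
    fun τ => congrFun (congrArg Subtype.val (IsFractionRing.injective Holo Mer h1)) τ
  have h3 : ∀ γ' : SL(2, ℤ), ∀ τ : ℍ, Fermat.Agent.JInv.jInv (dgam Q γ' • τ) =
      jd Q (Q_pos Q) ((ModularGroup.S * γ') • scaleH Q (Q_pos Q) τ) := by
    intro γ' τ
    rw [dgam_smul, Fermat.Agent.JInv.jInv_smul]
    rfl
  have h4 : ∀ z : ℍ, jd Q (Q_pos Q) ((ModularGroup.S * γ) • z) =
      jd Q (Q_pos Q) (ModularGroup.S • z) := by
    intro z
    have h5 := h2 ((heckeDiagMatrix Q)⁻¹ • z)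
    have h6 := h3 1 ((heckeDiagMatrix Q)⁻¹ • z)
    have h8 : scaleH Q (Q_pos Q) ((heckeDiagMatrix Q)⁻¹ • z) = z := by
      rw [← LG.heckeDiag_smul Q (Q_pos Q), smul_inv_smul]
    rw [dgam_one, one_smul, mul_one, h8] at h6
    rw [h3 γ, h8, h6] at h5
    exact h5.symm
  have h5 := coset_eq_of_jd_eq (N := Q) (g := (ModularGroup.S * γ)⁻¹) (h := ModularGroup.S⁻¹)
    (fun τ => by rw [inv_inv, inv_inv]; exact h4 τ)
  rw [QuotientGroup.eq, inv_inv, Gamma0_mem, ZMod.intCast_zmod_eq_zero_iff_dvd] at h5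
  have h6 : ((ModularGroup.S * γ * ModularGroup.S⁻¹ : SL(2, ℤ)) 1 0 : ℤ) = - γ 0 1 := by
    have hS : ((ModularGroup.S : SL(2, ℤ)) : Matrix (Fin 2) (Fin 2) ℤ) = !![0, -1; 1, 0] := rfl
    have hSi : ((ModularGroup.S⁻¹ : SL(2, ℤ)) : Matrix (Fin 2) (Fin 2) ℤ) = !![0, 1; -1, 0] := by
      rw [Matrix.SpecialLinearGroup.coe_inv, Matrix.adjugate_fin_two, hS]
      simp
    show ((ModularGroup.S * γ * ModularGroup.S⁻¹ : SL(2, ℤ)) : Matrix (Fin 2) (Fin 2) ℤ) 1 0 =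
      - (γ : Matrix (Fin 2) (Fin 2) ℤ) 0 1
    rw [Matrix.SpecialLinearGroup.coe_mul, Matrix.SpecialLinearGroup.coe_mul, hS, hSi]
    simp only [Matrix.mul_apply, Fin.sum_univ_two]
    simp
  rw [h6, dvd_neg] at h5
  exact h5

/-- **the kernel of the action** -/
theorem act_eq_iff {γ : SL(2, ℤ)} : (∀ f, act ι hQ2 γ f = f) ↔ γ ∈ PG Q := by
  refine ⟨fun h => ?_, fun h f => act_of_mem_PG ι hQ2 h f⟩
  have hMF : MF ι (Gs Q) (Q ^ 2) := DS1.mf_G1 ι (dvd_pow_self Q two_ne_zero) hQ2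
  have h1 := dvd_of_jG ι hQ2 (h (jG ι (Gs Q) (Q ^ 2)))
  obtain ⟨g, hg, hg1, hg2⟩ := exists_of_dvd h1
  have h2 : g ∈ Gs Q := by
    apply MF.sep (ι := ι) (N := Q ^ 2)
    intro x
    have h3 := toM_act ι hQ2 γ x
    rw [h x, hg, compG_mapGL] at h3
    exact h3.symm
  rw [Gs, DS1.mem_G1 (dvd_pow_self Q two_ne_zero), Gamma0_mem, hg1, hg2,
    ZMod.intCast_zmod_eq_zero_iff_dvd] at h2
  obtain ⟨⟨c, hc⟩, h3⟩ := h2
  have hQ0 : (Q : ℤ) ≠ 0 := by exact_mod_cast hQ.out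
  have h4 : γ 1 0 = Q * c := by
    apply mul_right_cancel₀ hQ0
    rw [hc]
    push_cast
    ring
  rw [mem_PG_iff]
  have hdet : γ 0 0 * γ 1 1 - γ 0 1 * γ 1 0 = 1 := by
    have := γ.det_coe
    rwa [Matrix.det_fin_two] at this
  have h01 : ((γ 0 1 : ℤ) : ZMod Q) = 0 := by
    rw [ZMod.intCast_zmod_eq_zero_iff_dvd]; exact h1
  have h10 : ((γ 1 0 : ℤ) : ZMod Q) = 0 := by
    rw [ZMod.intCast_zmod_eq_zero_iff_dvd]; exact ⟨c, h4⟩
  have h5 : ((γ 0 0 : ℤ) : ZMod Q) * ((γ 1 1 : ℤ) : ZMod Q) = 1 := by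
    have := congrArg (fun z : ℤ => (z : ZMod Q)) hdet
    push_cast at this
    rwa [h01, zero_mul, sub_zero] at this
  refine ⟨h01, h10, ?_⟩
  rcases h3 with h3 | h3
  · left
    rw [h3, mul_one] at h5
    exact ⟨h5, h3⟩
  · right
    rw [h3, mul_neg, mul_one] at h5
    exact ⟨by rw [← h5, neg_neg], h3⟩

end Fermat.Agent.XMB
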