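import Fermat.Agent.XMB.Act
import Fermat.Agent.LG.Deg

/-!
# Modular functions of level `Γ(Q)`: fixed fields

`Γs Q = G1 (Q^2) Q` is conjugate to `±Γ(Q)` by `δ = diag(Q,1)`; for `γ ∈ SL₂(ℤ)` the conjugate
`δ⁻¹ γ δ` acts on the functions on `Γs Q`. The functions which are invariant under `δ⁻¹ Γ₀(N) δ`,
`N ∣ Q`, are the `g(Qτ)`, `g` of level `Γ₀(N)`.
-/

set_option autoImplicit false
set_option linter.unusedSectionVars false

noncomputable section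

open UpperHalfPlane Function ModularCurve Filter ModularForm AlgebraicCurve WithZero
  CongruenceSubgroup
open scoped Manifold MatrixGroups Topology ModularForm

namespace Fermat.Agent.XMB

open Fermat.Agent.X0Places Fermat.Agent.TorsCmp Fermat.Agent.FunField Fermat.Agent.LG
open Matrix.SpecialLinearGroup (mapGL)
open Function.Periodic (qParam)

/-- fractions fixed by a finite group -/
theorem exists_div_of_fix {L F : Type*} [Field L] [Field F] [Algebra L F] (S : Subring F)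
    (H : Subgroup (F ≃ₐ[L] F)) [Finite H]
    (hS : ∀ (h : H) (c : F), c ∈ S → (h : F ≃ₐ[L] F) c ∈ S) {x : F} {a b : F} (ha : a ∈ S) (hb : b ∈ S) (hb0 : b ≠ 0)
    (hab : x * b = a) :
    ∃ c ∈ S, ∃ d ∈ S, d ≠ 0 ∧ x * d = c ∧ ∀ h : H, (h : F ≃ₐ[L] F) d = d := by
  classical
  have := Fintype.ofFinite H
  refine ⟨x * ∏ h : H, (h : F ≃ₐ[L] F) b, ?_, ∏ h : H, (h : F ≃ₐ[L] F) b,
    prod_mem fun h _ => hS h b hb, ?_, rfl, fun g => ?_⟩
  · rw [← Finset.mul_prod_erase Finset.univ _ (Finset.mem_univ (1 : H))]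
    have h1 : ((1 : H) : F ≃ₐ[L] F) b = b := rfl
    rw [h1, ← mul_assoc, hab]
    exact mul_mem ha (prod_mem fun h _ => hS h b hb)
  · rw [Finset.prod_ne_zero_iff]
    intro h _
    rwa [map_ne_zero_iff _ (AlgEquiv.injective _)]
  · rw [map_prod]
    exact Fintype.prod_equiv (Equiv.mulLeft g) _ _ fun h => rfl

variable {Q N : ℕ} [NeZero Q]

theorem dgam_smul_eq (γ : SL(2, ℤ)) (τ : ℍ) :
    dgam Q γ • τ = (heckeDiagMatrix Q)⁻¹ • (γ • (heckeDiagMatrix Q • τ)) := by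
  rw [dgam, mul_smul, mul_smul]
  rfl

/-- `z ↦ z/Q` -/
theorem unscale_smul (z : ℍ) :
    (heckeDiagMatrix Q)⁻¹ • z = ModularGroup.S •
      scaleH Q (Nat.pos_of_ne_zero (NeZero.ne Q)) (ModularGroup.S⁻¹ • z) := by
  obtain ⟨w, rfl⟩ : ∃ w : ℍ, z = ModularGroup.S • w :=
    ⟨ModularGroup.S⁻¹ • z, (smul_inv_smul _ _).symm⟩
  rw [inv_smul_smul, inv_smul_eq_iff, LG.heckeDiag_smul Q (Nat.pos_of_ne_zero (NeZero.ne Q))]
  apply UpperHalfPlane.ext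
  rw [coe_scaleH, coe_SL_smul, coe_SL_smul, coe_scaleH]
  have hQ : (Q : ℂ) ≠ 0 := by exact_mod_cast NeZero.ne Q
  have hw : (w : ℂ) ≠ 0 := UpperHalfPlane.ne_zero w
  simp [ModularGroup.S]
  field_simp

theorem coe_unscale (z : ℍ) :
    (((heckeDiagMatrix Q)⁻¹ • z : ℍ) : ℂ) = (z : ℂ) / Q := by
  have h1 := LG.heckeDiag_smul Q (Nat.pos_of_ne_zero (NeZero.ne Q)) ((heckeDiagMatrix Q)⁻¹ • z)
  rw [smul_inv_smul] at h1
  have h2 := congrArg (fun w : ℍ => (w : ℂ)) h1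
  simp only [coe_scaleH] at h2
  have hQ : (Q : ℂ) ≠ 0 := by exact_mod_cast NeZero.ne Q
  rw [h2]
  field_simp

section AnFun

variable [NeZero N] {f : ℍ → ℂ}

/-- the function `f(z/Q)` -/
theorem isAnG_unscale {Γ : Subgroup SL(2, ℤ)} {K : ℕ} [NeZero K] (hf : IsAnG Γ K f)
    (hinv : ∀ γ ∈ Gamma0 N, ∀ τ, f (dgam Q γ • τ) = f τ) :
    IsAnG (Gamma0 N) N (fun z => f ((heckeDiagMatrix Q)⁻¹ • z)) := by
  have hQ := Nat.pos_of_ne_zero (NeZero.ne Q)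
  have hdet : 0 < (((heckeDiagMatrix Q)⁻¹).det : ℝ) := by
    rw [map_inv, Units.val_inv_eq_inv_val, inv_pos]
    exact det_heckeDiagMatrix_pos Q
  have hmd : MDiff (fun z : ℍ => f ((heckeDiagMatrix Q)⁻¹ • z)) :=
    (glHolo ((heckeDiagMatrix Q)⁻¹) hdet ⟨f, hf.hol⟩).2
  have hinv' : ∀ γ ∈ Gamma0 N, ∀ z : ℍ, f ((heckeDiagMatrix Q)⁻¹ • (γ • z)) =
      f ((heckeDiagMatrix Q)⁻¹ • z) := by
    intro γ hγ z
    have h1 := hinv γ hγ ((heckeDiagMatrix Q)⁻¹ • z)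
    rwa [dgam_smul_eq, smul_inv_smul] at h1
  refine ⟨hmd, fun γ => ?_, hinv'⟩
  obtain ⟨y, hy⟩ := exp_scale hf.exp Q hQ ModularGroup.S (ModularGroup.S⁻¹ * γ)
  have h1 : (fun τ => f (ModularGroup.S • scaleH Q hQ ((ModularGroup.S⁻¹ * γ) • τ))) =
      fun τ => f ((heckeDiagMatrix Q)⁻¹ • (γ • τ)) := by
    funext τ
    rw [unscale_smul, mul_smul]
  rw [h1] at hy
  have hKQ : (0 : ℝ) < ((K * Q : ℕ) : ℝ) := by
    exact_mod_cast Nat.mul_pos (Nat.pos_of_ne_zero (NeZero.ne K)) hQ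
  refine hasLaurent_narrow hKQ (natCast_pos N)
    (mdiff_comp_smul (G := fun z : ℍ => f ((heckeDiagMatrix Q)⁻¹ • z)) hmd γ) hy fun τ => ?_
  have h2 := hinv' _ (conj_T_pow_mem N γ) (γ • τ)
  rw [← h2, mul_smul, mul_smul, inv_smul_smul]
  have h3 := UpperHalfPlane.modular_T_zpow_smul τ (N : ℤ)
  rw [zpow_natCast] at h3
  rw [h3]
  simp

/-- the expansion of `f(z/Q)` -/
theorem hasLaurent_unscale {x : LaurentSeries ℂ} (hx : HasLaurent 1 f x) :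
    HasLaurent Q (fun z => f ((heckeDiagMatrix Q)⁻¹ • z)) x := by
  have h1 := hx.subst (h' := (Q : ℝ)) (fun z : ℍ => (heckeDiagMatrix Q)⁻¹ • z) 1 1 (by
    intro z
    have hQ : (Q : ℂ) ≠ 0 := by exact_mod_cast NeZero.ne Q
    simp only [qParam, coe_unscale, Units.val_one, one_mul, pow_one]
    congr 1
    push_cast
    field_simp)
  rw [Fermat.Agent.ModPoly.twist_one, qExpand_one_apply] at h1
  exact h1

variable {L : Type*} [Field L] {ι : L →+* ℂ}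

/-- **Analytic elements invariant under `δ⁻¹ Γ₀(N) δ`.** -/
theorem exists_of_inv {Γ : Subgroup SL(2, ℤ)} {K : ℕ} [NeZero K] (hf : IsAnG Γ K f)
    (hinv : ∀ γ ∈ Gamma0 N, ∀ τ, f (dgam Q γ • τ) = f τ) {a : LaurentSeries L}
    (ha : HasLaurent 1 f (coeffMap ι a)) :
    ∃ g ∈ LG.AnR ι (Gamma0 N) N, a = qExpand L Q g := by
  have h1 := isAnG_unscale (N := N) hf hinv
  have h2 := isAnG_gamma0.1 h1
  obtain ⟨y, hy⟩ := h2.hasLaurent_one N
  have h3 : HasLaurent Q (fun z => f ((heckeDiagMatrix Q)⁻¹ • z)) (qExpand ℂ Q y) := by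
    have h2 := hy.subst (h' := (Q : ℝ)) id 1 Q (by
      intro τ
      rw [Units.val_one, one_mul, id]
      have := Fermat.Agent.X0Places.qParam_mul_width (h := 1) one_ne_zero Q (τ : ℂ)
      rw [mul_one] at this
      exact this.symm)
    rwa [Fermat.Agent.ModPoly.twist_one] at h2
  have h4 := h3.unique (natCast_pos Q) (hasLaurent_unscale ha)
  obtain ⟨g, hg1, hg2⟩ := exists_of_coeffMap_qExpand ι Q h4
  exact ⟨g, ⟨_, h1, by rw [hg2]; exact hy⟩, hg1.symm⟩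

end AnFun

/-! ### the embedding `g(τ) ↦ g(Qτ)` -/

section Scale

variable [NeZero N] (hN : N ∣ Q)

include hN in
theorem Gs_le : Gs Q ≤ Gamma0 (N * Q) := by
  intro g hg
  have h1 : g ∈ Gamma0 (Q ^ 2) := DS1.G1_le_gamma0 hg
  rw [Gamma0_mem, ZMod.intCast_zmod_eq_zero_iff_dvd] at h1 ⊢
  have h2 : N * Q ∣ Q ^ 2 := by
    rw [pow_two]
    exact mul_dvd_mul_right hN Q
  exact (Int.natCast_dvd_natCast.2 h2).trans h1

include hN in
theorem isAnG_scaleQ {f : ℍ → ℂ} (hf : IsAnG (Gamma0 N) N f) :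
    IsAnG (Gs Q) (Q ^ 2) (fun τ => f (scaleH Q (Nat.pos_of_ne_zero (NeZero.ne Q)) τ)) := by
  have h1 := hf.scale N Q
  have h0 : NeZero (N * Q) := ⟨mul_ne_zero (NeZero.ne N) (NeZero.ne Q)⟩
  obtain ⟨d, hd⟩ := hN
  have hd0 : NeZero d := ⟨by rintro rfl; exact NeZero.ne Q (by rw [hd, mul_zero])⟩
  have h2 := h1.widen (N * Q) d (Gs_le (Dvd.intro d hd.symm))
  have h3 : N * Q * d = Q ^ 2 := by
    rw [pow_two]
    conv_rhs => rw [hd]
    conv_lhs => rw [hd]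
    ring
  rwa [h3] at h2

variable {L : Type*} [Field L] (ι : L →+* ℂ)

include hN in
theorem scaleQ_mem {x : LaurentSeries L} (hx : x ∈ FG ι (Gamma0 N) N) :
    qExpand L Q x ∈ FG ι (Gs Q) (Q ^ 2) := by
  obtain ⟨a, ⟨f, hf, ha⟩, b, ⟨g, hg, hb⟩, hb0, h⟩ := hx
  refine ⟨qExpand L Q a, ⟨_, isAnG_scaleQ hN hf, hasLaurent_scale Q ha⟩, qExpand L Q b,
    ⟨_, isAnG_scaleQ hN hg, hasLaurent_scale Q hb⟩, ?_, by rw [← map_mul, h]⟩
  intro h0
  exact hb0 (qExpand_injective Q (h0.trans (map_zero _).symm))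

/-- `g(τ) ↦ g(Qτ)` -/
def scaleQ : FG ι (Gamma0 N) N →+* FG ι (Gs Q) (Q ^ 2) where
  toFun x := ⟨qExpand L Q x, scaleQ_mem hN ι x.2⟩
  map_one' := Subtype.ext (map_one (qExpand L Q))
  map_mul' _ _ := Subtype.ext (map_mul (qExpand L Q) _ _)
  map_zero' := Subtype.ext (map_zero (qExpand L Q))
  map_add' _ _ := Subtype.ext (map_add (qExpand L Q) _ _)

@[simp] theorem coe_scaleQ (x : FG ι (Gamma0 N) N) :
    ((scaleQ hN ι x : FG ι (Gs Q) (Q ^ 2)) : LaurentSeries L) = qExpand L Q x := rfl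

theorem toM_scaleQ (x : FG ι (Gamma0 N) N) :
    toM ι (Gs Q) (Q ^ 2) (scaleQ hN ι x) =
      compG (heckeDiagMatrix Q) (toM ι (Gamma0 N) N x) := by
  have hq := Nat.pos_of_ne_zero (NeZero.ne Q)
  have h1 : (toM ι (Gs Q) (Q ^ 2)).comp (scaleQ hN ι) =
      (compG (heckeDiagMatrix Q)).comp (toM ι (Gamma0 N) N) := by
    apply fg_ringHom_ext
    intro a
    rw [RingHom.comp_apply, RingHom.comp_apply, toM_coe,
      compG_algebraMap _ (det_heckeDiagMatrix_pos Q)]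
    have h2 : ((glHolo (heckeDiagMatrix Q) (det_heckeDiagMatrix_pos Q) (LG.anHom ι (Gamma0 N) N a) :
        Holo) : ℍ → ℂ) = fun τ => LG.anFn a (scaleH Q hq τ) := by
      funext τ
      rw [glHolo_apply, LG.heckeDiag_smul Q hq]
      rfl
    have h3 : ((scaleQ hN ι (algebraMap (LG.AnR ι (Gamma0 N) N) (FG ι (Gamma0 N) N) a) :
        FG ι (Gs Q) (Q ^ 2)) : LaurentSeries L) = qExpand L Q (a : LaurentSeries L) := by
      rw [coe_scaleQ, algebraMap_an]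
    have h4 : IsAnG (Gs Q) (Q ^ 2) ((glHolo (heckeDiagMatrix Q) (det_heckeDiagMatrix_pos Q)
        (LG.anHom ι (Gamma0 N) N a) : Holo) : ℍ → ℂ) := by
      rw [h2]
      exact isAnG_scaleQ hN (isAnG_anFn a)
    refine toM_of_mem _ h4 ?_
    have h5 := hasLaurent_scale (f := LG.anFn a) (a := (a : LaurentSeries L)) Q (LG.hasLaurent_anFn a)
    rw [h2, h3]
    exact h5
  exact RingHom.congr_fun h1 x

theorem toM_injective {Γ : Subgroup SL(2, ℤ)} {K : ℕ} : Injective (toM ι Γ K) :=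
  (toM ι Γ K).injective

variable [IsAlgClosed L] [Algebra ℚ L] (hQ : 2 < Q)

/-- the functions `g(Qτ)` are invariant under `Γ₀(N)` -/
theorem act_scaleQ {γ : SL(2, ℤ)} (hγ : γ ∈ Gamma0 N) (x : FG ι (Gamma0 N) N) :
    act ι hQ γ (scaleQ hN ι x) = scaleQ hN ι x := by
  apply toM_injective
  rw [toM_act, toM_scaleQ, ← compG_mul _ _ (det_heckeDiagMatrix_pos Q) (det_dgam_pos Q γ)]
  have h1 : heckeDiagMatrix Q * dgam Q γ = mapGL ℝ γ * heckeDiagMatrix Q := by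
    rw [dgam]; group
  rw [h1, compG_mul _ _ (det_mapGL_pos γ) (det_heckeDiagMatrix_pos Q), compG_mapGL,
    compMer_toM hγ]

/-! ### the action of the finite group -/

/-- the action on the left -/
def actH : SL(2, ℤ) →* (FG ι (Gs Q) (Q ^ 2) ≃ₐ[L] FG ι (Gs Q) (Q ^ 2)) where
  toFun γ := act ι hQ γ⁻¹
  map_one' := by
    ext f
    rw [inv_one, act_one]
    rfl
  map_mul' γ γ' := by
    apply AlgEquiv.ext
    intro f
    rw [mul_inv_rev, act_mul]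
    rfl

theorem actH_apply (γ : SL(2, ℤ)) (f : FG ι (Gs Q) (Q ^ 2)) :
    actH ι hQ γ f = act ι hQ γ⁻¹ f := rfl

theorem fix_act_of_mem_PG {γ : SL(2, ℤ)} (hγ : γ ∈ PG Q) (f : FG ι (Gs Q) (Q ^ 2)) :
    act ι hQ γ f = f := by
  apply toM_injective
  obtain ⟨γ', h1, h2⟩ := exists_Gs Q hγ
  rw [toM_act, h2, compG_mapGL, compMer_toM h1]

theorem PG_le_ker : PG Q ≤ (actH ι hQ).ker := by
  intro γ hγ
  rw [MonoidHom.mem_ker]
  apply AlgEquiv.ext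
  intro f
  rw [actH_apply, fix_act_of_mem_PG ι hQ (inv_mem hγ)]
  rfl

instance finite_range_actH : Finite (actH ι hQ).range := by
  have h0 : Gamma Q ≤ PG Q := fun γ hγ => (mem_PG Q).2 (Or.inl hγ)
  have h1 : (actH ι hQ).ker.FiniteIndex := Subgroup.finiteIndex_of_le (h0.trans (PG_le_ker ι hQ))
  have h2 : Finite (SL(2, ℤ) ⧸ (actH ι hQ).ker) := inferInstance
  exact Finite.of_equiv _ (QuotientGroup.quotientKerEquivRange (actH ι hQ)).toEquiv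

/-! ### fixed fields -/

/-- **analytic functions fixed by `Γ₀(N)`** -/
theorem exists_anR_of_fix {x : FG ι (Gs Q) (Q ^ 2)}
    (hx : (x : LaurentSeries L) ∈ LG.AnR ι (Gs Q) (Q ^ 2))
    (hfix : ∀ γ ∈ Gamma0 N, act ι hQ γ x = x) :
    ∃ g ∈ LG.AnR ι (Gamma0 N) N, (x : LaurentSeries L) = qExpand L Q g := by
  let a : LG.AnR ι (Gs Q) (Q ^ 2) := ⟨x, hx⟩
  have ha : algebraMap (LG.AnR ι (Gs Q) (Q ^ 2)) (FG ι (Gs Q) (Q ^ 2)) a = x := Subtype.ext rfl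
  refine exists_of_inv (isAnG_anFn a) (fun γ hγ τ => ?_) (LG.hasLaurent_anFn a)
  obtain ⟨b, hb1, hb2⟩ := exists_act_coe ι hQ γ a
  rw [ha, hfix γ hγ, ← ha] at hb1
  have hab : a = b := (IsFractionRing.injective (LG.AnR ι (Gs Q) (Q ^ 2))
    (FG ι (Gs Q) (Q ^ 2))) hb1
  rw [← hab] at hb2
  exact (congrFun hb2 τ).symm

/-- the finite group of automorphisms defined by `Γ₀(N)` -/
def HN (N : ℕ) : Subgroup (FG ι (Gs Q) (Q ^ 2) ≃ₐ[L] FG ι (Gs Q) (Q ^ 2)) :=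
  (Gamma0 N).map (actH ι hQ)

instance finite_HN : Finite (HN ι hQ N) := by
  have h1 : HN ι hQ N ≤ (actH ι hQ).range := by
    rintro x ⟨γ, -, rfl⟩
    exact ⟨γ, rfl⟩
  exact Finite.of_injective (Subgroup.inclusion h1) (Subgroup.inclusion_injective h1)

theorem act_of_HN {x : FG ι (Gs Q) (Q ^ 2)} :
    (∀ h : HN ι hQ N, (h : FG ι (Gs Q) (Q ^ 2) ≃ₐ[L] FG ι (Gs Q) (Q ^ 2)) x = x) ↔
      ∀ γ ∈ Gamma0 N, act ι hQ γ x = x := by
  constructor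
  · intro h γ hγ
    have h1 := h ⟨actH ι hQ γ⁻¹, ⟨γ⁻¹, inv_mem hγ, rfl⟩⟩
    rw [actH_apply, inv_inv] at h1
    exact h1
  · rintro h ⟨g, γ, hγ, rfl⟩
    rw [actH_apply]
    exact h _ (inv_mem hγ)

/-- the ring of analytic elements -/
def SAn : Subring (FG ι (Gs Q) (Q ^ 2)) :=
  (LG.AnR ι (Gs Q) (Q ^ 2)).comap (FG ι (Gs Q) (Q ^ 2)).val.toRingHom

theorem mem_SAn {c : FG ι (Gs Q) (Q ^ 2)} : c ∈ SAn (Q := Q) ι ↔
    (c : LaurentSeries L) ∈ LG.AnR ι (Gs Q) (Q ^ 2) := Iff.rfl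

theorem HN_mem_SAn (h : HN ι hQ N) {c : FG ι (Gs Q) (Q ^ 2)} (hc : c ∈ SAn (Q := Q) ι) :
    (h : FG ι (Gs Q) (Q ^ 2) ≃ₐ[L] FG ι (Gs Q) (Q ^ 2)) c ∈ SAn (Q := Q) ι := by
  obtain ⟨h, γ, -, rfl⟩ := h
  exact act_mem_anR ι hQ γ⁻¹ hc

/-- **functions fixed by `Γ₀(N)`** -/
theorem exists_of_fix {x : FG ι (Gs Q) (Q ^ 2)}
    (hfix : ∀ γ ∈ Gamma0 N, act ι hQ γ x = x) :
    ∃ g ∈ FG ι (Gamma0 N) N, (x : LaurentSeries L) = qExpand L Q g := by
  obtain ⟨a, ha, b, hb, hb0, hab⟩ := x.2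
  obtain ⟨c, hc, d, hd, hd0, hcd, hdfix⟩ := exists_div_of_fix (SAn (Q := Q) ι)
    (HN ι hQ N) (fun h c hc => HN_mem_SAn ι hQ h hc)
    (a := ⟨a, LG.anR_le_FG ha⟩) (b := ⟨b, LG.anR_le_FG hb⟩) ha hb
    (fun h => hb0 (congrArg Subtype.val h)) (Subtype.ext hab)
  rw [act_of_HN] at hdfix
  obtain ⟨g₁, hg₁, h1⟩ := exists_anR_of_fix ι hQ hd hdfix
  obtain ⟨g₂, hg₂, h2⟩ := exists_anR_of_fix ι hQ hc fun γ hγ => by
    rw [← hcd, map_mul, hfix γ hγ, hdfix γ hγ]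
  refine ⟨g₂ / g₁, div_mem (LG.anR_le_FG hg₂) (LG.anR_le_FG hg₁), ?_⟩
  have hd0' : qExpand L Q g₁ ≠ 0 := by
    rw [← h1]
    exact fun h => hd0 (Subtype.ext h)
  rw [map_div₀, eq_div_iff hd0', ← h2, ← h1, ← hcd]
  rfl

include hN in
/-- **fixed field of `Γ₀(N)`** -/
theorem fix_iff {x : FG ι (Gs Q) (Q ^ 2)} : (∀ γ ∈ Gamma0 N, act ι hQ γ x = x) ↔
    ∃ g ∈ FG ι (Gamma0 N) N, (x : LaurentSeries L) = qExpand L Q g := by
  refine ⟨exists_of_fix ι hQ, ?_⟩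
  rintro ⟨g, hg, h⟩ γ hγ
  have h1 : x = scaleQ hN ι ⟨g, hg⟩ := Subtype.ext h
  rw [h1, act_scaleQ hN ι hQ hγ]

theorem FG_gamma0_eq_full (N : ℕ) [NeZero N] :
    FG ι (Gamma0 N) N = modularFunctionFieldFullC L N :=
  (FG_gamma0 ι N).trans (Fermat.Agent.HeckeRed.laurentBaseChange_full L N)

theorem fix_full_one : modularFunctionFieldFullC L 1 =
    IntermediateField.adjoin L {jqModC L} := by
  apply le_antisymm
  · rw [modularFunctionFieldFullC, IntermediateField.adjoin_le_iff]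
    rintro _ ⟨d, hd, hd1, rfl⟩
    obtain rfl := Nat.dvd_one.1 hd1
    refine IntermediateField.subset_adjoin _ _ ?_
    rw [Set.mem_singleton_iff, qExpand_one_apply]
  · rw [IntermediateField.adjoin_le_iff, Set.singleton_subset_iff]
    exact jqModC_mem_full L 1

/-- **fixed field of `SL₂(ℤ)`** -/
theorem fix_all_iff {x : FG ι (Gs Q) (Q ^ 2)} : (∀ γ, act ι hQ γ x = x) ↔
    ∃ g ∈ IntermediateField.adjoin L {jqModC L}, (x : LaurentSeries L) = qExpand L Q g := by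
  have h1 := fix_iff (N := 1) (one_dvd Q) ι hQ (x := x)
  rw [FG_gamma0_eq_full ι 1, fix_full_one] at h1
  rw [← h1]
  refine ⟨fun h γ _ => h γ, fun h γ => h γ ?_⟩
  rw [Gamma0_mem]
  exact Subsingleton.elim _ _

end Scale

end Fermat.Agent.XMB
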