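import Fermat.Agent.XMB.EisRed
import Fermat.Agent.DS1.Main
import Fermat.Agent.LG.RedT
import Fermat.Agent.LG.Deg

/-!
# The test functions `phiL` are modular functions on `G1 (Q²) Q`
-/

set_option autoImplicit false
set_option linter.unusedSectionVars false

noncomputable section

open UpperHalfPlane Function ModularCurve Filter ModularForm CongruenceSubgroup
open scoped Manifold MatrixGroups Topology ModularForm

namespace Fermat.Agent.XMB

open Fermat.Agent.X0Places Fermat.Agent.TorsCmp Fermat.Agent.LG Fermat.Agent.WOne Fermat.Agent.XM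
open Function.Periodic (qParam)
open Matrix.SpecialLinearGroup (mapGL)

variable {Q : ℕ} [NeZero Q]

/-! ### the Eisenstein series of weight three -/

variable (Q) in
/-- normalising constant -/
def cQ : ℂ := (Q : ℂ) ^ 3 * (lipC 3)⁻¹

variable (Q) in
theorem cQ_ne_zero : cQ Q ≠ 0 :=
  mul_ne_zero (pow_ne_zero _ (by exact_mod_cast NeZero.ne Q)) (inv_ne_zero (lipC_ne_zero 3))

/-- normalised Eisenstein series of weight three -/
def gE (v : Fin 2 → ZMod Q) (τ : ℍ) : ℂ := cQ Q * G Q 3 v τ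

theorem mdiff_gE (v : Fin 2 → ZMod Q) : MDiff (gE v) :=
  mdifferentiable_const.mul (mdiff_G Q (by norm_num) v)

theorem vec_eta (v : Fin 2 → ZMod Q) : ![v 0, v 1] = v := by
  funext i; fin_cases i <;> rfl

theorem hasQExp_gE {v : Fin 2 → ZMod Q} (hv : v ≠ 0) :
    HasQExp Q (gE v) (PGs Q ℂ (zetaM Q) v) := by
  have h1 := G_expansion Q (k := 3) (by norm_num) (v 0) (v 1)
  rw [vec_eta] at h1
  have h2 : Pser Q ℂ (zetaM Q) (cst Q 3 (v 1)) 3 (v 0) (v 1) = PGs Q ℂ (zetaM Q) v := by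
    rw [PGs]
    by_cases h0 : v 0 = 0
    · have h1' : v 1 ≠ 0 := by
        intro h
        apply hv
        funext i; fin_cases i
        · exact h0
        · exact h
      rw [cst_eq (Or.inl rfl) h1', cstK, if_neg h1']
    · rw [Pser, Pser]
      congr 1
      funext r
      rw [if_neg h0, if_neg h0]
  rw [h2] at h1
  exact h1

theorem gE_smul (v : Fin 2 → ZMod Q) (γ : SL(2, ℤ)) (τ : ℍ) :
    gE v (γ • τ) = ((γ 1 0 : ℂ) * τ + γ 1 1) ^ 3 * gE (vact v γ) τ := by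
  have h := congrFun (G_slash Q 3 v γ) τ
  rw [SL_slash_apply] at h
  have hd : UpperHalfPlane.denom γ τ ≠ 0 := denom_ne_zero _ τ
  have hd' : UpperHalfPlane.denom γ τ = (γ 1 0 : ℂ) * τ + γ 1 1 := Fermat.Agent.JInv.denom_eq γ τ
  have h3 : G Q 3 (vact v γ) τ = G Q 3 v (γ • τ) * (UpperHalfPlane.denom γ τ ^ 3)⁻¹ := by
    rw [← h, _root_.zpow_neg]
    norm_cast
  rw [gE, gE, h3, ← hd']
  field_simp

/-- the weight zero quotient `g_v g_u³ / Δ` -/
def Psi (v u : Fin 2 → ZMod Q) (τ : ℍ) : ℂ := gE v τ * gE u τ ^ 3 / ModularForm.discriminant τ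

theorem Psi_smul (v u : Fin 2 → ZMod Q) (γ : SL(2, ℤ)) (τ : ℍ) :
    Psi v u (γ • τ) = Psi (vact v γ) (vact u γ) τ := by
  have hden : (γ 1 0 : ℂ) * τ + γ 1 1 ≠ 0 := denom_SL_ne_zero γ τ
  have hd := ModularForm.discriminant_ne_zero τ
  rw [Psi, gE_smul, gE_smul, Fermat.Agent.MzCusp.disc_smul, Psi]
  generalize (γ 1 0 : ℂ) * τ + γ 1 1 = c at *
  rw [div_eq_div_iff (mul_ne_zero (pow_ne_zero _ hden) hd) hd]
  ring

theorem mdiff_Psi (v u : Fin 2 → ZMod Q) : MDiff (Psi v u) := by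
  have h1 : MDiff (gE v * gE u ^ 3) := (mdiff_gE v).mul ((mdiff_gE u).pow 3)
  have h2 : MDiff ModularForm.discriminant := CuspForm.discriminant.holo'
  rw [UpperHalfPlane.mdifferentiable_iff] at h1 h2 ⊢
  have h3 : (Psi v u) ∘ ofComplex =
      ((gE v * gE u ^ 3) ∘ ofComplex) / (ModularForm.discriminant ∘ ofComplex) := rfl
  rw [h3]
  exact h1.div h2 fun z _ => ModularForm.discriminant_ne_zero _

/-! ### expansions -/

theorem prim_ne_zero {v : Fin 2 → ZMod Q} (h3 : 2 < Q) (hv : Prim Q v) : v ≠ 0 := by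
  rintro rfl
  obtain ⟨x, y, h⟩ := hv
  have hM : Fact (1 < Q) := ⟨by omega⟩
  simp at h

theorem hasLaurent_Psi {v u : Fin 2 → ZMod Q} (hv : v ≠ 0) (hu : u ≠ 0) :
    HasLaurent Q (Psi v u) (phiL Q ℂ (zetaM Q) v u) := by
  have h1 := HasLaurent.of_qExp (hasQExp_gE hv)
  have h2 := HasLaurent.of_qExp (hasQExp_gE hu)
  have h3 := Fermat.Agent.MzCusp.hasLaurent_discInv.subst (h' := (Q : ℝ)) id 1 Q (by
    intro τ
    rw [Units.val_one, one_mul, id]
    have := qParam_mul_width (h := 1) one_ne_zero Q (τ : ℂ)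
    rw [mul_one] at this
    exact this.symm)
  rw [Fermat.Agent.ModPoly.twist_one] at h3
  have h4 := (h1.mul (hasLaurent_pow h2 3)).mul h3
  have e : Psi v u = gE v * gE u ^ 3 * (fun τ => (ModularForm.discriminant τ)⁻¹) ∘ id := by
    funext τ
    simp only [Psi, Pi.mul_apply, Pi.pow_apply, Function.comp, id]
    rw [div_eq_mul_inv]
  rw [e]
  exact h4

/-! ### the functions at level `G1 (Q²) Q` -/

/-- `Psi v u (Q τ)` -/
def aF (v u : Fin 2 → ZMod Q) (τ : ℍ) : ℂ :=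
  Psi v u (scaleH Q (Nat.pos_of_ne_zero (NeZero.ne Q)) τ)

theorem mdiff_aF (v u : Fin 2 → ZMod Q) : MDiff (aF v u) :=
  mdiff_affH Q 1 0 _ one_pos (mdiff_Psi v u)

theorem hasLaurent_aF {v u : Fin 2 → ZMod Q} (hv : v ≠ 0) (hu : u ≠ 0) :
    HasLaurent 1 (aF v u) (phiL Q ℂ (zetaM Q) v u) := by
  have hQ : (Q : ℂ) ≠ 0 := by exact_mod_cast NeZero.ne Q
  have h1 := (hasLaurent_Psi hv hu).subst (h' := 1)
    (scaleH Q (Nat.pos_of_ne_zero (NeZero.ne Q))) 1 1 (by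
    intro τ
    rw [Units.val_one, one_mul, pow_one]
    simp only [qParam, coe_scaleH]
    congr 1
    push_cast
    field_simp)
  rw [Fermat.Agent.ModPoly.twist_one, qExpand_one_apply] at h1
  exact h1

theorem vact_zero' (v : Fin 2 → ZMod Q) (γ : SL(2, ℤ)) :
    vact v γ 0 = v 0 * ((γ 0 0 : ℤ) : ZMod Q) + v 1 * ((γ 1 0 : ℤ) : ZMod Q) := by
  simp [vact, Matrix.vecMul, dotProduct, Fin.sum_univ_two]

theorem vact_one' (v : Fin 2 → ZMod Q) (γ : SL(2, ℤ)) :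
    vact v γ 1 = v 0 * ((γ 0 1 : ℤ) : ZMod Q) + v 1 * ((γ 1 1 : ℤ) : ZMod Q) := by
  simp [vact, Matrix.vecMul, dotProduct, Fin.sum_univ_two]

theorem vact_scalar {γ : SL(2, ℤ)} {e : ZMod Q} (h00 : ((γ 0 0 : ℤ) : ZMod Q) = e)
    (h01 : ((γ 0 1 : ℤ) : ZMod Q) = 0) (h10 : ((γ 1 0 : ℤ) : ZMod Q) = 0)
    (h11 : ((γ 1 1 : ℤ) : ZMod Q) = e) (v : Fin 2 → ZMod Q) : vact v γ = fun i => v i * e := by
  funext i
  fin_cases i
  · show vact v γ 0 = _
    rw [vact_zero', h00, h10, mul_zero, add_zero]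
    rfl
  · show vact v γ 1 = _
    rw [vact_one', h01, h11, mul_zero, zero_add]
    rfl

theorem neg_one_smul_H (τ : ℍ) : (-1 : SL(2, ℤ)) • τ = τ := by
  apply UpperHalfPlane.ext
  rw [coe_SL_smul]
  simp

theorem Psi_neg (v u : Fin 2 → ZMod Q) : Psi (-v) (-u) = Psi v u := by
  funext τ
  have h := Psi_smul v u (-1) τ
  rw [neg_one_smul_H] at h
  have e : ∀ v : Fin 2 → ZMod Q, vact v (-1 : SL(2, ℤ)) = -v := by
    intro v
    rw [vact_scalar (e := -1) (by simp) (by simp) (by simp) (by simp)]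
    funext i
    simp
  rw [e, e] at h
  exact h.symm

theorem scaleH_G1 {γ : SL(2, ℤ)} (hγ : γ ∈ DS1.G1 (Q ^ 2) Q) :
    ∃ (γ' : SL(2, ℤ)) (e : ZMod Q), (e = 1 ∨ e = -1) ∧
      ((γ' 0 0 : ℤ) : ZMod Q) = e ∧ ((γ' 0 1 : ℤ) : ZMod Q) = 0 ∧ ((γ' 1 0 : ℤ) : ZMod Q) = 0 ∧
      ((γ' 1 1 : ℤ) : ZMod Q) = e ∧ ∀ τ : ℍ,
        scaleH Q (Nat.pos_of_ne_zero (NeZero.ne Q)) (γ • τ) =
          γ' • scaleH Q (Nat.pos_of_ne_zero (NeZero.ne Q)) τ := by
  rw [DS1.mem_G1 (Dvd.intro_left (Q ^ 1) (by ring))] at hγ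
  obtain ⟨h0, h1⟩ := hγ
  rw [CongruenceSubgroup.Gamma0_mem, ZMod.intCast_zmod_eq_zero_iff_dvd] at h0
  obtain ⟨c', hc'⟩ := h0
  have hdet := Fermat.Agent.JInv.det_eq γ
  have hc'' : γ 1 0 = Q * (Q * c') := by rw [hc']; push_cast; ring
  refine ⟨mkSL (γ 0 0) (Q * γ 0 1) (Q * c') (γ 1 1) (by
    rw [hc''] at hdet; linear_combination hdet), ((γ 1 1 : ℤ) : ZMod Q), h1, ?_, ?_, ?_, rfl, ?_⟩
  · rw [mkSL_00]
    have h2 := congrArg (Int.cast : ℤ → ZMod Q) hdet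
    rw [hc''] at h2
    push_cast at h2
    rw [ZMod.natCast_self] at h2
    have h3 : ((γ 0 0 : ℤ) : ZMod Q) * ((γ 1 1 : ℤ) : ZMod Q) = 1 := by linear_combination h2
    rcases h1 with h1 | h1
    · rw [h1, mul_one] at h3
      rw [h1, h3]
    · rw [h1] at h3
      rw [h1]
      linear_combination -h3
  · rw [mkSL_01]; push_cast; rw [ZMod.natCast_self, zero_mul]
  · rw [mkSL_10]; push_cast; rw [ZMod.natCast_self, zero_mul]
  · intro τ
    apply UpperHalfPlane.ext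
    rw [coe_scaleH, coe_SL_smul, coe_SL_smul, coe_scaleH]
    simp only [mkSL_00, mkSL_01, mkSL_10, mkSL_11]
    have hc : (γ 1 0 : ℂ) = Q * (Q * c') := by rw [hc'']; push_cast; ring
    have h1 : ((Q * c' : ℤ) : ℂ) * ((Q : ℂ) * τ) + γ 1 1 = (γ 1 0 : ℂ) * τ + γ 1 1 := by
      rw [hc]; push_cast; ring
    rw [h1]
    push_cast
    rw [← mul_div_assoc]
    congr 1
    ring

theorem aF_smul_of_mem (v u : Fin 2 → ZMod Q) {γ : SL(2, ℤ)} (hγ : γ ∈ DS1.G1 (Q ^ 2) Q) (τ : ℍ) :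
    aF v u (γ • τ) = aF v u τ := by
  obtain ⟨γ', e, he, h00, h01, h10, h11, h⟩ := scaleH_G1 hγ
  rw [aF, h, Psi_smul, vact_scalar h00 h01 h10 h11, vact_scalar h00 h01 h10 h11]
  rcases he with rfl | rfl
  · simp only [mul_one]; rfl
  · have e1 : ∀ v : Fin 2 → ZMod Q, (fun i => v i * (-1 : ZMod Q)) = -v := by
      intro v; funext i; simp
    rw [e1, e1, Psi_neg]; rfl

theorem exp_aF (h3 : 2 < Q) {v u : Fin 2 → ZMod Q} (hv : Prim Q v) (hu : Prim Q u)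
    (γ : SL(2, ℤ)) : ∃ y, HasLaurent (Q ^ 2 : ℕ) (fun τ => aF v u (γ • τ)) y := by
  obtain ⟨γ', A, D, B, hA, hD, hAD, h⟩ :=
    exists_decomp Q (Nat.pos_of_ne_zero (NeZero.ne Q)) γ
  have hN1 : NeZero (A * A) := ⟨(Nat.mul_pos hA hA).ne'⟩
  have h1 := (hasLaurent_Psi (prim_ne_zero h3 (prim_vact hv γ'))
    (prim_ne_zero h3 (prim_vact hu γ'))).subst (h' := ((Q ^ 2 : ℕ) : ℝ)) (affH A D B hA hD)
    (Units.mk0 (Complex.exp (2 * Real.pi * Complex.I * B / (D * Q))) (Complex.exp_ne_zero _))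
    (A * A) (by
      intro τ
      rw [Units.val_mk0]
      simp only [qParam, coe_affH]
      rw [← Complex.exp_nat_mul, ← Complex.exp_add]
      congr 1
      have hDc : (D : ℂ) ≠ 0 := by exact_mod_cast hD.ne'
      have hAc : (A : ℂ) ≠ 0 := by exact_mod_cast hA.ne'
      rw [← hAD]
      push_cast
      field_simp
      ring)
  have h2 : (fun τ => aF v u (γ • τ)) = Psi (vact v γ') (vact u γ') ∘ affH A D B hA hD := by
    funext τ
    simp only [comp_apply, aF]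
    rw [h, Psi_smul]
  rw [h2]
  exact ⟨_, h1⟩

theorem isAnG_aF (h3 : 2 < Q) {v u : Fin 2 → ZMod Q} (hv : Prim Q v) (hu : Prim Q u) :
    IsAnG (DS1.G1 (Q ^ 2) Q) (Q ^ 2) (aF v u) :=
  ⟨mdiff_aF v u, exp_aF h3 hv hu, fun _ hγ τ => aF_smul_of_mem v u hγ τ⟩

/-! ### elements of the function field -/

theorem coeffMap_PG {K K' : Type*} [Field K] [Field K'] (f : K →+* K') (ζ : K)
    (v : Fin 2 → ZMod Q) : coeffMap f (PG Q K ζ v) = PG Q K' (f ζ) v := by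
  rw [PG, PG, coeffMap_ofPowerSeries]
  congr 1
  ext r
  rw [PowerSeries.coeff_map, PGs, PGs, Pser, Pser, PowerSeries.coeff_mk, PowerSeries.coeff_mk]
  split_ifs with h1 h2
  · rw [cstK, cstK]
    split_ifs with h3
    · exact map_zero f
    · rw [ratR, ratR, if_pos rfl, if_pos rfl]
      simp only [map_div₀, map_mul, map_pow, map_add, map_sub, map_one]
  · exact map_zero f
  · rw [map_sum]
    refine Finset.sum_congr rfl fun x _ => ?_
    rw [dterm, dterm, map_mul, map_pow, map_natCast, map_add, map_mul, map_pow, map_neg, map_one]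
    congr 2
    · split_ifs
      · rw [map_pow]
      · rw [map_zero]
    · congr 1
      split_ifs
      · rw [map_pow]
      · rw [map_zero]

theorem coeffMap_phiL {K K' : Type*} [Field K] [Field K'] (f : K →+* K') (ζ : K)
    (v u : Fin 2 → ZMod Q) : coeffMap f (phiL Q K ζ v u) = phiL Q K' (f ζ) v u := by
  rw [phiL, phiL, map_mul, map_mul, map_pow, coeffMap_PG, coeffMap_PG, coeffMap_dInvM]

section El

variable {L : Type*} [Field L] (ι : L →+* ℂ) {ζ : L} (hι : ι ζ = zetaM Q)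

include hι in
theorem hasLaurent_aF' {v u : Fin 2 → ZMod Q} (hv : v ≠ 0) (hu : u ≠ 0) :
    HasLaurent 1 (aF v u) (coeffMap ι (phiL Q L ζ v u)) := by
  rw [coeffMap_phiL, hι]
  exact hasLaurent_aF hv hu

include hι in
/-- the test functions are modular functions -/
theorem phi_mem_anR (h3 : 2 < Q) {v u : Fin 2 → ZMod Q} (hv : Prim Q v) (hu : Prim Q u) :
    phiL Q L ζ v u ∈ AnR ι (DS1.G1 (Q ^ 2) Q) (Q ^ 2) :=
  ⟨aF v u, isAnG_aF h3 hv hu, hasLaurent_aF' ι hι (prim_ne_zero h3 hv) (prim_ne_zero h3 hu)⟩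

/-- the test functions as elements of the function field -/
def phiF (h3 : 2 < Q) (v u : {v : Fin 2 → ZMod Q // Prim Q v}) :
    FG ι (DS1.G1 (Q ^ 2) Q) (Q ^ 2) :=
  ⟨phiL Q L ζ v u, anR_le_FG (phi_mem_anR ι hι h3 v.2 u.2)⟩

theorem coe_phiF (h3 : 2 < Q) (v u : {v : Fin 2 → ZMod Q // Prim Q v}) :
    ((phiF ι hι h3 v u : FG ι (DS1.G1 (Q ^ 2) Q) (Q ^ 2)) : LaurentSeries L) =
      phiL Q L ζ v u := rfl

theorem toM_phiF (h3 : 2 < Q) (v u : {v : Fin 2 → ZMod Q // Prim Q v}) :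
    toM ι (DS1.G1 (Q ^ 2) Q) (Q ^ 2) (phiF ι hι h3 v u) =
      algebraMap Holo Mer ⟨aF v.1 u.1, mdiff_aF v.1 u.1⟩ :=
  toM_of_mem _ (isAnG_aF h3 v.2 u.2)
    (hasLaurent_aF' ι hι (prim_ne_zero h3 v.2) (prim_ne_zero h3 u.2))

/-- the action on primitive vectors -/
def vactP (v : {v : Fin 2 → ZMod Q // Prim Q v}) (γ : SL(2, ℤ)) :
    {v : Fin 2 → ZMod Q // Prim Q v} := ⟨vact v.1 γ, prim_vact v.2 γ⟩

theorem aF_dgam (v u : Fin 2 → ZMod Q) (γ : SL(2, ℤ)) (τ : ℍ) :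
    aF v u (((heckeDiagMatrix Q)⁻¹ * mapGL ℝ γ * heckeDiagMatrix Q : GL (Fin 2) ℝ) • τ) =
      aF (vact v γ) (vact u γ) τ := by
  have hQ := Nat.pos_of_ne_zero (NeZero.ne Q)
  have h1 : scaleH Q hQ (((heckeDiagMatrix Q)⁻¹ * mapGL ℝ γ * heckeDiagMatrix Q :
      GL (Fin 2) ℝ) • τ) = γ • scaleH Q hQ τ := by
    rw [← Fermat.Agent.LG.heckeDiag_smul Q hQ, ← Fermat.Agent.LG.heckeDiag_smul Q hQ, mul_smul,
      mul_smul, smul_inv_smul]
    rfl
  rw [aF, h1, Psi_smul]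
  rfl

/-- the conjugated action of `SL(2, ℤ)` on the test functions -/
theorem compG_phiF (h3 : 2 < Q) (v u : {v : Fin 2 → ZMod Q // Prim Q v}) (γ : SL(2, ℤ)) :
    compG ((heckeDiagMatrix Q)⁻¹ * mapGL ℝ γ * heckeDiagMatrix Q)
      (toM ι (DS1.G1 (Q ^ 2) Q) (Q ^ 2) (phiF ι hι h3 v u)) =
      toM ι (DS1.G1 (Q ^ 2) Q) (Q ^ 2) (phiF ι hι h3 (vactP v γ) (vactP u γ)) := by
  have hdet : 0 < ((((heckeDiagMatrix Q)⁻¹ * mapGL ℝ γ * heckeDiagMatrix Q :
      GL (Fin 2) ℝ)).det : ℝ) := by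
    have h1 := det_heckeDiagMatrix_pos Q
    rw [map_mul, map_mul, map_inv, Units.val_mul, Units.val_mul, Units.val_inv_eq_inv_val]
    exact mul_pos (mul_pos (inv_pos.mpr h1) (det_mapGL_pos γ)) h1
  rw [toM_phiF, toM_phiF, compG_algebraMap _ hdet]
  congr 1
  apply Subtype.ext
  funext τ
  exact aF_dgam v.1 u.1 γ τ

/-- existence of the root of unity -/
theorem exists_zeta_zetaM (L : Type*) [Field L] [CharZero L] [IsAlgClosed L] (ι : L →+* ℂ) :
    ∃ ζ : L, IsPrimitiveRoot ζ Q ∧ ι ζ = zetaM Q := by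
  have : NeZero (Q : L) := ⟨Nat.cast_ne_zero.mpr (NeZero.ne Q)⟩
  obtain ⟨z, hz⟩ := HasEnoughRootsOfUnity.exists_primitiveRoot L Q
  have h1 : IsPrimitiveRoot (ι z) Q := hz.map_of_injective ι.injective
  have h2 : IsPrimitiveRoot (zetaM Q) Q := Complex.isPrimitiveRoot_exp Q (NeZero.ne Q)
  obtain ⟨i, -, hi⟩ := h1.eq_pow_of_pow_eq_one h2.pow_eq_one
  have h3 : ι (z ^ i) = zetaM Q := by rw [map_pow, hi]
  refine ⟨z ^ i, ?_, h3⟩
  apply IsPrimitiveRoot.of_map_of_injective (f := ι) _ ι.injective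
  rw [h3]
  exact h2

end El

end Fermat.Agent.XMB
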