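import Fermat.Agent.XMB.Resid

/-!
# Degrees of the fields of level `Γ₀(Q²)` over `K(j(X^Q))`
-/

set_option autoImplicit false
set_option linter.unusedSectionVars false

noncomputable section

open ModularCurve IntermediateField

namespace Fermat.Agent.XMB

open Fermat.Agent.ModDeg Fermat.Agent.HeckeRed

variable {K : Type*} [Field K] [IsAlgClosed K]

theorem map_qExpand_mul (E : IntermediateField K (LaurentSeries K)) (p d : ℕ) [NeZero p]
    [NeZero d] [h : NeZero (p * d)] :
    E.map (qExpandAlgHomC K (p * d)) = (E.map (qExpandAlgHomC K d)).map (qExpandAlgHomC K p) := by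
  rw [IntermediateField.map_map]
  congr 1
  ext1 x
  show qExpand K (p * d) x = qExpand K p (qExpand K d x)
  exact (qExpand_qExpand d p x).symm

/-- `[F_{Nd} : V_d F_N] ψ(N) = ψ(Nd)` -/
theorem relfinrank_map_full_gen (d : ℕ) : ∀ (N : ℕ) [NeZero N] [NeZero d],
    ((N * d : ℕ) : K) ≠ 0 →
    relfinrank ((modularFunctionFieldFullC K N).map (qExpandAlgHomC K d))
      (modularFunctionFieldFullC K (N * d)) * dedekindPsi N = dedekindPsi (N * d) := by
  induction d using induction_on_primes with
  | zero =>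
    intro N _ hd
    exact absurd rfl hd.out
  | one =>
    intro N _ _ _
    have h1 : (modularFunctionFieldFullC K N).map (qExpandAlgHomC K 1) =
        modularFunctionFieldFullC K N := by
      have : qExpandAlgHomC K 1 = AlgHom.id K (LaurentSeries K) := by
        ext1 x
        exact qExpand_one_apply x
      rw [this, IntermediateField.map_id]
    rw [h1, mul_one, relfinrank_self, one_mul]
  | prime_mul p d hp ih =>
    intro N hN hpd hNK
    haveI : Fact p.Prime := ⟨hp⟩
    haveI : NeZero d := ⟨right_ne_zero_of_mul hpd.out⟩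
    haveI : NeZero (N * d) := ⟨mul_ne_zero hN.out (NeZero.ne d)⟩
    have e : N * (p * d) = (N * d) * p := by ring
    have hNdK : ((N * d * p : ℕ) : K) ≠ 0 := by rw [← e]; exact hNK
    have hNd : ((N * d : ℕ) : K) ≠ 0 := by
      intro h0
      apply hNdK
      rw [Nat.cast_mul, h0, zero_mul]
    have h1 := ih N hNd
    have h2 := relfinrank_map_full (K := K) (N := N * d) (p := p) hNdK
    rw [e, map_qExpand_mul]
    have h3 := relfinrank_mul_relfinrank
      (IntermediateField.map_mono (qExpandAlgHomC K p) (full_degeneracyC_map_le K N d))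
      (full_degeneracyC_map_le K (N * d) p)
    rw [relfinrank_map_map] at h3
    rw [← h3, ← h2, ← h1]
    ring

/-- **`[F_{Q²} : K(j(X^Q))] = ψ(Q²)`.** -/
theorem relfinrank_h_full (Q : ℕ) [NeZero Q] (hQ : (Q : K) ≠ 0) :
    relfinrank (adjoin K {qExpand K Q (jqModC K)}) (modularFunctionFieldFullC K (Q * Q)) =
      dedekindPsi (Q * Q) := by
  have hQQ : ((Q * Q : ℕ) : K) ≠ 0 := by
    rw [Nat.cast_mul]; exact mul_ne_zero hQ hQ
  have h1 := relfinrank_map_full_gen (K := K) Q Q hQQ
  have h2 := relfinrank_mul_relfinrank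
    (IntermediateField.map_mono (qExpandAlgHomC K Q) (adjoin_jq_le_full (K := K) Q))
    (full_degeneracyC_map_le K Q Q)
  rw [relfinrank_map_map, relfinrank_full_of_isAlgClosed Q hQ, map_adjoin_h] at h2
  rw [← h2, mul_comm, h1]

theorem relfinrank_h_eq_j (Q : ℕ) [NeZero Q] (hQ : (Q : K) ≠ 0)
    {E : IntermediateField K (LaurentSeries K)} (hE : modularFunctionFieldFullC K (Q ^ 2) ≤ E) :
    relfinrank (adjoin K {qExpand K Q (jqModC K)}) E = relfinrank (adjoin K {jqModC K}) E := by
  rw [pow_two] at hE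
  have hQQ : ((Q * Q : ℕ) : K) ≠ 0 := by
    rw [Nat.cast_mul]; exact mul_ne_zero hQ hQ
  haveI : NeZero (Q * Q) := ⟨mul_ne_zero (NeZero.ne Q) (NeZero.ne Q)⟩
  have h1 : adjoin K {qExpand K Q (jqModC K)} ≤ modularFunctionFieldFullC K (Q * Q) := by
    rw [adjoin_le_iff, Set.singleton_subset_iff]
    exact jqModCd_mem_full K (Q * Q) (Dvd.intro Q rfl)
  rw [← relfinrank_mul_relfinrank h1 hE, ← relfinrank_mul_relfinrank (adjoin_jq_le_full _) hE,
    relfinrank_h_full Q hQ, relfinrank_full_of_isAlgClosed (Q * Q) hQQ]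

end Fermat.Agent.XMB
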