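import Fermat.Agent.XMB.Resid
import Fermat.Agent.XMB.PhiAn
import Fermat.Agent.XMB.Act2
import Fermat.Agent.XMB.Fix
import Fermat.Agent.XMB.PsiH

/-!
# The field of level `Γ(Q)`: stability of the Gauss valuation, residue field
-/

set_option autoImplicit false
set_option linter.unusedSectionVars false
set_option linter.style.haveILetI false

noncomputable section

open UpperHalfPlane Function ModularCurve Filter ModularForm AlgebraicCurve WithZero
  CongruenceSubgroup IntermediateField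
open scoped Manifold MatrixGroups Topology ModularForm

namespace Fermat.Agent.XMB

open Fermat.Agent.X0Places Fermat.Agent.TorsCmp Fermat.Agent.FunField Fermat.Agent.LG
open Fermat.Agent.Igusa Fermat.Agent.LGRes Fermat.Agent.WOne Fermat.Agent.XM
open Fermat.Agent.ModPoly (twist)

variable {Q : ℕ} [hQ : NeZero Q] {L : Type*} [Field L] [Algebra ℚ L] [IsAlgClosed L]
  (ι : L →+* ℂ) (hQ2 : 2 < Q)

theorem exists_zetaU (ι : L →+* ℂ) : ∃ ζ : Lˣ, Units.map (ι : L →* ℂ) ζ = zetaN Q ∧ ζ ^ Q = 1 := by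
  haveI : CharZero L := charZero_of_injective_algebraMap (algebraMap ℚ L).injective
  obtain ⟨ζ, hζ, hι⟩ := exists_zeta_zetaM (Q := Q) L ι
  refine ⟨(hζ.isUnit (NeZero.ne Q)).unit, ?_, ?_⟩
  · apply Units.ext
    show ι ζ = _
    rw [hι, zetaN, Units.val_mk0, zetaM]
  · apply Units.ext
    show ζ ^ Q = 1
    exact hζ.pow_eq_one

theorem gamma_le_PG : Gamma Q ≤ PG Q := by
  intro γ hγ
  rw [mem_PG_iff]
  rw [Gamma_mem] at hγ
  exact ⟨hγ.2.1, hγ.2.2.1, Or.inl ⟨hγ.1, hγ.2.2.2⟩⟩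

/-- the action data -/
def actData : ActData Q (FG ι (Gs Q) (Q ^ 2)) where
  act := act ι hQ2
  act_mul := act_mul ι hQ2
  act_one := act_one ι hQ2
  act_gam γ hγ f := (act_eq_iff ι hQ2).mpr (gamma_le_PG hγ) f
  ζ := (exists_zetaU (Q := Q) ι).choose
  hζ := (exists_zetaU (Q := Q) ι).choose_spec.2
  act_T := act_T ι hQ2 (exists_zetaU (Q := Q) ι).choose_spec.1

theorem jqh_mem : qExpand L Q (jqModC L) ∈ FG ι (Gs Q) (Q ^ 2) := by
  have h1 : modularFunctionFieldFullC L Q ≤ FG ι (Gamma0 Q) Q := (FG_gamma0_eq_full ι Q).ge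
  have h2 := scaleQ_mem (Q := Q) (dvd_refl Q) ι (h1 (jqModC_mem_full L Q))
  exact h2

theorem fixH : (actData (Q := Q) ι hQ2).FixH where
  mem := jqh_mem ι
  iff x := by
    rw [show (∀ γ, (actData ι hQ2).act γ x = x) ↔ ∀ γ, act ι hQ2 γ x = x from Iff.rfl,
      fix_all_iff]
    simp only [eq_comm]

section Red

variable {A : ValuationSubring L} {κ : Type*} [Field κ] {π : A →+* κ} [IsLocalHom π]
  (hF : IsTameField (FG ι (Gs Q) (Q ^ 2)))

include hQ2 in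
/-- **H2**: no non trivial element acts trivially on the residue field. -/
theorem act_trivial_of_red (hQκ : (Q : κ) ≠ 0) (γ : SL(2, ℤ))
    (h : ∀ x : FG ι (Gs Q) (Q ^ 2), (∀ γ', act ι hQ2 γ' x ∈ gaussVal A π hF) →
      Red A π ((act ι hQ2 γ x : LaurentSeries L) - (x : LaurentSeries L)) 0) :
    ∀ f, act ι hQ2 γ f = f := by
  haveI : CharZero L := charZero_of_injective_algebraMap (algebraMap ℚ L).injective
  obtain ⟨ζ, hζ, hι⟩ := exists_zeta_zetaM (Q := Q) L ι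
  have hζA : ζ ∈ A := zeta_mem A (M := Q) hζ.pow_eq_one
  have hact : ∀ (γ : SL(2, ℤ)) (v u : {v : Fin 2 → ZMod Q // Prim Q v}),
      act ι hQ2 γ (phiF ι hι hQ2 v u) = phiF ι hι hQ2 (vactP v γ) (vactP u γ) := by
    intro γ v u
    apply toM_injective ι
    rw [toM_act]
    exact compG_phiF ι hι hQ2 v u γ
  have hζ' : IsPrimitiveRoot ((⟨ζ, hζA⟩ : A) : L) Q := hζ
  have hlift := fun v w => exists_phi_lift (A := A) (π := π) hζ' hQκ v w
  have hmem : ∀ v u : {v : Fin 2 → ZMod Q // Prim Q v},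
      phiF ι hι hQ2 v u ∈ gaussVal A π hF := by
    intro v u
    rw [mem_gaussVal_iff]
    obtain ⟨P, hP, -⟩ := hlift v.1 u.1
    show phiL Q L ζ v.1 u.1 ∈ gaussRing A π
    rw [← hP]
    exact emb_mem_gaussRing P
  rw [act_eq_iff, mem_PG_iff]
  refine phiL_faithful Q hQ2 (prim_red A π hζ' hQκ) fun v w hv hw => ?_
  have h1 := h (phiF ι hι hQ2 ⟨v, hv⟩ ⟨w, hw⟩) (fun γ' => by
    rw [hact]
    exact hmem _ _)
  rw [hact] at h1
  obtain ⟨P, hP, hP'⟩ := hlift v w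
  obtain ⟨P₂, hP₂, hP₂'⟩ := hlift (vact v γ) (vact w γ)
  have h2 : Red A π (phiL Q L ζ v w) (phiL Q κ (π ⟨ζ, hζA⟩) v w) := by
    rw [← hP, ← hP']
    exact ⟨emb_mem_gaussRing P, gaussRes_emb P⟩
  have h3 : Red A π (phiL Q L ζ (vact v γ) (vact w γ))
      (phiL Q κ (π ⟨ζ, hζA⟩) (vact v γ) (vact w γ)) := by
    rw [← hP₂, ← hP₂']
    exact ⟨emb_mem_gaussRing P₂, gaussRes_emb P₂⟩
  have h4 := (h3.sub h2).unique h1
  exact sub_eq_zero.mp h4

/-- **Stability of the Gauss valuation.** -/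
theorem good_of_H1 (hQκ : (Q : κ) ≠ 0)
    (H1 : ∀ x ∈ gaussVal A π hF, (∀ γ ∈ Gamma0 Q, act ι hQ2 γ x = x) →
      ∀ γ, act ι hQ2 γ x ∈ gaussVal A π hF) :
    Good (actData (Q := Q) ι hQ2).G (gaussVal A π hF) :=
  ActData.good (actData (Q := Q) ι hQ2) hF H1
    (fun γ h => act_trivial_of_red ι hQ2 hF hQκ γ h)

end Red

theorem full_le_Gs : modularFunctionFieldFullC L (Q ^ 2) ≤ FG ι (Gs Q) (Q ^ 2) := by
  rw [← FG_gamma0_eq_full ι (Q ^ 2)]
  exact FG_mono DS1.G1_le_gamma0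

theorem coe_jG_Gs : ((jG ι (Gs Q) (Q ^ 2) : FG ι (Gs Q) (Q ^ 2)) : LaurentSeries L) =
    jqModC L := by
  show coeffEmb L jq = _
  rw [coeffEmb]
  exact map_jqModC _

/-- the order of the group is the index -/
theorem card_G_eq : Nat.card (actData (Q := Q) ι hQ2).G = Nat.card (XG (Gs Q)) := by
  haveI : CharZero L := charZero_of_injective_algebraMap (algebraMap ℚ L).injective
  haveI hMF : MF ι (Gs Q) (Q ^ 2) := DS1.mf_G1 ι (dvd_pow_self Q two_ne_zero) hQ2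
  rw [← ActData.relfinrank_F (fixH (Q := Q) ι hQ2), ← MF.deg (ι := ι) (Γ := Gs Q) (N := Q ^ 2)]
  have hQL : (Q : L) ≠ 0 := Nat.cast_ne_zero.mpr (NeZero.ne Q)
  rw [relfinrank_h_eq_j Q hQL (full_le_Gs ι), X0Places.finrank_adjoin_eq_relfinrank, coe_jG_Gs]

section Out

variable {A : ValuationSubring L} {κ : Type*} [Field κ] {π : A →+* κ} [IsLocalHom π]
  (hF : IsTameField (FG ι (Gs Q) (Q ^ 2))) (hπ : Function.Surjective π)

theorem jqh_mem_gaussImage :
    qExpand κ Q (jqModC κ) ∈ gaussImage A π hF hπ := by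
  have h1 : Red A π (jqModC L) (jqModC κ) := by
    have h2 : coeffMap A.subtype (jqModC A) = jqModC L := coeffMap_jqModC _
    have h3 : coeffMap π (jqModC A) = jqModC κ := coeffMap_jqModC _
    rw [← h2, ← h3]
    exact ⟨emb_mem_gaussRing _, gaussRes_emb _⟩
  obtain ⟨h2, h3⟩ := LG.Red.qExpand h1 Q
  exact ⟨⟨⟨_, jqh_mem ι⟩, h2⟩, h3⟩

theorem full_le_gaussImage_Gs :
    modularFunctionFieldFullC κ (Q ^ 2) ≤ gaussImage A π hF hπ := by
  intro y hy
  obtain ⟨x, hx⟩ := full_le_gaussImage (L := L) A π hπ (Q ^ 2) hy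
  exact ⟨⟨⟨_, full_le_Gs ι x.1.2⟩, x.2⟩, hx⟩

variable (hg : Good (actData (Q := Q) ι hQ2).G (gaussVal A π hF))

include hg in
theorem relfinrank_gaussImage :
    relfinrank (adjoin κ {qExpand κ Q (jqModC κ)}) (gaussImage A π hF hπ) =
      Nat.card (XG (Gs Q)) := by
  rw [ActData.relfinrank_h hF (fixH (Q := Q) ι hQ2) hg hπ, card_G_eq]

include hg in
theorem relfinrank_gaussImage_j [IsAlgClosed κ] (hQκ : (Q : κ) ≠ 0) :
    relfinrank (adjoin κ {jqModC κ}) (gaussImage A π hF hπ) = Nat.card (XG (Gs Q)) := by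
  rw [← relfinrank_h_eq_j Q hQκ (full_le_gaussImage_Gs ι hF hπ),
    relfinrank_gaussImage ι hQ2 hF hπ hg]

include hg in
theorem finrank_gaussImage (h1 : gaussImage A π hF hπ)
    (hh1 : (h1 : LaurentSeries κ) = qExpand κ Q (jqModC κ)) :
    Module.finrank κ⟮h1⟯ (gaussImage A π hF hπ) = Nat.card (XG (Gs Q)) := by
  rw [X0Places.finrank_adjoin_eq_relfinrank, hh1, relfinrank_gaussImage ι hQ2 hF hπ hg]

include hg in
theorem isGalois_gaussImage (h1 : gaussImage A π hF hπ)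
    (hh1 : (h1 : LaurentSeries κ) = qExpand κ Q (jqModC κ)) :
    IsGalois κ⟮h1⟯ (gaussImage A π hF hπ) :=
  ActData.isGalois_h hF (fixH (Q := Q) ι hQ2) hg hπ h1 hh1

end Out

include hQ2 in
theorem finrank_Gs (h1 : FG ι (Gs Q) (Q ^ 2))
    (hh1 : (h1 : LaurentSeries L) = qExpand L Q (jqModC L)) :
    Module.finrank L⟮h1⟯ (FG ι (Gs Q) (Q ^ 2)) = Nat.card (XG (Gs Q)) := by
  rw [X0Places.finrank_adjoin_eq_relfinrank, hh1, ActData.relfinrank_F (fixH (Q := Q) ι hQ2),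
    card_G_eq]

include hQ2 in
theorem isGalois_Gs (h1 : FG ι (Gs Q) (Q ^ 2))
    (hh1 : (h1 : LaurentSeries L) = qExpand L Q (jqModC L)) :
    IsGalois L⟮h1⟯ (FG ι (Gs Q) (Q ^ 2)) :=
  ActData.isGalois_F (fixH (Q := Q) ι hQ2) h1 hh1

end Fermat.Agent.XMB
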