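import Mathlib
import Fermat.Agent.XM.Abs

/-!
# Residue fields of the fixed fields of a group preserving a valuation ring
-/

set_option autoImplicit false

noncomputable section

namespace Fermat.Agent.XMB

open Finset Fermat.Agent.XM.Abs

variable {F : Type*} [Field F] {G : Type*} [Group G] [MulSemiringAction G F]
  {W : ValuationSubring F}

/-- `G` preserves `W` and acts faithfully on the residue field. -/
structure Good (G : Type*) [Group G] [MulSemiringAction G F] (W : ValuationSubring F) : Prop where
  stab : ∀ x ∈ W, ∀ g : G, g • x ∈ W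
  faith : ∀ g : G, (∀ x ∈ W, W.valuation (g • x - x) < 1) → g = 1

namespace Good

variable (h : Good G W)
include h

theorem mem_R {x : F} (hx : x ∈ W) : x ∈ R G W := fun g => h.stab x hx g

theorem smul_mem_iff (g : G) {x : F} : g • x ∈ W ↔ x ∈ W := by
  refine ⟨fun hx => ?_, fun hx => h.stab x hx g⟩
  have := h.stab _ hx g⁻¹
  rwa [inv_smul_smul] at this

theorem valuation_smul_lt (g : G) {x : F} : W.valuation (g • x) < 1 ↔ W.valuation x < 1 := by
  have key : ∀ (g : G) (x : F), W.valuation x < 1 → W.valuation (g • x) < 1 := by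
    intro g x hx
    by_contra hcon
    rw [not_lt] at hcon
    have hx0 : x ≠ 0 := by
      rintro rfl
      rw [smul_zero, map_zero] at hcon
      exact absurd hcon (not_le.mpr zero_lt_one)
    have h1 : (g • x)⁻¹ ∈ W := by
      rw [← W.valuation_le_one_iff, map_inv₀]
      exact inv_le_one_of_one_le₀ hcon
    have h2 := h.stab _ h1 g⁻¹
    rw [smul_inv'', inv_smul_smul, ← W.valuation_le_one_iff, map_inv₀] at h2
    have h6 : W.valuation x ≠ 0 := (Valuation.ne_zero_iff _).mpr hx0
    exact absurd h2 (not_le.mpr ((one_lt_inv₀ (zero_lt_iff.mpr h6)).mpr hx))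
  refine ⟨fun hx => ?_, key g x⟩
  have := key g⁻¹ _ hx
  rwa [inv_smul_smul] at this

theorem injective_phi : Function.Injective (phi (G := G) (W := W)) := by
  apply phi_injective
  intro g hg
  exact h.faith g fun x hx => hg x (h.mem_R hx)

theorem linearIndependent_phi : LinearIndependent (IsLocalRing.ResidueField W)
    (fun g : G => ((phi (W := W) g : R G W →+* IsLocalRing.ResidueField W) :
      R G W → IsLocalRing.ResidueField W)) := by
  have h1 := linearIndependent_monoidHom (R G W) (IsLocalRing.ResidueField W)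
  refine h1.comp (fun g : G => (phi (W := W) g : R G W →* IsLocalRing.ResidueField W)) ?_
  intro g g' hgg'
  apply h.injective_phi
  ext x
  exact DFunLike.congr_fun hgg' x

theorem exists_trace (H : Subgroup G) [Fintype H] :
    ∃ t ∈ W, W.valuation (∑ g : H, (g : G) • t) = 1 := by
  classical
  by_contra hcon
  push Not at hcon
  have hlt : ∀ t ∈ W, W.valuation (∑ g : H, (g : G) • t) < 1 := by
    intro t ht
    refine lt_of_le_of_ne ?_ (hcon t ht)
    rw [W.valuation_le_one_iff]
    exact sum_mem fun g _ => h.stab t ht g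
  have hli := h.linearIndependent_phi.comp (fun g : H => (g : G)) Subtype.val_injective
  have hrel : ∑ g : H, (1 : IsLocalRing.ResidueField W) •
      ((phi (W := W) (g : G) : R G W →+* IsLocalRing.ResidueField W) :
        R G W → IsLocalRing.ResidueField W) = 0 := by
    ext x
    rw [Finset.sum_apply]
    simp only [Pi.smul_apply, one_smul, Pi.zero_apply]
    have h1 := hlt x (R_le x.2)
    have h2 : ∑ g : H, (g : G) • (x : F) ∈ W := sum_mem fun g _ => x.2 g
    rw [← residue_eq_zero_iff (⟨_, h2⟩ : W)] at h1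
    rw [← h1]
    have h3 : (⟨∑ g : H, (g : G) • (x : F), h2⟩ : W) =
        ∑ g : H, ⟨(g : G) • (x : F), x.2 g⟩ := by
      apply Subtype.ext
      rw [← ValuationSubring.subtype_apply, ← ValuationSubring.subtype_apply, map_sum]
      rfl
    rw [h3, map_sum]
    rfl
  have := Fintype.linearIndependent_iff.mp hli _ hrel 1
  exact one_ne_zero this

variable [Finite G]

/-- **Lifting of invariant residues.** -/
theorem exists_fixed_lift (H : Subgroup G) {z : F} (hz : z ∈ W)
    (hzH : ∀ g ∈ H, W.valuation (g • z - z) < 1) :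
    ∃ x ∈ W, (∀ g ∈ H, g • x = x) ∧ W.valuation (x - z) < 1 := by
  classical
  have := Fintype.ofFinite H
  obtain ⟨t, ht, htu⟩ := h.exists_trace H
  set u : F := ∑ g : H, (g : G) • t with hu
  have hinv : ∀ (s : F), ∀ g ∈ H, g • (∑ g' : H, (g' : G) • s) = ∑ g' : H, (g' : G) • s := by
    intro s g hg
    rw [Finset.smul_sum]
    refine Fintype.sum_equiv (Equiv.mulLeft (⟨g, hg⟩ : H)) _ _ fun g' => ?_
    rw [Equiv.coe_mulLeft, Subgroup.coe_mul, mul_smul]
  have hu0 : u ≠ 0 := by
    intro h0
    rw [h0, map_zero] at htu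
    exact zero_ne_one htu
  have huinv : u⁻¹ ∈ W := by
    rw [← W.valuation_le_one_iff, map_inv₀, htu, inv_one]
  refine ⟨u⁻¹ * ∑ g : H, (g : G) • (t * z), ?_, ?_, ?_⟩
  · exact mul_mem huinv (sum_mem fun g _ => h.stab _ (mul_mem ht hz) _)
  · intro g hg
    rw [smul_mul', smul_inv'', hinv _ g hg, hinv _ g hg]
  · have h1 : u⁻¹ * (∑ g : H, (g : G) • (t * z)) - z =
        u⁻¹ * ∑ g : H, (g : G) • t * ((g : G) • z - z) := by
      have h2 : ∑ g : H, (g : G) • t * ((g : G) • z - z) =
          (∑ g : H, (g : G) • (t * z)) - u * z := by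
        rw [hu, Finset.sum_mul, ← Finset.sum_sub_distrib]
        refine Finset.sum_congr rfl fun g _ => ?_
        rw [smul_mul']
        ring
      rw [h2]
      field_simp
    rw [h1, map_mul, map_inv₀, htu, inv_one, one_mul]
    refine Valuation.map_sum_lt _ one_ne_zero fun g _ => ?_
    rw [map_mul, mul_comm]
    exact mul_lt_one_of_lt_of_le (hzH g g.2) ((W.valuation_le_one_iff _).mpr (h.stab _ ht _))

omit [Finite G]

/-- the action on `W` -/
@[reducible]
def actW : MulSemiringAction G W where
  smul g x := ⟨g • (x : F), h.stab x x.2 g⟩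
  one_smul x := Subtype.ext (one_smul G (x : F))
  mul_smul g g' x := Subtype.ext (mul_smul g g' (x : F))
  smul_zero g := Subtype.ext (smul_zero g)
  smul_add g x y := Subtype.ext (smul_add g (x : F) y)
  smul_one g := Subtype.ext (smul_one g)
  smul_mul g x y := Subtype.ext (smul_mul' g (x : F) y)

theorem residue_smul (g : G) (x : W) :
    letI := h.actW
    g • IsLocalRing.residue W x = IsLocalRing.residue W ⟨g • (x : F), h.stab x x.2 g⟩ := rfl

theorem faithful_res :
    letI := h.actW
    FaithfulSMul G (IsLocalRing.ResidueField W) := by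
  letI := h.actW
  constructor
  intro g g' hgg'
  have h1 : g⁻¹ * g' = 1 := by
    apply h.faith
    intro x hx
    have h2 := hgg' (IsLocalRing.residue W ⟨x, hx⟩)
    rw [h.residue_smul, h.residue_smul] at h2
    have h3 := congrArg (fun z => g⁻¹ • z) h2
    simp only at h3
    rw [h.residue_smul, h.residue_smul, ← sub_eq_zero, ← map_sub, residue_eq_zero_iff] at h3
    have h4 : W.valuation (g⁻¹ • g • x - g⁻¹ • g' • x) < 1 := h3
    rw [inv_smul_smul] at h4
    rw [mul_smul, ← Valuation.map_neg, neg_sub]
    exact h4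
  exact (inv_mul_eq_one.mp h1)

/-- **Degrees of the residue fields.** -/
theorem relfinrank_eq [Finite G] [FaithfulSMul G F] {k : Type*} [Field k] (ρ : W →+* k)
    (hρ : ∀ x, ρ x = 0 ↔ W.valuation (x : F) < 1) (H : Subgroup G) (K0 KH : Subfield k)
    (h0 : ∀ y, y ∈ K0 ↔ ∃ x : W, (∀ g : G, g • (x : F) = x) ∧ ρ x = y)
    (hH : ∀ y, y ∈ KH ↔ ∃ x : W, (∀ g ∈ H, g • (x : F) = x) ∧ ρ x = y) :
    K0.relfinrank KH * Nat.card H = Nat.card G := by
  classical
  letI := h.actW
  haveI := h.faithful_res
  haveI := Fintype.ofFinite G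
  haveI := Fintype.ofFinite H
  haveI : IsLocalHom ρ := by
    constructor
    intro a ha
    by_contra hna
    have h1 : W.valuation (a : F) < 1 := by
      rw [← W.valuation_lt_one_iff, IsLocalRing.mem_maximalIdeal, mem_nonunits_iff]
      exact hna
    rw [← hρ] at h1
    rw [h1] at ha
    exact not_isUnit_zero ha
  let φ : IsLocalRing.ResidueField W →+* k := IsLocalRing.ResidueField.lift ρ
  have hφ : ∀ x, φ (IsLocalRing.residue W x) = ρ x := fun x =>
    IsLocalRing.ResidueField.lift_residue_apply ρ x
  have key : ∀ (H : Subgroup G) (K : Subfield k)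
      (_ : ∀ y, y ∈ K ↔ ∃ x : W, (∀ g ∈ H, g • (x : F) = x) ∧ ρ x = y),
      K = (FixedPoints.subfield H (IsLocalRing.ResidueField W)).map φ := by
    intro H K hK
    ext y
    rw [hK, Subfield.mem_map]
    constructor
    · rintro ⟨x, hx, rfl⟩
      refine ⟨IsLocalRing.residue W x, ?_, hφ x⟩
      rintro ⟨g, hg⟩
      show g • IsLocalRing.residue W x = _
      rw [h.residue_smul]
      congr 1
      exact Subtype.ext (hx g hg)
    · rintro ⟨z, hz, rfl⟩
      obtain ⟨w, rfl⟩ := IsLocalRing.residue_surjective z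
      obtain ⟨x, hxW, hx, hxw⟩ := h.exists_fixed_lift H w.2 (fun g hg => by
        have h1 : g • IsLocalRing.residue W w = IsLocalRing.residue W w := hz ⟨g, hg⟩
        rw [h.residue_smul, ← sub_eq_zero, ← map_sub, residue_eq_zero_iff] at h1
        exact h1)
      refine ⟨⟨x, hxW⟩, hx, ?_⟩
      rw [hφ]
      have h2 : ρ (⟨x, hxW⟩ - w) = 0 := (hρ _).mpr hxw
      rw [map_sub, sub_eq_zero] at h2
      exact h2
  have e0 := key ⊤ K0 (fun y => by
    rw [h0]
    simp only [Subgroup.mem_top, forall_const])
  have eH := key H KH hH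
  rw [e0, eH, Subfield.relfinrank_map_map]
  have hle : FixedPoints.subfield (⊤ : Subgroup G) (IsLocalRing.ResidueField W) ≤
      FixedPoints.subfield H (IsLocalRing.ResidueField W) := by
    intro z hz g
    exact hz ⟨g, Subgroup.mem_top _⟩
  haveI := Fintype.ofFinite (⊤ : Subgroup G)
  have h1 := Subfield.relfinrank_mul_relfinrank hle (le_top (a := FixedPoints.subfield H
    (IsLocalRing.ResidueField W)))
  rw [Subfield.relfinrank_top_right, Subfield.relfinrank_top_right, FixedPoints.finrank_eq_card,
    FixedPoints.finrank_eq_card, ← Nat.card_eq_fintype_card, ← Nat.card_eq_fintype_card] at h1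
  rw [h1]
  exact Nat.card_congr Subgroup.topEquiv.toEquiv

end Good

end Fermat.Agent.XMB
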