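import Fermat.Agent.XMB.Defs

/-!
# The action of `SL₂(ℤ)` on the field of level `Γ(Q)` in the variable `q^{1/Q}`
-/

set_option autoImplicit false
set_option linter.unusedSectionVars false
set_option linter.style.haveILetI false

noncomputable section

open UpperHalfPlane Function ModularCurve Filter ModularForm AlgebraicCurve WithZero
  CongruenceSubgroup IntermediateField
open scoped Manifold MatrixGroups Topology ModularForm

namespace Fermat.Agent.XMB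

open Fermat.Agent.X0Places Fermat.Agent.TorsCmp Fermat.Agent.FunField Fermat.Agent.LG
open Fermat.Agent.LG.BCx
open Matrix.SpecialLinearGroup (mapGL)
open Function.Periodic (qParam)

variable {Q : ℕ} [hQ : NeZero Q]

/-! ### holomorphic functions -/

theorem T_mem_Gs : ModularGroup.T ∈ Gs Q := by
  rw [Gs, DS1.mem_G1 (dvd_pow_self Q two_ne_zero), Gamma0_mem]
  exact ⟨by simp [ModularGroup.T], Or.inl (by simp [ModularGroup.T])⟩

theorem gamma_le_Gs : Gamma (Q ^ 2) ≤ Gs Q := DS1.gamma_le_G1 (dvd_pow_self Q two_ne_zero)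

/-- **translates by `dgam` of analytic functions** -/
theorem isAnG_dgam {F : ℍ → ℂ} (hF : IsAnG (Gs Q) (Q ^ 2) F) (γ : SL(2, ℤ)) :
    IsAnG (Gs Q) (Q ^ 2) (fun τ => F (dgam Q γ • τ)) := by
  have hol : MDiff (fun τ => F (dgam Q γ • τ)) :=
    (glHolo (dgam Q γ) (det_dgam_pos Q γ) ⟨F, hF.hol⟩).2
  have hinv : ∀ g ∈ Gs Q, ∀ τ, F (dgam Q γ • (g • τ)) = F (dgam Q γ • τ) := by
    intro g hg τ
    obtain ⟨g', hg', h⟩ := dgam_normalizes Q γ hg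
    have h1 : dgam Q γ • (g • τ) = g' • (dgam Q γ • τ) := by
      show dgam Q γ • (mapGL ℝ g • τ) = mapGL ℝ g' • (dgam Q γ • τ)
      rw [← mul_smul, h, mul_smul]
    rw [h1, hF.inv g' hg']
  refine ⟨hol, fun δ => ?_, hinv⟩
  have h1 : ∀ γ' : SL(2, ℤ), ∃ y, HasLaurent (Q ^ 2 * Q : ℕ)
      (fun τ => F (ModularGroup.S • scaleH Q (Q_pos Q) (γ' • τ))) y :=
    fun γ' => exp_scale hF.exp Q (Q_pos Q) ModularGroup.S γ'
  have hQ3 : NeZero (Q ^ 2 * Q) := ⟨mul_ne_zero (pow_ne_zero 2 hQ.out) hQ.out⟩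
  have h2 : ∀ γ' : SL(2, ℤ), ∃ y, HasLaurent (Q ^ 2 * Q : ℕ)
      (fun τ => (fun z : ℍ => F (ModularGroup.S • scaleH Q (Q_pos Q)
        ((ModularGroup.S * γ) • z))) (γ' • τ)) y := by
    intro γ'
    obtain ⟨y, hy⟩ := h1 ((ModularGroup.S * γ) * γ')
    refine ⟨y, ?_⟩
    simp only [mul_smul] at hy ⊢
    exact hy
  obtain ⟨y, hy⟩ := exp_scale (N := Q ^ 2 * Q) (F := fun z : ℍ => F (ModularGroup.S •
    scaleH Q (Q_pos Q) ((ModularGroup.S * γ) • z))) h2 Q (Q_pos Q) 1 δ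
  have h3 : (fun τ : ℍ => (fun z : ℍ => F (ModularGroup.S • scaleH Q (Q_pos Q)
        ((ModularGroup.S * γ) • z))) ((1 : SL(2, ℤ)) • scaleH Q (Q_pos Q) (δ • τ))) =
      fun τ : ℍ => F (dgam Q γ • (δ • τ)) := by
    funext τ
    rw [dgam_smul, one_smul]
  rw [h3] at hy
  have hpos : (0 : ℝ) < ((Q ^ 2 * Q * Q : ℕ) : ℝ) := by
    exact_mod_cast Nat.mul_pos (Nat.pos_of_ne_zero hQ3.out) (Q_pos Q)
  refine hasLaurent_narrow hpos (natCast_pos (Q ^ 2)) (mdiff_comp_smul hol δ) hy fun τ => ?_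
  have h4 := hinv _ (gamma_le_Gs (conj_T_pow_mem_gamma (Q ^ 2) δ)) (δ • τ)
  rw [← h4, mul_smul, mul_smul, inv_smul_smul]
  have h5 := UpperHalfPlane.modular_T_zpow_smul τ ((Q ^ 2 : ℕ) : ℤ)
  rw [zpow_natCast] at h5
  rw [h5]
  simp

/-! ### the function `j(Q τ)` -/

variable {L : Type*} [Field L] [Algebra ℚ L] (ι : L →+* ℂ)

theorem jQ_mem_anR : coeffEmb L (qExpand ℚ Q jq) ∈ AnR ι (Gs Q) (Q ^ 2) :=
  ⟨jd Q (Q_pos Q), (isAnG_gamma0.2 (isAn_jd Q (Q_pos Q) (dvd_pow_self Q two_ne_zero))).mono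
    DS1.G1_le_gamma0, by rw [coeffMap_coeffEmb_jd]; exact hasLaurent_jd_one Q (Q_pos Q)⟩

variable (Q) in
/-- the function `j(Q τ)` -/
def jQ : FG ι (Gs Q) (Q ^ 2) := ⟨coeffEmb L (qExpand ℚ Q jq), anR_le_FG (jQ_mem_anR ι)⟩

variable (Q) in
/-- the holomorphic function `j(Q τ)` -/
def jQHolo : Holo := ⟨jd Q (Q_pos Q), mdiff_jd Q (Q_pos Q)⟩

theorem toM_jQ : toM ι (Gs Q) (Q ^ 2) (jQ Q ι) = algebraMap Holo Mer (jQHolo Q) :=
  toM_of_mem _ ((isAnG_gamma0.2 (isAn_jd Q (Q_pos Q) (dvd_pow_self Q two_ne_zero))).mono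
    DS1.G1_le_gamma0) (by
      show HasLaurent 1 _ (coeffMap ι (coeffEmb L (qExpand ℚ Q jq)))
      rw [coeffMap_coeffEmb_jd]
      exact hasLaurent_jd_one Q (Q_pos Q))

theorem compG_jQ (γ : SL(2, ℤ)) : compG (dgam Q γ) (toM ι (Gs Q) (Q ^ 2) (jQ Q ι)) =
    toM ι (Gs Q) (Q ^ 2) (jQ Q ι) := by
  have h0 : glHolo (dgam Q γ) (det_dgam_pos Q γ) (jQHolo Q) = jQHolo Q := by
    apply Subtype.ext
    funext τ
    rw [glHolo_apply]
    have h1 : scaleH Q (Q_pos Q) (dgam Q γ • τ) = γ • scaleH Q (Q_pos Q) τ := by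
      rw [← LG.heckeDiag_smul Q (Q_pos Q), ← mul_smul, heckeDiag_mul_dgam, mul_smul,
        LG.heckeDiag_smul Q (Q_pos Q)]
      rfl
    have h2 : ∀ z : ℍ, (jQHolo Q : ℍ → ℂ) z = Fermat.Agent.JInv.jInv (scaleH Q (Q_pos Q) z) :=
      fun z => rfl
    rw [h2, h2, h1]
    exact Fermat.Agent.JInv.jInv_smul γ (scaleH Q (Q_pos Q) τ)
  rw [toM_jQ, compG_algebraMap _ (det_dgam_pos Q γ), h0]

theorem transcendental_jQ [IsAlgClosed L] : Transcendental L (jQ Q ι) := by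
  rintro ⟨p, hp, hpx⟩
  rw [Polynomial.aeval_def] at hpx
  obtain ⟨c, hc⟩ := mem_range_of_root _ hp hpx
  have h1 : coeffMap ι (algebraMap L (LaurentSeries L) c) = qExpand ℂ Q (jqModC ℂ) := by
    rw [← coeffMap_coeffEmb_jd (ι := ι) Q]
    exact congrArg (fun z : FG ι (Gs Q) (Q ^ 2) => coeffMap ι (z : LaurentSeries L)) hc
  have h2 := congrArg (fun z => HahnSeries.coeff z (-(Q : ℤ))) h1
  have h3 : (-(Q : ℤ)) = (Q : ℤ) * (-1) := by ring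
  have hQ0 : (-(Q : ℤ)) ≠ 0 := neg_ne_zero.2 (by exact_mod_cast hQ.out)
  simp only [algebraMap_laurentSeries_eq_single, coeffMap_single] at h2
  rw [HahnSeries.coeff_single_of_ne hQ0, h3, qExpand_coeff_mul, coeff_jqModC_neg_one] at h2
  exact one_ne_zero h2.symm

/-! ### descent of the coefficients -/

theorem compG_mem_adjoin (γ : SL(2, ℤ)) (z : L⟮jQ Q ι⟯) :
    compG (dgam Q γ) (toM ι (Gs Q) (Q ^ 2) (z : FG ι (Gs Q) (Q ^ 2))) =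
      toM ι (Gs Q) (Q ^ 2) (z : FG ι (Gs Q) (Q ^ 2)) := by
  have hle : (L⟮jQ Q ι⟯).toSubfield ≤
      RingHom.eqLocusField ((compG (dgam Q γ)).comp (toM ι (Gs Q) (Q ^ 2)))
        (toM ι (Gs Q) (Q ^ 2)) := by
    rw [adjoin_toSubfield, Subfield.closure_le]
    rintro x (⟨c, rfl⟩ | hx)
    · show compG (dgam Q γ) (toM ι (Gs Q) (Q ^ 2) (algebraMap L _ c)) =
        toM ι (Gs Q) (Q ^ 2) (algebraMap L _ c)
      rw [toM_algebraMap, ← cM_apply, compG_cM]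
    · rw [Set.mem_singleton_iff] at hx
      rw [hx]
      exact compG_jQ ι γ
  exact hle z.2

/-- the analytic element attached to `F (dgam γ • τ)` -/
theorem exists_anR [IsAlgClosed L] (hQ2 : 2 < Q) (γ : SL(2, ℤ)) (a : AnR ι (Gs Q) (Q ^ 2)) :
    ∃ b : AnR ι (Gs Q) (Q ^ 2), anFn b = fun τ => anFn a (dgam Q γ • τ) := by
  have hMF : MF ι (Gs Q) (Q ^ 2) := DS1.mf_G1 ι (dvd_pow_self Q two_ne_zero) hQ2
  have hG := isAnG_dgam (isAnG_anFn a) γ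
  set G : ℍ → ℂ := fun τ => anFn a (dgam Q γ • τ) with hGdef
  obtain ⟨y, hy⟩ : ∃ y, HasLaurent 1 G y := by
    obtain ⟨y, hy⟩ := hG.exp 1
    have h1 : (fun τ => G ((1 : SL(2, ℤ)) • τ)) = G := by
      funext τ; rw [one_smul]
    rw [h1] at hy
    exact hasLaurent_one_of_T hy fun τ => hG.inv _ T_mem_Gs τ
  -- the element over the complex numbers
  have hyA : y ∈ AnR (RingHom.id ℂ) (Gs Q) (Q ^ 2) := ⟨G, hG, by rw [coeffMap_id']; exact hy⟩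
  set Y : FG (RingHom.id ℂ) (Gs Q) (Q ^ 2) := ⟨y, anR_le_FG hyA⟩ with hY
  set a' : FG ι (Gs Q) (Q ^ 2) := algebraMap (AnR ι (Gs Q) (Q ^ 2)) (FG ι (Gs Q) (Q ^ 2)) a
    with ha'
  have hYM : toM (RingHom.id ℂ) (Gs Q) (Q ^ 2) Y =
      compG (dgam Q γ) (toM ι (Gs Q) (Q ^ 2) a') := by
    rw [ha', toM_coe, compG_algebraMap _ (det_dgam_pos Q γ)]
    exact toM_of_mem (x := Y) (glHolo (dgam Q γ) (det_dgam_pos Q γ) (anHom ι (Gs Q) (Q ^ 2) a)) hG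
      (by rw [coeffMap_id']; exact hy)
  -- `y` is integral over `L((q))`
  have halg : Algebra.IsAlgebraic L⟮jQ Q ι⟯ (FG ι (Gs Q) (Q ^ 2)) :=
    isAlgebraic_adjoin_of_isFF (transcendental_jQ ι)
  obtain ⟨p, hp, hpa⟩ := (Algebra.IsAlgebraic.isAlgebraic (R := L⟮jQ Q ι⟯) a').isIntegral
  set alg := algebraMap L⟮jQ Q ι⟯ (FG ι (Gs Q) (Q ^ 2)) with halgdef
  have h1 : Polynomial.eval₂ ((toC ι (Gs Q) (Q ^ 2)).comp alg) Y p = 0 := by
    apply (toM (RingHom.id ℂ) (Gs Q) (Q ^ 2)).injective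
    rw [Polynomial.hom_eval₂, map_zero, hYM]
    have h2 : (toM (RingHom.id ℂ) (Gs Q) (Q ^ 2)).comp ((toC ι (Gs Q) (Q ^ 2)).comp alg) =
        (compG (dgam Q γ)).comp ((toM ι (Gs Q) (Q ^ 2)).comp alg) := by
      ext1 z
      show toM (RingHom.id ℂ) (Gs Q) (Q ^ 2) (toC ι (Gs Q) (Q ^ 2) (z : FG ι (Gs Q) (Q ^ 2))) =
        compG (dgam Q γ) (toM ι (Gs Q) (Q ^ 2) (z : FG ι (Gs Q) (Q ^ 2)))
      rw [toM_toC, compG_mem_adjoin]
    rw [h2, ← Polynomial.hom_eval₂, ← Polynomial.hom_eval₂, hpa, map_zero, map_zero]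
  have h2 : (coeffMap ι).IsIntegralElem y := by
    let incl : L⟮jQ Q ι⟯ →+* LaurentSeries L :=
      (algebraMap (FG ι (Gs Q) (Q ^ 2)) (LaurentSeries L)).comp alg
    refine ⟨p.map incl, hp.map _, ?_⟩
    rw [Polynomial.eval₂_map]
    have h3 := congrArg (algebraMap (FG (RingHom.id ℂ) (Gs Q) (Q ^ 2)) (LaurentSeries ℂ)) h1
    rw [Polynomial.hom_eval₂, map_zero] at h3
    exact h3
  obtain ⟨x, hx⟩ := exists_coeff_descent ι h2
  refine ⟨⟨x, ⟨G, hG, by rw [hx]; exact hy⟩⟩, anFn_eq ?_⟩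
  show HasLaurent 1 G (coeffMap ι x)
  rw [hx]
  exact hy

theorem exists_toM_eq [IsAlgClosed L] (hQ2 : 2 < Q) (γ : SL(2, ℤ)) (f : FG ι (Gs Q) (Q ^ 2)) :
    ∃ g, toM ι (Gs Q) (Q ^ 2) g = compG (dgam Q γ) (toM ι (Gs Q) (Q ^ 2) f) := by
  obtain ⟨a, b, -, rfl⟩ := IsFractionRing.div_surjective (A := AnR ι (Gs Q) (Q ^ 2)) f
  have key : ∀ a : AnR ι (Gs Q) (Q ^ 2), ∃ g, toM ι (Gs Q) (Q ^ 2) g =
      compG (dgam Q γ) (toM ι (Gs Q) (Q ^ 2) (algebraMap _ _ a)) := by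
    intro a
    obtain ⟨b, hb⟩ := exists_anR ι hQ2 γ a
    refine ⟨algebraMap _ _ b, ?_⟩
    rw [toM_coe, toM_coe, compG_algebraMap _ (det_dgam_pos Q γ)]
    congr 1
    exact Subtype.ext hb
  obtain ⟨g, hg⟩ := key a
  obtain ⟨h, hh⟩ := key b
  exact ⟨g / h, by rw [map_div₀, map_div₀, map_div₀, hg, hh]⟩

/-! ### the action -/

section Act

variable [IsAlgClosed L] (hQ2 : 2 < Q)

/-- the ring homomorphism `act γ` -/
def actHom (γ : SL(2, ℤ)) : FG ι (Gs Q) (Q ^ 2) →+* FG ι (Gs Q) (Q ^ 2) :=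
  (exists_lift_of_range (toM ι (Gs Q) (Q ^ 2)) (compG (dgam Q γ))
    (exists_toM_eq ι hQ2 γ)).choose

theorem toM_actHom (γ : SL(2, ℤ)) (f : FG ι (Gs Q) (Q ^ 2)) :
    toM ι (Gs Q) (Q ^ 2) (actHom ι hQ2 γ f) = compG (dgam Q γ) (toM ι (Gs Q) (Q ^ 2) f) :=
  (exists_lift_of_range (toM ι (Gs Q) (Q ^ 2)) (compG (dgam Q γ))
    (exists_toM_eq ι hQ2 γ)).choose_spec f

theorem actHom_mul (γ γ' : SL(2, ℤ)) (f : FG ι (Gs Q) (Q ^ 2)) :
    actHom ι hQ2 (γ * γ') f = actHom ι hQ2 γ' (actHom ι hQ2 γ f) := by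
  apply (toM ι (Gs Q) (Q ^ 2)).injective
  rw [toM_actHom, toM_actHom, toM_actHom, dgam_mul,
    compG_mul _ _ (det_dgam_pos Q γ) (det_dgam_pos Q γ')]

theorem compG_one (x : Mer) : compG 1 x = x := by
  have h : (1 : GL (Fin 2) ℝ) = mapGL ℝ (1 : SL(2, ℤ)) := by rw [map_one]
  rw [h, compG_mapGL, compMer_one]

theorem actHom_one (f : FG ι (Gs Q) (Q ^ 2)) : actHom ι hQ2 1 f = f := by
  apply (toM ι (Gs Q) (Q ^ 2)).injective
  rw [toM_actHom, dgam_one, compG_one]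

theorem actHom_algebraMap (γ : SL(2, ℤ)) (c : L) :
    actHom ι hQ2 γ (algebraMap L _ c) = algebraMap L _ c := by
  apply (toM ι (Gs Q) (Q ^ 2)).injective
  rw [toM_actHom, toM_algebraMap, ← cM_apply, compG_cM]

/-- **the action of `SL₂(ℤ)`** (an anti-homomorphism) -/
def act (γ : SL(2, ℤ)) : FG ι (Gs Q) (Q ^ 2) ≃ₐ[L] FG ι (Gs Q) (Q ^ 2) where
  toFun := actHom ι hQ2 γ
  invFun := actHom ι hQ2 γ⁻¹
  left_inv f := by rw [← actHom_mul, mul_inv_cancel, actHom_one]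
  right_inv f := by rw [← actHom_mul, inv_mul_cancel, actHom_one]
  map_mul' := map_mul _
  map_add' := map_add _
  commutes' := actHom_algebraMap ι hQ2 γ

theorem toM_act (γ : SL(2, ℤ)) (f : FG ι (Gs Q) (Q ^ 2)) :
    toM ι (Gs Q) (Q ^ 2) (act ι hQ2 γ f) = compG (dgam Q γ) (toM ι (Gs Q) (Q ^ 2) f) :=
  toM_actHom ι hQ2 γ f

theorem act_mul (γ γ' : SL(2, ℤ)) (f : FG ι (Gs Q) (Q ^ 2)) :
    act ι hQ2 (γ * γ') f = act ι hQ2 γ' (act ι hQ2 γ f) := actHom_mul ι hQ2 γ γ' f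

theorem act_one (f : FG ι (Gs Q) (Q ^ 2)) : act ι hQ2 1 f = f := actHom_one ι hQ2 f

theorem act_symm (γ : SL(2, ℤ)) : (act ι hQ2 γ).symm = act ι hQ2 γ⁻¹ := by
  ext1 f
  apply (act ι hQ2 γ).injective
  rw [AlgEquiv.apply_symm_apply, ← act_mul, inv_mul_cancel, act_one]

theorem act_jQ (γ : SL(2, ℤ)) : act ι hQ2 γ (jQ Q ι) = jQ Q ι := by
  apply (toM ι (Gs Q) (Q ^ 2)).injective
  rw [toM_act, compG_jQ]

/-- characterisation of `act` -/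
theorem act_eq_of_toM {γ : SL(2, ℤ)} {f g : FG ι (Gs Q) (Q ^ 2)}
    (h : toM ι (Gs Q) (Q ^ 2) g = compG (dgam Q γ) (toM ι (Gs Q) (Q ^ 2) f)) :
    act ι hQ2 γ f = g := by
  apply (toM ι (Gs Q) (Q ^ 2)).injective
  rw [toM_act, h]

theorem exists_act_coe (γ : SL(2, ℤ)) (a : AnR ι (Gs Q) (Q ^ 2)) :
    ∃ b : AnR ι (Gs Q) (Q ^ 2), (act ι hQ2 γ (algebraMap _ _ a) = algebraMap _ _ b) ∧
      anFn b = fun τ => anFn a (dgam Q γ • τ) := by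
  obtain ⟨b, hb⟩ := exists_anR ι hQ2 γ a
  refine ⟨b, act_eq_of_toM ι hQ2 ?_, hb⟩
  rw [toM_coe, toM_coe, compG_algebraMap _ (det_dgam_pos Q γ)]
  congr 1
  exact Subtype.ext hb

theorem act_mem_anR (γ : SL(2, ℤ)) {f : FG ι (Gs Q) (Q ^ 2)}
    (hf : (f : LaurentSeries L) ∈ AnR ι (Gs Q) (Q ^ 2)) :
    (act ι hQ2 γ f : LaurentSeries L) ∈ AnR ι (Gs Q) (Q ^ 2) := by
  obtain ⟨b, hb, -⟩ := exists_act_coe ι hQ2 γ ⟨f, hf⟩
  have h1 : algebraMap (AnR ι (Gs Q) (Q ^ 2)) (FG ι (Gs Q) (Q ^ 2)) ⟨f, hf⟩ = f := Subtype.ext rfl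
  rw [h1] at hb
  rw [hb]
  exact b.2

end Act

end Fermat.Agent.XMB
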