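import Mathlib

/-!
# `SL₂(ℤ)` is the normal closure of `T`; conjugates of `T` by `Γ₀(Q)`
-/

set_option autoImplicit false

noncomputable section

open Matrix Matrix.SpecialLinearGroup CongruenceSubgroup
open scoped MatrixGroups

namespace Fermat.Agent.XMB

theorem S_inv_eq : (ModularGroup.S)⁻¹ =
    ModularGroup.T * (ModularGroup.S * ModularGroup.T * ModularGroup.S⁻¹) * ModularGroup.T := by
  ext i j
  fin_cases i <;> fin_cases j <;>
    simp [ModularGroup.S, ModularGroup.T, Matrix.SpecialLinearGroup.coe_inv,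
      Matrix.adjugate_fin_two, Matrix.mul_apply, Fin.sum_univ_two]

theorem normalClosure_T : Subgroup.normalClosure ({ModularGroup.T} : Set SL(2, ℤ)) = ⊤ := by
  rw [eq_top_iff, ← _root_.SpecialLinearGroup.SL2Z_generators, Subgroup.closure_le]
  have hT : ModularGroup.T ∈ Subgroup.normalClosure ({ModularGroup.T} : Set SL(2, ℤ)) :=
    Subgroup.subset_normalClosure rfl
  have hn : (Subgroup.normalClosure ({ModularGroup.T} : Set SL(2, ℤ))).Normal :=
    Subgroup.normalClosure_normal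
  rintro x (rfl | hx)
  · rw [SetLike.mem_coe, ← Subgroup.inv_mem_iff, S_inv_eq]
    exact mul_mem (mul_mem hT (hn.conj_mem _ hT _)) hT
  · rw [Set.mem_singleton_iff] at hx
    rw [hx]
    exact hT

/-- conjugates of `T ^ k` by `Γ₀(Q)`. -/
theorem conj_T_zpow {Q : ℕ} {g : SL(2, ℤ)} (hg : g ∈ Gamma0 Q) (k : ℤ) :
    g * ModularGroup.T ^ k * g⁻¹ * (ModularGroup.T ^ (k * g 0 0 ^ 2))⁻¹ ∈ Gamma Q := by
  rw [← _root_.zpow_neg]
  have hdet : ((g 0 0 : ℤ) : ZMod Q) * ((g 1 1 : ℤ) : ZMod Q) -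
      ((g 0 1 : ℤ) : ZMod Q) * ((g 1 0 : ℤ) : ZMod Q) = 1 := by
    have h := g.det_coe
    rw [Matrix.det_fin_two] at h
    have h2 := congrArg (Int.cast : ℤ → ZMod Q) h
    push_cast at h2
    exact h2
  rw [Gamma0_mem] at hg
  have e : (g * ModularGroup.T ^ k * g⁻¹ * (ModularGroup.T ^ (-(k * g 0 0 ^ 2))) :
      SL(2, ℤ)).1 = (g : Matrix (Fin 2) (Fin 2) ℤ) * !![1, k; 0, 1] *
        !![g 1 1, -(g 0 1); -(g 1 0), g 0 0] * !![1, -(k * g 0 0 ^ 2); 0, 1] := by
    simp only [Matrix.SpecialLinearGroup.coe_mul, ModularGroup.coe_T_zpow,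
      Matrix.SpecialLinearGroup.coe_inv, Matrix.adjugate_fin_two]
  rw [Gamma_mem]
  have e00 := congrFun (congrFun e 0) 0
  have e01 := congrFun (congrFun e 0) 1
  have e10 := congrFun (congrFun e 1) 0
  have e11 := congrFun (congrFun e 1) 1
  simp only [Matrix.mul_apply, Fin.sum_univ_two, Matrix.of_apply, Matrix.cons_val_zero,
    Matrix.cons_val_one, Matrix.cons_val', Matrix.cons_val_fin_one] at e00 e01 e10 e11
  refine ⟨?_, ?_, ?_, ?_⟩
  · rw [show (g * ModularGroup.T ^ k * g⁻¹ * (ModularGroup.T ^ (-(k * g 0 0 ^ 2))) : SL(2, ℤ)) 0 0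
      = _ from e00]
    push_cast
    rw [hg] at hdet ⊢
    linear_combination hdet
  · rw [show (g * ModularGroup.T ^ k * g⁻¹ * (ModularGroup.T ^ (-(k * g 0 0 ^ 2))) : SL(2, ℤ)) 0 1
      = _ from e01]
    push_cast
    rw [hg] at hdet ⊢
    linear_combination (-(k : ZMod Q) * ((g 0 0 : ℤ) : ZMod Q) ^ 2) * hdet
  · rw [show (g * ModularGroup.T ^ k * g⁻¹ * (ModularGroup.T ^ (-(k * g 0 0 ^ 2))) : SL(2, ℤ)) 1 0
      = _ from e10]
    push_cast
    rw [hg]
    ring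
  · rw [show (g * ModularGroup.T ^ k * g⁻¹ * (ModularGroup.T ^ (-(k * g 0 0 ^ 2))) : SL(2, ℤ)) 1 1
      = _ from e11]
    push_cast
    rw [hg] at hdet ⊢
    linear_combination hdet

end Fermat.Agent.XMB
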