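import Fermat.Agent.XMB.AbsFix
import Fermat.Agent.XMB.SL2
import Fermat.Agent.LG.RedT

/-!
# Stability of the Gauss valuation under an action of `SL₂(ℤ/Q)`
-/

set_option autoImplicit false
set_option linter.unusedSectionVars false

noncomputable section

open ModularCurve CongruenceSubgroup
open scoped MatrixGroups

namespace Fermat.Agent.XMB

open Fermat.Agent.Igusa Fermat.Agent.LGRes Fermat.Agent.XM.Abs
open Fermat.Agent.ModPoly (twist)

variable {L : Type*} [Field L]

/-- An action of `SL₂(ℤ)`, through `SL₂(ℤ/Q)`, on a field of Laurent series, `T` acting by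
`X ↦ ζ X`. -/
structure ActData (Q : ℕ) (F : IntermediateField L (LaurentSeries L)) where
  /-- the action -/
  act : SL(2, ℤ) → (F ≃ₐ[L] F)
  act_mul : ∀ γ γ' f, act (γ * γ') f = act γ' (act γ f)
  act_one : ∀ f, act 1 f = f
  act_gam : ∀ γ ∈ Gamma Q, ∀ f, act γ f = f
  /-- the root of unity -/
  ζ : Lˣ
  hζ : ζ ^ Q = 1
  act_T : ∀ f, (act ModularGroup.T f : LaurentSeries L) = twist ζ (f : LaurentSeries L)

namespace ActData

variable {Q : ℕ} [NeZero Q] {F : IntermediateField L (LaurentSeries L)} (D : ActData Q F)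

/-- the homomorphism -/
def rho : SL(2, ℤ) →* (F ≃ₐ[L] F) where
  toFun γ := D.act γ⁻¹
  map_one' := by
    ext1 f
    rw [inv_one, D.act_one]
    rfl
  map_mul' γ γ' := by
    ext1 f
    rw [mul_inv_rev, D.act_mul]
    rfl

theorem rho_apply (γ : SL(2, ℤ)) (f : F) : D.rho γ f = D.act γ⁻¹ f := rfl

theorem rho_inv_apply (γ : SL(2, ℤ)) (f : F) : D.rho γ⁻¹ f = D.act γ f := by
  rw [rho_apply, inv_inv]

/-- the group -/
def G : Subgroup (F ≃ₐ[L] F) := D.rho.range

theorem gamma_le_ker : Gamma Q ≤ D.rho.ker := by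
  intro γ hγ
  rw [MonoidHom.mem_ker]
  ext1 f
  rw [rho_apply, D.act_gam _ (inv_mem hγ)]
  rfl

instance finite_G : Finite D.G := by
  have h1 : (D.rho.ker).FiniteIndex := Subgroup.finiteIndex_of_le D.gamma_le_ker
  have h2 : D.rho.ker.index ≠ 0 := h1.index_ne_zero
  rw [Subgroup.index_ker] at h2
  exact Nat.finite_of_card_ne_zero h2

/-- the class of a matrix in the group -/
def cl : SL(2, ℤ) →* D.G := D.rho.rangeRestrict

theorem cl_surjective : Function.Surjective D.cl := D.rho.rangeRestrict_surjective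

theorem cl_smul (γ : SL(2, ℤ)) (f : F) : D.cl γ • f = D.act γ⁻¹ f := rfl

theorem cl_inv_smul (γ : SL(2, ℤ)) (f : F) : D.cl γ⁻¹ • f = D.act γ f := by
  rw [cl_smul, inv_inv]

theorem forall_G {p : D.G → Prop} : (∀ g, p g) ↔ ∀ γ, p (D.cl γ⁻¹) := by
  refine ⟨fun h γ => h _, fun h g => ?_⟩
  obtain ⟨γ, rfl⟩ := D.cl_surjective g
  have := h γ⁻¹
  rwa [inv_inv] at this

theorem act_inv_act (γ : SL(2, ℤ)) (f : F) : D.act γ⁻¹ (D.act γ f) = f := by
  rw [← D.act_mul, mul_inv_cancel, D.act_one]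

theorem act_T_zpow (k : ℤ) : ∃ u : Lˣ, u ^ Q = 1 ∧
    ∀ f, (D.act (ModularGroup.T ^ k) f : LaurentSeries L) = twist u (f : LaurentSeries L) := by
  let H : Subgroup SL(2, ℤ) :=
    { carrier := {γ | ∃ u : Lˣ, u ^ Q = 1 ∧
        ∀ f, (D.act γ f : LaurentSeries L) = twist u (f : LaurentSeries L)}
      mul_mem' := by
        rintro γ γ' ⟨u, hu, h⟩ ⟨u', hu', h'⟩
        refine ⟨u' * u, by rw [mul_pow, hu, hu', one_mul], fun f => ?_⟩
        rw [D.act_mul, h', h, ModPoly.twist_twist]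
      one_mem' := ⟨1, one_pow _, fun f => by rw [D.act_one, ModPoly.twist_one]⟩
      inv_mem' := by
        rintro γ ⟨u, hu, h⟩
        refine ⟨u⁻¹, by rw [inv_pow, hu, inv_one], fun f => ?_⟩
        have h1 := h (D.act γ⁻¹ f)
        rw [← D.act_mul, inv_mul_cancel, D.act_one] at h1
        rw [h1, ModPoly.twist_twist, inv_mul_cancel, ModPoly.twist_one] }
  have hT : ModularGroup.T ∈ H := ⟨D.ζ, D.hζ, D.act_T⟩
  exact H.zpow_mem hT k

end ActData

section Gauss

variable {A : ValuationSubring L} {κ : Type*} [Field κ] {π : A →+* κ}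

theorem unit_mem {Q : ℕ} [NeZero Q] {u : Lˣ} (hu : u ^ Q = 1) :
    ∃ v : Aˣ, Units.map (A.subtype : A →* L) v = u := by
  have hm : ∀ w : Lˣ, w ^ Q = 1 → (w : L) ∈ A := by
    intro w hw
    rw [← A.valuation_le_one_iff]
    by_contra hcon
    push Not at hcon
    have h1 : A.valuation ((w : L) ^ Q) = 1 := by
      rw [← Units.val_pow_eq_pow_val, hw, Units.val_one, map_one]
    rw [map_pow] at h1
    exact (one_lt_pow₀ hcon (NeZero.ne Q)).ne' h1
  refine ⟨⟨⟨u, hm u hu⟩, ⟨(u⁻¹ : Lˣ), hm _ (by rw [inv_pow, hu, inv_one])⟩, ?_, ?_⟩, ?_⟩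
  · exact Subtype.ext (Units.mul_inv u)
  · exact Subtype.ext (Units.inv_mul u)
  · exact Units.ext rfl

theorem twist_mem_gaussRing {Q : ℕ} [NeZero Q] {u : Lˣ} (hu : u ^ Q = 1) {x : LaurentSeries L}
    (hx : x ∈ gaussRing A π) : twist u x ∈ gaussRing A π := by
  obtain ⟨v, rfl⟩ := unit_mem (A := A) hu
  exact (LG.Red.twist (red_of_mem hx) v).mem

variable {F : IntermediateField L (LaurentSeries L)} (hF : IsTameField F)

theorem valuation_lt_one_iff {x : F} :
    (gaussVal A π hF).valuation x < 1 ↔ Red A π (x : LaurentSeries L) 0 := by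
  set W := gaussVal A π hF
  constructor
  · intro h
    have hx : x ∈ W := (W.valuation_le_one_iff _).mp h.le
    have h1 : gaussValRes A π hF ⟨x, hx⟩ = 0 := by
      rw [resLocal_gaussVal A π hF]
      by_contra hcon
      push Not at hcon
      have h2 := (W.valuation_le_one_iff _).mpr hcon.2
      rw [map_inv₀] at h2
      have h6 : W.valuation x ≠ 0 := (Valuation.ne_zero_iff _).mpr hcon.1
      exact absurd h2 (not_le.mpr ((one_lt_inv₀ (zero_lt_iff.mpr h6)).mpr h))
    exact ⟨hx, h1⟩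
  · rintro ⟨hx, h1⟩
    have h2 : gaussValRes A π hF ⟨x, hx⟩ = 0 := h1
    rw [resLocal_gaussVal A π hF] at h2
    rcases h2 with h2 | h2
    · have : x = 0 := h2
      rw [this, map_zero]
      exact zero_lt_one
    · rw [← W.valuation_le_one_iff, map_inv₀, not_le] at h2
      by_contra hcon
      rw [not_lt] at hcon
      exact absurd h2 (not_lt.mpr (inv_le_one_of_one_le₀ hcon))

end Gauss

namespace ActData

variable {Q : ℕ} [NeZero Q] {F : IntermediateField L (LaurentSeries L)} (D : ActData Q F)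
  {A : ValuationSubring L} {κ : Type*} [Field κ] {π : A →+* κ} (hF : IsTameField F)

/-- **The Gauss valuation ring is stable under `SL₂(ℤ)`**, and no element acts trivially on its
residue field. -/
theorem good
    (H1 : ∀ x ∈ gaussVal A π hF, (∀ γ ∈ Gamma0 Q, D.act γ x = x) →
      ∀ γ, D.act γ x ∈ gaussVal A π hF)
    (H2 : ∀ γ, (∀ x : F, (∀ γ', D.act γ' x ∈ gaussVal A π hF) →
      Red A π ((D.act γ x : LaurentSeries L) - (x : LaurentSeries L)) 0) → ∀ f, D.act γ f = f) :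
    Good D.G (gaussVal A π hF) := by
  set W := gaussVal A π hF with hW
  have H2' : ∀ g : D.G, (∀ x ∈ R D.G W, W.valuation (g • (x : F) - x) < 1) → g = 1 := by
    rw [D.forall_G]
    intro γ h
    have h1 := H2 γ (fun x hx => by
      have h2 := h x (by
        rw [mem_R, D.forall_G]
        intro γ'
        rw [D.cl_inv_smul]
        exact hx γ')
      rw [D.cl_inv_smul, hW, valuation_lt_one_iff] at h2
      exact h2)
    apply Subtype.ext
    ext1 f
    exact (D.cl_inv_smul γ f).trans (h1 f)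
  let B : Subgroup D.G := (Gamma0 Q).map D.cl
  let C : Set D.G := {c | ∃ k : ℤ, c = D.cl (ModularGroup.T ^ k)}
  have H1' : ∀ x ∈ W, (∀ b ∈ B, b • x = x) → ∀ g : D.G, g • x ∈ W := by
    intro x hx hb
    rw [D.forall_G]
    intro γ
    rw [D.cl_inv_smul]
    refine H1 x hx (fun γ' hγ' => ?_) γ
    rw [← D.cl_inv_smul]
    exact hb _ (Subgroup.mem_map_of_mem _ (inv_mem hγ'))
  have hC1 : ∀ c ∈ C, ∀ x ∈ W, c • x ∈ W := by
    rintro _ ⟨k, rfl⟩ x hx
    rw [D.cl_smul, ← zpow_neg]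
    obtain ⟨u, hu, h⟩ := D.act_T_zpow (-k)
    rw [hW, mem_gaussVal_iff, h]
    exact twist_mem_gaussRing hu hx
  have hC2 : ∀ b ∈ B, ∀ c ∈ C, b * c * b⁻¹ ∈ C := by
    rintro _ ⟨γ, hγ, rfl⟩ _ ⟨k, rfl⟩
    refine ⟨k * γ 0 0 ^ 2, ?_⟩
    rw [← map_inv, ← map_mul, ← map_mul, ← mul_inv_eq_one, ← map_inv, ← map_mul]
    have h1 := D.gamma_le_ker (conj_T_zpow hγ k)
    rw [MonoidHom.mem_ker] at h1
    exact Subtype.ext h1
  have hC3 : Subgroup.normalClosure C = ⊤ := by
    rw [eq_top_iff, ← Subgroup.map_top_of_surjective D.cl D.cl_surjective, ← normalClosure_T,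
      Subgroup.map_normalClosure _ D.cl D.cl_surjective, Set.image_singleton]
    apply Subgroup.normalClosure_mono
    rintro _ rfl
    exact ⟨1, by rw [zpow_one]⟩
  have hP := PP_eq_one B H1' C hC1 hC2 hC3
  obtain ⟨hst, -⟩ := stable hP H2'
  exact ⟨hst, fun g hg => H2' g fun x hx => hg x (R_le hx)⟩

end ActData

end Fermat.Agent.XMB
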