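import Mathlib
import Fermat.Agent.ModPoly.Twist
import Fermat.Prelude.Def_ModularCurve_LaurentCoeff

/-!
# `k((X))` is algebraically closed in `K((X))` if `k` is algebraically closed
-/

set_option autoImplicit false

noncomputable section

open ModularCurve Polynomial

namespace Fermat.Agent.XMB

variable {k K : Type*} [Field k] [Field K] (ι : k →+* K)

theorem order_coeffMap (x : LaurentSeries k) : (coeffMap ι x).order = x.order := by
  rcases eq_or_ne x 0 with rfl | hx
  · rw [map_zero]
    simp
  have h0 : coeffMap ι x ≠ 0 := by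
    rw [Ne, map_eq_zero_iff _ (Fermat.Agent.ModPoly.coeffMap_injective ι.injective)]
    exact hx
  apply le_antisymm
  · apply HahnSeries.order_le_of_coeff_ne_zero
    rw [coeffMap_coeff, Ne, map_eq_zero_iff _ ι.injective]
    exact HahnSeries.coeff_order_eq_zero.not.mpr hx
  · apply HahnSeries.order_le_of_coeff_ne_zero
    have h1 := HahnSeries.coeff_order_eq_zero.not.mpr h0
    rw [coeffMap_coeff] at h1
    intro h2
    exact h1 (by rw [h2, map_zero])

theorem leadingCoeff_coeffMap (x : LaurentSeries k) :
    (coeffMap ι x).leadingCoeff = ι x.leadingCoeff := by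
  rw [HahnSeries.leadingCoeff_eq, HahnSeries.leadingCoeff_eq, order_coeffMap, coeffMap_coeff]

theorem leadingCoeff_pow' (y : LaurentSeries K) (n : ℕ) :
    (y ^ n).leadingCoeff = y.leadingCoeff ^ n := by
  induction n with
  | zero => rw [pow_zero, pow_zero, HahnSeries.leadingCoeff_one]
  | succ n ih => rw [pow_succ, pow_succ, HahnSeries.leadingCoeff_mul, ih]

/-- the leading coefficient of an algebraic element is in the base field -/
theorem lead_mem [IsAlgClosed k] {y : LaurentSeries K} {P : (LaurentSeries k)[X]}
    (hP : P ≠ 0) (h : P.eval₂ (coeffMap ι) y = 0) : y.leadingCoeff ∈ ι.range := by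
  classical
  rcases eq_or_ne y 0 with rfl | hy
  · rw [HahnSeries.leadingCoeff_zero]
    exact zero_mem _
  obtain ⟨i₀, hi₀, hmin⟩ := P.support.exists_min_image
    (fun i => (P.coeff i).order + i • y.order) (Polynomial.support_nonempty.mpr hP)
  set μ := (P.coeff i₀).order + i₀ • y.order with hμ
  set q : k[X] := ∑ i ∈ P.support, if (P.coeff i).order + i • y.order = μ then
    Polynomial.monomial i (P.coeff i).leadingCoeff else 0 with hq
  have hcoef : ∀ i ∈ P.support, (coeffMap ι (P.coeff i) * y ^ i).coeff μ =
      if (P.coeff i).order + i • y.order = μ then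
        ι (P.coeff i).leadingCoeff * y.leadingCoeff ^ i else 0 := by
    intro i hi
    have h1 : coeffMap ι (P.coeff i) ≠ 0 := by
      rw [Ne, map_eq_zero_iff _ (Fermat.Agent.ModPoly.coeffMap_injective ι.injective)]
      exact Polynomial.mem_support_iff.mp hi
    have h2 : y ^ i ≠ 0 := pow_ne_zero _ hy
    have h3 : (coeffMap ι (P.coeff i) * y ^ i).order = (P.coeff i).order + i • y.order := by
      rw [HahnSeries.order_mul h1 h2, HahnSeries.order_pow, order_coeffMap]
    split_ifs with hc
    · rw [← hc, ← h3, ← HahnSeries.leadingCoeff_eq, HahnSeries.leadingCoeff_mul,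
        leadingCoeff_pow', leadingCoeff_coeffMap]
    · apply HahnSeries.coeff_eq_zero_of_lt_order
      rw [h3]
      exact lt_of_le_of_ne (hmin i hi) (Ne.symm hc)
  have hev : q.eval₂ ι y.leadingCoeff = 0 := by
    have h1 : (P.eval₂ (coeffMap ι) y).coeff μ = 0 := by rw [h]; rfl
    rw [Polynomial.eval₂_eq_sum, Polynomial.sum, HahnSeries.coeff_sum] at h1
    rw [hq, Polynomial.eval₂_finset_sum, ← h1]
    refine Finset.sum_congr rfl fun i hi => ?_
    rw [hcoef i hi]
    split_ifs with hc
    · rw [Polynomial.eval₂_monomial]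
    · rw [Polynomial.eval₂_zero]
  have hq0 : q ≠ 0 := by
    intro h0
    have h1 : q.coeff i₀ = (P.coeff i₀).leadingCoeff := by
      rw [hq, Polynomial.finset_sum_coeff, Finset.sum_eq_single i₀]
      · rw [if_pos rfl, Polynomial.coeff_monomial, if_pos rfl]
      · intro i _ hne
        split_ifs with hc
        · rw [Polynomial.coeff_monomial, if_neg hne]
        · rw [Polynomial.coeff_zero]
      · intro hn
        exact absurd hi₀ hn
    rw [h0, Polynomial.coeff_zero] at h1
    exact (HahnSeries.leadingCoeff_eq_zero.not.mpr (Polynomial.mem_support_iff.mp hi₀)) h1.symm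
  refine (IsAlgClosed.splits q).mem_range_of_isRoot hq0 ?_
  rw [Polynomial.IsRoot, Polynomial.eval_map, hev]

/-- **`k((X))` is algebraically closed in `K((X))`.** -/
theorem exists_coeffMap_eq [IsAlgClosed k] {y : LaurentSeries K} {P : (LaurentSeries k)[X]}
    (hP : P ≠ 0) (h : P.eval₂ (coeffMap ι) y = 0) : ∃ x, coeffMap ι x = y := by
  classical
  by_contra hcon
  have hex : ∃ n, y.coeff n ∉ ι.range := by
    by_contra hall
    push Not at hall
    apply hcon
    choose c hc using hall
    refine ⟨⟨c, y.isPWO_support.mono fun n hn h0 => ?_⟩, ?_⟩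
    · apply hn
      have h1 := hc n
      rw [h0, map_eq_zero_iff _ ι.injective] at h1
      exact h1
    · ext n
      exact hc n
  have hwf : Set.IsWF {n | y.coeff n ∉ ι.range} := by
    refine (y.isWF_support).mono fun n hn h0 => ?_
    apply hn
    rw [h0]
    exact zero_mem _
  set n := hwf.min hex with hn
  have hn1 : y.coeff n ∉ ι.range := hwf.min_mem hex
  have hn2 : ∀ m < n, y.coeff m ∈ ι.range := by
    intro m hm
    by_contra h0
    exact hwf.not_lt_min hex h0 hm
  choose! c hc using fun (m : ℤ) (hm : m < n) => hn2 m hm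
  let x : LaurentSeries k := ⟨fun m => if m < n then c m else 0, y.isPWO_support.mono (by
    intro m hm h0
    apply hm
    show (if m < n then c m else 0) = 0
    split_ifs with h1
    · have h2 := hc m h1
      rw [h0, map_eq_zero_iff _ ι.injective] at h2
      exact h2
    · rfl)⟩
  have hx : ∀ m, x.coeff m = if m < n then c m else 0 := fun m => rfl
  set z := y - coeffMap ι x with hz
  have hz1 : ∀ m < n, z.coeff m = 0 := by
    intro m hm
    rw [hz, HahnSeries.coeff_sub, coeffMap_coeff, hx, if_pos hm, hc m hm, sub_self]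
  have hz2 : z.coeff n = y.coeff n := by
    rw [hz, HahnSeries.coeff_sub, coeffMap_coeff, hx, if_neg (lt_irrefl _), map_zero, sub_zero]
  have hz3 : z.coeff n ≠ 0 := by
    rw [hz2]
    intro h0
    apply hn1
    rw [h0]
    exact zero_mem _
  have hz0 : z ≠ 0 := by
    intro h0
    apply hz3
    rw [h0]
    rfl
  have hord : z.order = n := by
    apply le_antisymm (HahnSeries.order_le_of_coeff_ne_zero hz3)
    by_contra hlt
    push Not at hlt
    exact HahnSeries.coeff_order_eq_zero.not.mpr hz0 (hz1 _ hlt)
  have hlead : z.leadingCoeff = y.coeff n := by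
    rw [HahnSeries.leadingCoeff_eq, hord, hz2]
  apply hn1
  rw [← hlead]
  refine lead_mem ι (P := P.comp (X + C x)) ?_ ?_
  · intro h0
    rw [Polynomial.comp_eq_zero_iff] at h0
    rcases h0 with h0 | h0
    · exact hP h0
    · have h1 := congrArg Polynomial.natDegree h0.2
      rw [Polynomial.natDegree_X_add_C, Polynomial.natDegree_C] at h1
      exact one_ne_zero h1
  · rw [Polynomial.eval₂_comp, Polynomial.eval₂_add, Polynomial.eval₂_X, Polynomial.eval₂_C, hz,
      sub_add_cancel]
    exact h

end Fermat.Agent.XMB
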