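import Fermat.Agent.LG.BC

/-!
# Laurent series algebraic over a field of Laurent series have algebraic coefficients
-/

set_option autoImplicit false
set_option linter.unusedSectionVars false

noncomputable section

open ModularCurve Polynomial

namespace Fermat.Agent.XMB

open Fermat.Agent.X0Places

variable {K M : Type*} [Field K] [Field M] (ι : K →+* M)

theorem ofPS_coeff_neg {R : Type*} [Field R] (P : PowerSeries R) {k : ℤ} (hk : k < 0) :
    (HahnSeries.ofPowerSeries ℤ R P).coeff k = 0 := by
  rw [HahnSeries.ofPowerSeries_apply, HahnSeries.embDomain_of_notMem_range]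
  rintro ⟨a, ha⟩
  have h6 : ((a : ℕ) : ℤ) = k := ha
  omega

/-- `coeffMap` of a power series -/
theorem coeffMap_ofPS (P : PowerSeries K) : coeffMap ι (HahnSeries.ofPowerSeries ℤ K P) =
    HahnSeries.ofPowerSeries ℤ M (PowerSeries.map ι P) := by
  ext k
  rw [coeffMap_coeff]
  rcases lt_or_ge k 0 with hk | hk
  · rw [ofPS_coeff_neg _ hk, ofPS_coeff_neg _ hk, map_zero]
  · lift k to ℕ using hk
    rw [HahnSeries.ofPowerSeries_apply_coeff, HahnSeries.ofPowerSeries_apply_coeff,
      PowerSeries.coeff_map]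

variable [IsAlgClosed K]

/-- a root of a nonzero polynomial over an algebraically closed field -/
theorem mem_range_of_root {p : K[X]} (hp : p ≠ 0) {c : M} (hc : eval₂ ι c p = 0) :
    ∃ a, ι a = c := by
  have h1 := IsAlgClosed.splits p
  have h2 : (p.map ι).Splits := h1.map ι
  have h3 : p.map ι ≠ 0 := (Polynomial.map_ne_zero_iff ι.injective).2 hp
  have h4 : c ∈ (p.map ι).roots := by
    rw [Polynomial.mem_roots h3, Polynomial.IsRoot, Polynomial.eval_map]
    exact hc
  rw [Polynomial.Splits.roots_map h1] at h4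
  rw [Multiset.mem_map] at h4
  obtain ⟨a, -, ha⟩ := h4
  exact ⟨a, ha⟩

/-- divide a polynomial over power series by the maximal power of the variable -/
theorem exists_primitive {P : (PowerSeries K)[X]} (hP : P ≠ 0) :
    ∃ (k : ℕ) (P' : (PowerSeries K)[X]), P = C (PowerSeries.X ^ k) * P' ∧
      P'.map (PowerSeries.constantCoeff (R := K)) ≠ 0 := by
  classical
  have hex : ∃ k : ℕ, ∃ i : ℕ, PowerSeries.coeff k (P.coeff i) ≠ 0 := by
    by_contra hcon
    push Not at hcon
    apply hP
    ext i k
    rw [hcon k i]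
    simp
  obtain ⟨i, hi⟩ := Nat.find_spec hex
  set k := Nat.find hex with hk
  have hdvd : C (PowerSeries.X ^ k) ∣ P := by
    rw [Polynomial.C_dvd_iff_dvd_coeff]
    intro j
    rw [PowerSeries.X_pow_dvd_iff]
    intro m hm
    by_contra hne
    exact Nat.find_min hex hm ⟨j, hne⟩
  obtain ⟨P', hP'⟩ := hdvd
  refine ⟨k, P', hP', ?_⟩
  intro h0
  apply hi
  have h1 : PowerSeries.constantCoeff (P'.coeff i) = 0 := by
    have := congrArg (fun p => Polynomial.coeff p i) h0
    simpa [Polynomial.coeff_map] using this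
  rw [hP', Polynomial.coeff_C_mul, mul_comm, PowerSeries.coeff_mul_X_pow', if_pos le_rfl,
    Nat.sub_self, PowerSeries.coeff_zero_eq_constantCoeff_apply, h1]

/-- a common denominator -/
theorem exists_clear (p : (LaurentSeries K)[X]) :
    ∃ (m : ℕ) (P : (PowerSeries K)[X]),
      C (HahnSeries.single (m : ℤ) (1 : K)) * p = P.map (HahnSeries.ofPowerSeries ℤ K) := by
  have h1 : ∀ x : LaurentSeries K, ∃ (m : ℕ) (P : PowerSeries K), ∀ k : ℕ,
      HahnSeries.single ((m + k : ℕ) : ℤ) (1 : K) * x =
        HahnSeries.ofPowerSeries ℤ K (PowerSeries.X ^ k * P) := by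
    intro x
    obtain ⟨n, hn⟩ : ∃ n : ℕ, -(n : ℤ) ≤ x.order := ⟨x.order.natAbs, by omega⟩
    refine ⟨n, PowerSeries.mk fun k => x.coeff ((k : ℤ) - n), fun k => ?_⟩
    have h2 : HahnSeries.single (n : ℤ) (1 : K) * x =
        HahnSeries.ofPowerSeries ℤ K (PowerSeries.mk fun k => x.coeff ((k : ℤ) - n)) := by
      ext j
      rw [HahnSeries.coeff_single_mul, one_mul]
      rcases lt_or_ge j 0 with hj | hj
      · rw [ofPS_coeff_neg _ hj]
        exact HahnSeries.coeff_eq_zero_of_lt_order (by omega)
      · lift j to ℕ using hj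
        rw [HahnSeries.ofPowerSeries_apply_coeff, PowerSeries.coeff_mk]
    have h4 : ((n + k : ℕ) : ℤ) = (k : ℤ) + n := by push_cast; ring
    rw [map_mul, ← h2, HahnSeries.ofPowerSeries_X_pow, ← mul_assoc, HahnSeries.single_mul_single,
      one_mul, h4]
  choose m P hmP using h1
  -- the maximum of the denominators
  set n := ∑ i ∈ p.support, m (p.coeff i) with hn
  refine ⟨n, ∑ i ∈ p.support, Polynomial.monomial i
    (PowerSeries.X ^ (n - m (p.coeff i)) * P (p.coeff i)), ?_⟩
  rw [Polynomial.map_sum]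
  conv_lhs => rw [p.as_sum_support, Finset.mul_sum]
  refine Finset.sum_congr rfl fun i hi => ?_
  have hle : m (p.coeff i) ≤ n := Finset.single_le_sum
    (f := fun i => m (p.coeff i)) (fun _ _ => Nat.zero_le _) hi
  rw [Polynomial.C_mul_monomial, Polynomial.map_monomial, ← hmP, Nat.add_sub_cancel' hle]

/-- the constant term -/
theorem constantCoeff_mem {y : PowerSeries M}
    (hy : (coeffMap ι).IsIntegralElem (HahnSeries.ofPowerSeries ℤ M y)) :
    ∃ c, ι c = PowerSeries.constantCoeff y := by
  obtain ⟨p, hp, hpy⟩ := hy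
  obtain ⟨m, P, hmP⟩ := exists_clear p
  have hs : (HahnSeries.single (m : ℤ) (1 : K) : LaurentSeries K) ≠ 0 := by simp
  have hP0 : P ≠ 0 := by
    rintro rfl
    rw [Polynomial.map_zero] at hmP
    rcases mul_eq_zero.1 hmP with h | h
    · exact hs (Polynomial.C_eq_zero.1 h)
    · exact hp.ne_zero h
  obtain ⟨k, P', hPP', hP'⟩ := exists_primitive hP0
  -- `P'` vanishes at `y`
  have h1 : eval₂ (PowerSeries.map ι) y P = 0 := by
    have h2 : eval₂ ((coeffMap ι).comp (HahnSeries.ofPowerSeries ℤ K))
        (HahnSeries.ofPowerSeries ℤ M y) P = 0 := by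
      rw [← Polynomial.eval₂_map, ← hmP, Polynomial.eval₂_mul, hpy, mul_zero]
    have h3 : (coeffMap ι).comp (HahnSeries.ofPowerSeries ℤ K) =
        (HahnSeries.ofPowerSeries ℤ M).comp (PowerSeries.map ι) := by
      ext1 x
      exact coeffMap_ofPS ι x
    rw [h3, ← Polynomial.hom_eval₂] at h2
    exact (map_eq_zero_iff _ HahnSeries.ofPowerSeries_injective).1 h2
  rw [hPP', Polynomial.eval₂_mul, Polynomial.eval₂_C, map_pow, PowerSeries.map_X] at h1
  have h2 : eval₂ (PowerSeries.map ι) y P' = 0 :=
    (mul_eq_zero.1 h1).resolve_left (pow_ne_zero _ PowerSeries.X_ne_zero)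
  have h3 := congrArg (PowerSeries.constantCoeff (R := M)) h2
  rw [Polynomial.hom_eval₂, map_zero] at h3
  have h4 : (PowerSeries.constantCoeff (R := M)).comp (PowerSeries.map ι) =
      ι.comp (PowerSeries.constantCoeff (R := K)) := by
    ext x
    rw [RingHom.comp_apply, RingHom.comp_apply,
      ← PowerSeries.coeff_zero_eq_constantCoeff_apply, PowerSeries.coeff_map,
      PowerSeries.coeff_zero_eq_constantCoeff_apply]
  rw [h4, ← Polynomial.eval₂_map] at h3
  exact mem_range_of_root ι hP' h3

theorem coeff_mem (n : ℕ) : ∀ {y : PowerSeries M},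
    (coeffMap ι).IsIntegralElem (HahnSeries.ofPowerSeries ℤ M y) →
    ∃ c, ι c = PowerSeries.coeff n y := by
  induction n with
  | zero =>
    intro y hy
    obtain ⟨c, hc⟩ := constantCoeff_mem ι hy
    exact ⟨c, by rw [hc, PowerSeries.coeff_zero_eq_constantCoeff_apply]⟩
  | succ n ih =>
    intro y hy
    obtain ⟨c, hc⟩ := constantCoeff_mem ι hy
    set z : PowerSeries M := PowerSeries.mk fun k => PowerSeries.coeff (k + 1) y with hz
    have h1 : y = PowerSeries.C (ι c) + PowerSeries.X * z := by
      ext k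
      cases k with
      | zero => simp [hc]
      | succ k => simp [hz, PowerSeries.coeff_succ_X_mul]
    have h2 : HahnSeries.ofPowerSeries ℤ M z =
        coeffMap ι (HahnSeries.single (-1 : ℤ) (1 : K)) *
          (HahnSeries.ofPowerSeries ℤ M y - coeffMap ι (HahnSeries.C c)) := by
      have h3 : HahnSeries.ofPowerSeries ℤ M y - coeffMap ι (HahnSeries.C c) =
          HahnSeries.single (1 : ℤ) (1 : M) * HahnSeries.ofPowerSeries ℤ M z := by
        have h4 : coeffMap ι (HahnSeries.C c) = HahnSeries.C (ι c) := by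
          rw [HahnSeries.C_apply, HahnSeries.C_apply, coeffMap_single]
        rw [h4]
        nth_rewrite 1 [h1]
        rw [map_add, map_mul, HahnSeries.ofPowerSeries_C, HahnSeries.ofPowerSeries_X,
          add_sub_cancel_left]
      rw [h3, coeffMap_single, map_one, ← mul_assoc, HahnSeries.single_mul_single, one_mul]
      norm_num
    have h3 : (coeffMap ι).IsIntegralElem (HahnSeries.ofPowerSeries ℤ M z) := by
      rw [h2]
      exact RingHom.IsIntegralElem.mul _ (RingHom.isIntegralElem_map _)
        (RingHom.IsIntegralElem.sub _ hy (RingHom.isIntegralElem_map _))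
    obtain ⟨a, ha⟩ := ih h3
    refine ⟨a, ?_⟩
    rw [ha, hz, PowerSeries.coeff_mk]

/-- **XM-0.** -/
theorem exists_coeff_descent {y : LaurentSeries M} (hy : (coeffMap ι).IsIntegralElem y) :
    ∃ x, coeffMap ι x = y := by
  obtain ⟨n, hn⟩ : ∃ n : ℕ, -(n : ℤ) ≤ y.order := ⟨y.order.natAbs, by omega⟩
  set P : PowerSeries M := PowerSeries.mk fun k => y.coeff ((k : ℤ) - n) with hP
  have h2 : coeffMap ι (HahnSeries.single (n : ℤ) (1 : K)) * y =
      HahnSeries.ofPowerSeries ℤ M P := by
    rw [coeffMap_single, map_one]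
    ext j
    rw [HahnSeries.coeff_single_mul, one_mul]
    rcases lt_or_ge j 0 with hj | hj
    · rw [ofPS_coeff_neg _ hj]
      exact HahnSeries.coeff_eq_zero_of_lt_order (by omega)
    · lift j to ℕ using hj
      rw [HahnSeries.ofPowerSeries_apply_coeff, hP, PowerSeries.coeff_mk]
  have h3 : (coeffMap ι).IsIntegralElem (HahnSeries.ofPowerSeries ℤ M P) := by
    rw [← h2]
    exact RingHom.IsIntegralElem.mul _ (RingHom.isIntegralElem_map _) hy
  choose c hc using fun k => coeff_mem ι k h3
  refine ⟨HahnSeries.single (-(n : ℤ)) (1 : K) * HahnSeries.ofPowerSeries ℤ K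
    (PowerSeries.mk c), ?_⟩
  have h4 : PowerSeries.map ι (PowerSeries.mk c) = P := by
    ext k
    rw [PowerSeries.coeff_map, PowerSeries.coeff_mk, hc]
  rw [map_mul, coeffMap_ofPS, h4, ← h2, ← mul_assoc, ← map_mul, HahnSeries.single_mul_single,
    mul_one, neg_add_cancel, ← HahnSeries.C_apply, map_one, map_one, one_mul]

end Fermat.Agent.XMB
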