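import Fermat.Agent.DS1.Gal
import Fermat.Agent.XMB.AlgCoeff

/-!
# The action of `SL₂(ℤ)` on the field of level `Γ(Q)` in the variable `q^{1/Q}`: matrices
-/

set_option autoImplicit false
set_option linter.unusedSectionVars false
set_option linter.style.haveILetI false

noncomputable section

open UpperHalfPlane Function ModularCurve Filter ModularForm AlgebraicCurve WithZero
  CongruenceSubgroup IntermediateField
open scoped Manifold MatrixGroups Topology ModularForm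

namespace Fermat.Agent.XMB

open Fermat.Agent.X0Places Fermat.Agent.TorsCmp Fermat.Agent.FunField Fermat.Agent.LG
open Matrix.SpecialLinearGroup (mapGL)
open Function.Periodic (qParam)

/-- the group conjugate to `±Γ(Q)` -/
abbrev Gs (Q : ℕ) : Subgroup SL(2, ℤ) := DS1.G1 (Q ^ 2) Q

/-- the matrix `δ⁻¹ γ δ`, `δ = diag(Q, 1)` -/
def dgam (Q : ℕ) (γ : SL(2, ℤ)) : GL (Fin 2) ℝ :=
  (heckeDiagMatrix Q)⁻¹ * mapGL ℝ γ * heckeDiagMatrix Q

variable (Q : ℕ)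

theorem dgam_mul (γ γ' : SL(2, ℤ)) : dgam Q (γ * γ') = dgam Q γ * dgam Q γ' := by
  rw [dgam, dgam, dgam, map_mul]
  group

theorem dgam_one : dgam Q 1 = 1 := by
  rw [dgam, map_one, mul_one, inv_mul_cancel]

theorem heckeDiag_mul_dgam (γ : SL(2, ℤ)) :
    heckeDiagMatrix Q * dgam Q γ = mapGL ℝ γ * heckeDiagMatrix Q := by
  rw [dgam]
  group

theorem det_dgam_pos (γ : SL(2, ℤ)) : 0 < ((dgam Q γ).det : ℝ) := by
  have h : (dgam Q γ).det = (mapGL ℝ γ : GL (Fin 2) ℝ).det := by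
    rw [dgam, map_mul, map_mul, map_inv, mul_comm, ← mul_assoc, mul_inv_cancel, one_mul]
  rw [h]
  exact det_mapGL_pos γ

variable [hQ : NeZero Q]

theorem Q_pos : 0 < Q := Nat.pos_of_ne_zero hQ.out

theorem heckeDiag_inv_smul (τ : ℍ) : (heckeDiagMatrix Q)⁻¹ • τ =
    ModularGroup.S • scaleH Q (Q_pos Q) (ModularGroup.S • τ) := by
  rw [inv_smul_eq_iff, LG.heckeDiag_smul Q (Q_pos Q)]
  have hQc : (Q : ℂ) ≠ 0 := by exact_mod_cast hQ.out
  have hτ : (τ : ℂ) ≠ 0 := τ.ne_zero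
  apply UpperHalfPlane.ext
  rw [coe_scaleH, coe_SL_smul, coe_scaleH, coe_SL_smul]
  simp [ModularGroup.S]
  field_simp

theorem dgam_smul (γ : SL(2, ℤ)) (τ : ℍ) : dgam Q γ • τ =
    ModularGroup.S • scaleH Q (Q_pos Q) ((ModularGroup.S * γ) • scaleH Q (Q_pos Q) τ) := by
  rw [dgam, mul_smul, mul_smul, LG.heckeDiag_smul Q (Q_pos Q), heckeDiag_inv_smul, mul_smul]
  rfl

/-! ### the group `± Γ(Q)` -/

/-- `± Γ(Q)` -/
def PG : Subgroup SL(2, ℤ) :=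
  (Subgroup.zpowers (-1 : SL(2, ZMod Q))).comap
    (Matrix.SpecialLinearGroup.map (Int.castRingHom (ZMod Q)))

omit hQ in
theorem mem_PG {γ : SL(2, ℤ)} : γ ∈ PG Q ↔
    Matrix.SpecialLinearGroup.map (Int.castRingHom (ZMod Q)) γ = 1 ∨
    Matrix.SpecialLinearGroup.map (Int.castRingHom (ZMod Q)) γ = -1 := by
  rw [PG, Subgroup.mem_comap, Subgroup.mem_zpowers_iff]
  constructor
  · rintro ⟨k, hk⟩
    rcases Int.even_or_odd k with h | h
    · left; rw [← hk, h.neg_one_zpow]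
    · right; rw [← hk, h.neg_one_zpow]
  · rintro (h | h)
    · exact ⟨0, by rw [h, zpow_zero]⟩
    · exact ⟨1, by rw [h, zpow_one]⟩

instance PG_normal : (PG Q).Normal := by
  have h : (Subgroup.zpowers (-1 : SL(2, ZMod Q))).Normal := by
    refine ⟨fun n hn g => ?_⟩
    obtain ⟨k, rfl⟩ := hn
    refine ⟨k, ?_⟩
    have hc : Commute g (-1 : SL(2, ZMod Q)) := Commute.neg_one_right g
    show (-1 : SL(2, ZMod Q)) ^ k = g * (-1 : SL(2, ZMod Q)) ^ k * g⁻¹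
    rw [(hc.zpow_right k).eq, mul_inv_cancel_right]
  exact h.comap _

omit hQ in
theorem mem_PG_iff {γ : SL(2, ℤ)} : γ ∈ PG Q ↔
    ((γ 0 1 : ℤ) : ZMod Q) = 0 ∧ ((γ 1 0 : ℤ) : ZMod Q) = 0 ∧
      ((((γ 0 0 : ℤ) : ZMod Q) = 1 ∧ ((γ 1 1 : ℤ) : ZMod Q) = 1) ∨
        (((γ 0 0 : ℤ) : ZMod Q) = -1 ∧ ((γ 1 1 : ℤ) : ZMod Q) = -1)) := by
  rw [mem_PG]
  have e : ∀ i j, (Matrix.SpecialLinearGroup.map (Int.castRingHom (ZMod Q)) γ) i j =
      ((γ i j : ℤ) : ZMod Q) := fun i j => rfl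
  constructor
  · rintro (h | h)
    · have h00 := e 0 0
      have h01 := e 0 1
      have h10 := e 1 0
      have h11 := e 1 1
      rw [h] at h00 h01 h10 h11
      simp at h00 h01 h10 h11
      exact ⟨h01.symm, h10.symm, Or.inl ⟨h00.symm, h11.symm⟩⟩
    · have h00 := e 0 0
      have h01 := e 0 1
      have h10 := e 1 0
      have h11 := e 1 1
      rw [h] at h00 h01 h10 h11
      simp at h00 h01 h10 h11
      exact ⟨h01.symm, h10.symm, Or.inr ⟨h00.symm, h11.symm⟩⟩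
  · rintro ⟨h01, h10, ⟨h00, h11⟩ | ⟨h00, h11⟩⟩
    · left
      ext i j
      rw [e]
      fin_cases i <;> fin_cases j <;> simp [h00, h01, h10, h11]
    · right
      ext i j
      rw [e]
      fin_cases i <;> fin_cases j <;> simp [h00, h01, h10, h11]

/-- from `Gs` to `± Γ(Q)` -/
theorem exists_PG {γ : SL(2, ℤ)} (hγ : γ ∈ Gs Q) : ∃ γ' ∈ PG Q, dgam Q γ' = mapGL ℝ γ := by
  rw [Gs, DS1.mem_G1 (dvd_pow_self Q two_ne_zero)] at hγ
  obtain ⟨h1, h2⟩ := hγ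
  rw [Gamma0_mem, ZMod.intCast_zmod_eq_zero_iff_dvd] at h1
  obtain ⟨c, hc⟩ := h1
  have hdet : γ 0 0 * γ 1 1 - γ 0 1 * γ 1 0 = 1 := by
    have := γ.det_coe
    rwa [Matrix.det_fin_two] at this
  have hdet' : γ 0 0 * γ 1 1 - (Q * γ 0 1) * (Q * c) = 1 := by
    rw [hc] at hdet
    push_cast at hdet
    linear_combination hdet
  refine ⟨mkSL (γ 0 0) (Q * γ 0 1) (Q * c) (γ 1 1) hdet', ?_, ?_⟩
  · rw [mem_PG_iff]
    simp only [mkSL_00, mkSL_01, mkSL_10, mkSL_11]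
    refine ⟨by simp, by simp, ?_⟩
    have h3 : ((γ 0 0 : ℤ) : ZMod Q) * ((γ 1 1 : ℤ) : ZMod Q) = 1 := by
      have := congrArg (fun z : ℤ => (z : ZMod Q)) hdet'
      simpa using this
    rcases h2 with h2 | h2
    · left
      rw [h2, mul_one] at h3
      exact ⟨h3, h2⟩
    · right
      rw [h2, mul_neg, mul_one] at h3
      exact ⟨by rw [← h3, neg_neg], h2⟩
  · have h4 : mapGL ℝ (mkSL (γ 0 0) (Q * γ 0 1) (Q * c) (γ 1 1) hdet') * heckeDiagMatrix Q =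
        heckeDiagMatrix Q * mapGL ℝ γ := by
      apply Units.ext
      rw [Units.val_mul, Units.val_mul, val_heckeDiagMatrix hQ.out]
      have hc' : ((γ 1 0 : ℤ) : ℝ) = (Q : ℝ) ^ 2 * c := by rw [hc]; push_cast; ring
      ext i j
      fin_cases i <;> fin_cases j <;>
        simp [Matrix.mul_apply, Fin.sum_univ_two, mapGL, hc'] <;> ring
    rw [dgam, mul_assoc, h4, inv_mul_cancel_left]

/-- from `± Γ(Q)` to `Gs` -/
theorem exists_Gs {γ : SL(2, ℤ)} (hγ : γ ∈ PG Q) : ∃ γ' ∈ Gs Q, dgam Q γ = mapGL ℝ γ' := by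
  rw [mem_PG_iff] at hγ
  obtain ⟨h1, h2, h3⟩ := hγ
  rw [ZMod.intCast_zmod_eq_zero_iff_dvd] at h1
  obtain ⟨b, hb⟩ := h1
  have hdet : γ 0 0 * γ 1 1 - γ 0 1 * γ 1 0 = 1 := by
    have := γ.det_coe
    rwa [Matrix.det_fin_two] at this
  have hdet' : γ 0 0 * γ 1 1 - b * (γ 1 0 * Q) = 1 := by
    rw [hb] at hdet
    linear_combination hdet
  refine ⟨mkSL (γ 0 0) b (γ 1 0 * Q) (γ 1 1) hdet', ?_, ?_⟩
  · rw [Gs, DS1.mem_G1 (dvd_pow_self Q two_ne_zero)]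
    simp only [mkSL_11]
    refine ⟨?_, ?_⟩
    · rw [Gamma0_mem, mkSL_10]
      rw [ZMod.intCast_zmod_eq_zero_iff_dvd] at h2 ⊢
      obtain ⟨c, hc⟩ := h2
      exact ⟨c, by rw [hc]; push_cast; ring⟩
    · rcases h3 with h3 | h3
      · exact Or.inl h3.2
      · exact Or.inr h3.2
  · have h4 : mapGL ℝ γ * heckeDiagMatrix Q =
        heckeDiagMatrix Q * mapGL ℝ (mkSL (γ 0 0) b (γ 1 0 * Q) (γ 1 1) hdet') := by
      apply Units.ext
      rw [Units.val_mul, Units.val_mul, val_heckeDiagMatrix hQ.out]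
      have hb' : ((γ 0 1 : ℤ) : ℝ) = (Q : ℝ) * b := by rw [hb]; push_cast; ring
      ext i j
      fin_cases i <;> fin_cases j <;>
        simp [Matrix.mul_apply, Fin.sum_univ_two, mapGL, hb'] <;> ring
    rw [dgam, mul_assoc, h4, inv_mul_cancel_left]

/-- `Gs` is normalised by the matrices `dgam` -/
theorem dgam_normalizes (γ : SL(2, ℤ)) {g : SL(2, ℤ)} (hg : g ∈ Gs Q) :
    ∃ g' ∈ Gs Q, dgam Q γ * mapGL ℝ g = mapGL ℝ g' * dgam Q γ := by
  obtain ⟨g₁, hg₁, h1⟩ := exists_PG Q hg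
  have h2 : γ * g₁ * γ⁻¹ ∈ PG Q := (PG_normal Q).conj_mem g₁ hg₁ γ
  obtain ⟨g', hg', h3⟩ := exists_Gs Q h2
  refine ⟨g', hg', ?_⟩
  rw [← h1, ← h3, ← dgam_mul, ← dgam_mul, inv_mul_cancel_right]

end Fermat.Agent.XMB
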