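import Fermat.Agent.XM.Basic

/-!
# The expansions of the weight `3` Eisenstein series of level `M` : algebra
-/

set_option autoImplicit false
set_option linter.unusedSectionVars false

noncomputable section

open ModularCurve

namespace Fermat.Agent.XMB

open Fermat.Agent.XM Fermat.Agent.WOne

variable {M : ℕ} [NeZero M] {K : Type*} [Field K] {ζ : K}

theorem coeff_PGs_zero (v : Fin 2 → ZMod M) :
    (PGs M K ζ v).coeff 0 = if v 0 = 0 then cstK M K ζ (v 1) else 0 := by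
  rw [PGs, Pser, PowerSeries.coeff_mk, if_pos rfl]

theorem coeff_PGs_one (v : Fin 2 → ZMod M) :
    (PGs M K ζ v).coeff 1 = (if 1 = v 0 then ζ ^ (v 1).val else 0) -
      (if 1 = - v 0 then ζ ^ (- v 1).val else 0) := by
  rw [PGs, Pser, PowerSeries.coeff_mk, if_neg one_ne_zero, Nat.divisorsAntidiagonal_one,
    Finset.sum_singleton, dterm]
  simp only [Nat.cast_one, one_pow, one_mul, mul_one]
  ring

theorem pow_val_neg (hζ : ζ ^ M = 1) (b : ZMod M) : ζ ^ (-b).val = (ζ ^ b.val)⁻¹ := by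
  have hζ0 : ζ ≠ 0 := by
    rintro rfl
    rw [zero_pow (NeZero.ne M)] at hζ
    exact zero_ne_one hζ
  refine eq_inv_of_mul_eq_one_left ?_
  rw [mul_comm, ← pow_add]
  have h1 : M ∣ b.val + (-b).val := by
    rw [← ZMod.natCast_eq_zero_iff]
    push_cast
    rw [ZMod.natCast_zmod_val, ZMod.natCast_zmod_val, add_neg_cancel]
  obtain ⟨c, hc⟩ := h1
  rw [hc, pow_mul, hζ, one_pow]

theorem ratR_inv (w : K) : ratR 3 w⁻¹ = - ratR 3 w := by
  rcases eq_or_ne w 0 with rfl | hw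
  · simp [ratR]
  rw [ratR, ratR, if_pos rfl, if_pos rfl]
  rcases eq_or_ne w 1 with rfl | hw1
  · simp
  have h1 : (1 - w) ≠ 0 := sub_ne_zero.mpr (Ne.symm hw1)
  have h2 : (1 - w⁻¹) ≠ 0 := by
    intro h0
    apply hw1
    rw [sub_eq_zero, eq_comm, inv_eq_one] at h0
    exact h0
  have h3 : w - 1 ≠ 0 := sub_ne_zero.mpr hw1
  have h4 : (1 - w⁻¹) = (w - 1) / w := by field_simp
  rw [h4]
  have h5 : (1 - w) = -(w - 1) := by ring
  rw [h5]
  field_simp
  ring

theorem cstK_neg (hζ : ζ ^ M = 1) (b : ZMod M) : cstK M K ζ (-b) = - cstK M K ζ b := by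
  rw [cstK, cstK]
  by_cases hb : b = 0
  · rw [if_pos hb, if_pos (by rw [hb, neg_zero]), neg_zero]
  · rw [if_neg hb, if_neg (by rwa [neg_eq_zero]), pow_val_neg hζ, ratR_inv]

/-- `E₋ᵥ = - Eᵥ`. -/
theorem PGs_neg (hζ : ζ ^ M = 1) (v : Fin 2 → ZMod M) : PGs M K ζ (-v) = - PGs M K ζ v := by
  ext n
  rw [map_neg, PGs, PGs, Pser, Pser, PowerSeries.coeff_mk, PowerSeries.coeff_mk]
  simp only [Pi.neg_apply, neg_eq_zero]
  split_ifs with h1 h2
  · exact cstK_neg hζ _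
  · rw [neg_zero]
  · rw [← Finset.sum_neg_distrib]
    refine Finset.sum_congr rfl fun x _ => ?_
    rw [dterm, dterm]
    simp only [neg_neg]
    ring

theorem pow_val_ne_one (hζ : IsPrimitiveRoot ζ M) {b : ZMod M} (hb : b ≠ 0) :
    ζ ^ b.val ≠ 1 := by
  intro h
  apply hb
  rw [hζ.pow_eq_one_iff_dvd] at h
  rw [← ZMod.natCast_zmod_val b, ZMod.natCast_eq_zero_iff]
  exact h

theorem cstK_ne_zero (hM : 2 < M) (hζ : IsPrimitiveRoot ζ M) {b : ZMod M} (hb : IsUnit b) :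
    cstK M K ζ b ≠ 0 := by
  haveI : Fact (1 < M) := ⟨by omega⟩
  have hb0 : b ≠ 0 := hb.ne_zero
  rw [cstK, if_neg hb0, ratR, if_pos rfl]
  have hζ0 : ζ ≠ 0 := hζ.ne_zero (NeZero.ne M)
  have h1 := pow_val_ne_one hζ hb0
  refine div_ne_zero (mul_ne_zero (pow_ne_zero _ hζ0) ?_) (pow_ne_zero _ (sub_ne_zero.mpr h1.symm))
  intro h2
  have h3 : ζ ^ (b.val * 2) = 1 := by
    have h4 : ζ ^ b.val = -1 := by linear_combination h2
    rw [pow_mul, h4]
    ring
  rw [hζ.pow_eq_one_iff_dvd] at h3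
  have h5 : (b * 2 : ZMod M) = 0 := by
    have h6 : ((b.val * 2 : ℕ) : ZMod M) = 0 := by
      rw [ZMod.natCast_eq_zero_iff]; exact h3
    push_cast at h6
    rwa [ZMod.natCast_zmod_val] at h6
  rw [hb.mul_right_eq_zero] at h5
  have h6 : ((2 : ℕ) : ZMod M) = 0 := by exact_mod_cast h5
  rw [ZMod.natCast_eq_zero_iff] at h6
  have := Nat.le_of_dvd (by norm_num) h6
  omega

theorem one_ne_neg_one (hM : 2 < M) : (1 : ZMod M) ≠ -1 := by
  intro h
  have h5 : (2 : ZMod M) = 0 := by linear_combination h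
  have h6 : ((2 : ℕ) : ZMod M) = 0 := by exact_mod_cast h5
  rw [ZMod.natCast_eq_zero_iff] at h6
  have := Nat.le_of_dvd (by norm_num) h6
  omega

/-- basic vectors -/
def e1 : Fin 2 → ZMod M := ![1, 0]
/-- basic vectors -/
def e2 : Fin 2 → ZMod M := ![0, 1]

theorem vact_e1 (g : Matrix.SpecialLinearGroup (Fin 2) ℤ) :
    vact (e1 : Fin 2 → ZMod M) g = ![((g 0 0 : ℤ) : ZMod M), ((g 0 1 : ℤ) : ZMod M)] := by
  funext i
  fin_cases i <;> simp [vact, e1, Matrix.vecMul, dotProduct, Fin.sum_univ_two]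

theorem vact_e2 (g : Matrix.SpecialLinearGroup (Fin 2) ℤ) :
    vact (e2 : Fin 2 → ZMod M) g = ![((g 1 0 : ℤ) : ZMod M), ((g 1 1 : ℤ) : ZMod M)] := by
  funext i
  fin_cases i <;> simp [vact, e2, Matrix.vecMul, dotProduct, Fin.sum_univ_two]

theorem prim_e1 : Prim M (e1 : Fin 2 → ZMod M) := ⟨1, 0, by simp [e1]⟩
theorem prim_e2 : Prim M (e2 : Fin 2 → ZMod M) := ⟨0, 1, by simp [e2]⟩

theorem det_cast (g : Matrix.SpecialLinearGroup (Fin 2) ℤ) :
    ((g 0 0 : ℤ) : ZMod M) * ((g 1 1 : ℤ) : ZMod M) -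
      ((g 0 1 : ℤ) : ZMod M) * ((g 1 0 : ℤ) : ZMod M) = 1 := by
  have h := g.det_coe
  rw [Matrix.det_fin_two] at h
  have h2 := congrArg (Int.cast : ℤ → ZMod M) h
  push_cast at h2
  exact h2

/-- `vact` preserves primitive vectors. -/
theorem prim_vact {v : Fin 2 → ZMod M} (hv : Prim M v)
    (g : Matrix.SpecialLinearGroup (Fin 2) ℤ) : Prim M (vact v g) := by
  obtain ⟨x, y, hxy⟩ := hv
  have hd := det_cast (M := M) g
  have h0 : vact v g 0 = v 0 * ((g 0 0 : ℤ) : ZMod M) + v 1 * ((g 1 0 : ℤ) : ZMod M) := by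
    simp [vact, Matrix.vecMul, dotProduct, Fin.sum_univ_two]
  have h1 : vact v g 1 = v 0 * ((g 0 1 : ℤ) : ZMod M) + v 1 * ((g 1 1 : ℤ) : ZMod M) := by
    simp [vact, Matrix.vecMul, dotProduct, Fin.sum_univ_two]
  refine ⟨x * ((g 1 1 : ℤ) : ZMod M) - y * ((g 0 1 : ℤ) : ZMod M),
    y * ((g 0 0 : ℤ) : ZMod M) - x * ((g 1 0 : ℤ) : ZMod M), ?_⟩
  rw [h0, h1]
  linear_combination (x * v 0 + y * v 1) * hd + hxy

/-- **Faithfulness**: the products `Eᵥ Eᵥ'³` determine `±g` modulo `M`. -/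
theorem faithful (hM : 2 < M) (hζ : IsPrimitiveRoot ζ M)
    {g : Matrix.SpecialLinearGroup (Fin 2) ℤ}
    (h : ∀ v w : Fin 2 → ZMod M, Prim M v → Prim M w →
      PGs M K ζ (vact v g) * PGs M K ζ (vact w g) ^ 3 = PGs M K ζ v * PGs M K ζ w ^ 3) :
    ((g 0 1 : ℤ) : ZMod M) = 0 ∧ ((g 1 0 : ℤ) : ZMod M) = 0 ∧
      ((((g 0 0 : ℤ) : ZMod M) = 1 ∧ ((g 1 1 : ℤ) : ZMod M) = 1) ∨
        (((g 0 0 : ℤ) : ZMod M) = -1 ∧ ((g 1 1 : ℤ) : ZMod M) = -1)) := by
  haveI : Fact (1 < M) := ⟨by omega⟩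
  have hζM : ζ ^ M = 1 := hζ.pow_eq_one
  have hM1 : (1 : ZMod M) ≠ 0 := one_ne_zero
  have hc1 := cstK_ne_zero (K := K) hM hζ (b := 1) isUnit_one
  have e20 : (e2 : Fin 2 → ZMod M) 0 = 0 := rfl
  have e21 : (e2 : Fin 2 → ZMod M) 1 = 1 := rfl
  have e10 : (e1 : Fin 2 → ZMod M) 0 = 1 := rfl
  have e11 : (e1 : Fin 2 → ZMod M) 1 = 0 := rfl
  set a := ((g 0 0 : ℤ) : ZMod M) with ha
  set b := ((g 0 1 : ℤ) : ZMod M) with hb
  set c := ((g 1 0 : ℤ) : ZMod M) with hc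
  set d := ((g 1 1 : ℤ) : ZMod M) with hd
  have hdet : a * d - b * c = 1 := det_cast g
  -- constant terms
  have hcc : ∀ P Q : PowerSeries K, (P * Q ^ 3).coeff 0 = P.coeff 0 * Q.coeff 0 ^ 3 := by
    intro P Q
    simp only [PowerSeries.coeff_zero_eq_constantCoeff, map_mul, map_pow]
  have hc0 : c = 0 := by
    by_contra hcne
    have h1 := congrArg (PowerSeries.coeff 0) (h e2 e2 prim_e2 prim_e2)
    rw [hcc, hcc, coeff_PGs_zero, coeff_PGs_zero, vact_e2, if_pos e20, e21] at h1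
    simp only [Matrix.cons_val_zero] at h1
    rw [if_neg hcne, zero_mul] at h1
    exact mul_ne_zero hc1 (pow_ne_zero _ hc1) h1.symm
  have had : a * d = 1 := by rw [hc0, mul_zero, sub_zero] at hdet; exact hdet
  have hane : a ≠ 0 := left_ne_zero_of_mul_eq_one had
  -- leading terms
  have hfac : ∀ P : PowerSeries K, P.coeff 0 = 0 → ∃ Q : PowerSeries K, P = PowerSeries.X * Q ∧
      Q.coeff 0 = P.coeff 1 := by
    intro P hP
    rw [PowerSeries.coeff_zero_eq_constantCoeff, ← PowerSeries.X_dvd_iff] at hP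
    obtain ⟨Q, rfl⟩ := hP
    refine ⟨Q, rfl, ?_⟩
    rw [show (1 : ℕ) = 0 + 1 from rfl, PowerSeries.coeff_succ_X_mul]
  obtain ⟨Q1, hQ1, hQ1'⟩ := hfac (PGs M K ζ e1) (by rw [coeff_PGs_zero, if_neg (by rw [e10]; exact hM1)])
  obtain ⟨Qg, hQg, hQg'⟩ := hfac (PGs M K ζ (vact e1 g)) (by
    rw [coeff_PGs_zero, vact_e1, if_neg (by simp only [Matrix.cons_val_zero]; exact hane)])
  have hc11 : (PGs M K ζ (e1 : Fin 2 → ZMod M)).coeff 1 = 1 := by
    rw [coeff_PGs_one, e10, e11, if_pos rfl, if_neg (one_ne_neg_one hM), ZMod.val_zero, pow_zero,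
      sub_zero]
  have hcg : (PGs M K ζ (vact e1 g)).coeff 1 =
      (if 1 = a then ζ ^ b.val else 0) - (if 1 = - a then ζ ^ (-b).val else 0) := by
    rw [coeff_PGs_one, vact_e1]
    simp only [Matrix.cons_val_zero, Matrix.cons_val_one]
    rfl
  have hXne : (PowerSeries.X : PowerSeries K) ^ 4 ≠ 0 := pow_ne_zero _ PowerSeries.X_ne_zero
  have h4 : Qg.coeff 0 * Qg.coeff 0 ^ 3 = Q1.coeff 0 * Q1.coeff 0 ^ 3 := by
    have h1 := h e1 e1 prim_e1 prim_e1
    rw [hQg, hQ1] at h1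
    have h2 : (PowerSeries.X : PowerSeries K) ^ 4 * (Qg * Qg ^ 3) =
        PowerSeries.X ^ 4 * (Q1 * Q1 ^ 3) := by linear_combination h1
    have h3 := mul_left_cancel₀ hXne h2
    have h5 := congrArg (PowerSeries.coeff 0) h3
    rw [hcc, hcc] at h5
    exact h5
  rw [hQg', hQ1', hc11, hcg] at h4
  -- mixed terms
  have h5 : (PGs M K ζ (vact e1 g)).coeff 1 * (PGs M K ζ (vact e2 g)).coeff 0 ^ 3 =
      (PGs M K ζ (e1 : Fin 2 → ZMod M)).coeff 1 * (PGs M K ζ (e2 : Fin 2 → ZMod M)).coeff 0 ^ 3 := by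
    have h1 := h e1 e2 prim_e1 prim_e2
    rw [hQg, hQ1, mul_assoc, mul_assoc] at h1
    have h3 := mul_left_cancel₀ PowerSeries.X_ne_zero h1
    have h6 := congrArg (PowerSeries.coeff 0) h3
    rw [hcc, hcc, hQg', hQ1'] at h6
    exact h6
  have hce2 : (PGs M K ζ (e2 : Fin 2 → ZMod M)).coeff 0 = cstK M K ζ 1 := by
    rw [coeff_PGs_zero, e20, e21, if_pos rfl]
  have hcg2 : (PGs M K ζ (vact e2 g)).coeff 0 = cstK M K ζ d := by
    rw [coeff_PGs_zero, vact_e2]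
    simp only [Matrix.cons_val_zero, Matrix.cons_val_one]
    rw [if_pos hc0]
  rw [hcg, hc11, hce2, hcg2, one_mul] at h5
  refine ⟨?_, hc0, ?_⟩
  · by_cases ha1 : 1 = a
    · have hna : ¬ (1 = -a) := by rw [← ha1]; exact one_ne_neg_one hM
      have hd1 : d = 1 := by rw [← ha1, one_mul] at had; exact had
      rw [if_pos ha1, if_neg hna, sub_zero, hd1] at h5
      have h6 : ζ ^ b.val = 1 := mul_right_cancel₀ (pow_ne_zero 3 hc1) (h5.trans (one_mul _).symm)
      by_contra hbne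
      exact pow_val_ne_one hζ hbne h6
    · by_cases ha2 : 1 = -a
      · have hd1 : d = -1 := by
          have : a = -1 := by rw [ha2, neg_neg]
          rw [this] at had
          linear_combination -had
        rw [if_neg ha1, if_pos ha2, zero_sub, hd1, cstK_neg hζM] at h5
        have h6 : ζ ^ (-b).val = 1 := by
          apply mul_right_cancel₀ (pow_ne_zero 3 hc1)
          linear_combination h5
        by_contra hbne
        exact pow_val_ne_one hζ (neg_ne_zero.mpr hbne) h6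
      · rw [if_neg ha1, if_neg ha2, sub_zero] at h4
        simp at h4
  · by_cases ha1 : 1 = a
    · left
      exact ⟨ha1.symm, by rw [← ha1, one_mul] at had; exact had⟩
    · by_cases ha2 : 1 = -a
      · right
        have : a = -1 := by rw [ha2, neg_neg]
        refine ⟨this, ?_⟩
        rw [this] at had
        linear_combination -had
      · rw [if_neg ha1, if_neg ha2, sub_zero] at h4
        simp at h4

end Fermat.Agent.XMB
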