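import Fermat.Agent.XMB.EisAlg
import Fermat.Agent.LGU.Alg

/-!
# The expansions of the weight `3` Eisenstein series of level `M` : reduction, tameness
-/

set_option autoImplicit false
set_option linter.unusedSectionVars false

noncomputable section

open ModularCurve Fermat.Agent.Igusa

namespace Fermat.Agent.XMB

open Fermat.Agent.XM Fermat.Agent.WOne

section dInv

variable (M : ℕ) [NeZero M] (R : Type*) [CommRing R]

/-- expansion of `1 / Δ` in `X = q^{1/M}` -/
def dInvM : LaurentSeries R :=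
  qExpand R M (HahnSeries.single (-1 : ℤ) 1 *
    HahnSeries.ofPowerSeries ℤ R (dedekindEtaUnitInv.map (Int.castRingHom R)))

theorem coeffMap_dInvM {S : Type*} [CommRing S] (f : R →+* S) :
    coeffMap f (dInvM M R) = dInvM M S := by
  have e : (dedekindEtaUnitInv.map (Int.castRingHom R)).map f =
      dedekindEtaUnitInv.map (Int.castRingHom S) := by
    ext n
    simp only [PowerSeries.coeff_map, eq_intCast, map_intCast]
  rw [dInvM, coeffMap_qExpand, map_mul, coeffMap_single, map_one, coeffMap_ofPowerSeries, e, dInvM]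

theorem dInvM_ne_zero [Nontrivial R] : dInvM M R ≠ 0 := by
  have hinj : Function.Injective (qExpand R M) := by
    intro x y hxy
    ext n
    have := congrArg (fun z => z.coeff ((M : ℤ) * n)) hxy
    simpa using this
  rw [dInvM, Ne, map_eq_zero_iff _ hinj]
  intro h
  have h1 : (HahnSeries.single (-1 : ℤ) 1 *
    HahnSeries.ofPowerSeries ℤ R (dedekindEtaUnitInv.map (Int.castRingHom R))).coeff (-1) = 0 := by
    rw [h]; rfl
  rw [HahnSeries.coeff_single_mul, one_mul, sub_self] at h1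
  have h2 := HahnSeries.ofPowerSeries_apply_coeff (Γ := ℤ)
    (dedekindEtaUnitInv.map (Int.castRingHom R)) 0
  rw [Nat.cast_zero] at h2
  rw [h2, PowerSeries.coeff_map, PowerSeries.coeff_zero_eq_constantCoeff,
    constantCoeff_dedekindEtaUnitInv, map_one] at h1
  exact one_ne_zero h1

end dInv

variable {M : ℕ} [NeZero M]

section phi

variable (M) (K : Type*) [Field K] (ζ : K)

/-- expansion of the test functions `Eᵥ E_w³ / Δ`. -/
def phiL (v w : Fin 2 → ZMod M) : LaurentSeries K := PG M K ζ v * PG M K ζ w ^ 3 * dInvM M K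

theorem phiL_mem_tame (L : Type*) [Field L] {ζ : L} (hζ : ζ ^ M = 1) (v w : Fin 2 → ZMod M) :
    phiL M L ζ v w ∈ tame L := by
  have h1 : ∀ v, PG M L ζ v ∈ tame L := by
    intro v
    refine ⟨Submodule.span ℤ (insert (cstK M L ζ (v 1)) (Set.range fun k : Fin M => ζ ^ (k : ℕ))),
      Submodule.fg_span ((Set.finite_range _).insert _), fun n => ?_⟩
    have hpow : ∀ m : ℕ, ζ ^ m ∈ Submodule.span ℤ
        (insert (cstK M L ζ (v 1)) (Set.range fun k : Fin M => ζ ^ (k : ℕ))) := by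
      intro m
      apply Submodule.subset_span
      refine Set.mem_insert_of_mem _ ⟨⟨m % M, Nat.mod_lt _ (Nat.pos_of_ne_zero (NeZero.ne M))⟩, ?_⟩
      show ζ ^ (m % M) = ζ ^ m
      conv_rhs => rw [← Nat.mod_add_div m M, pow_add, pow_mul, hζ, one_pow, mul_one]
    rcases lt_or_ge n 0 with hn | hn
    · have : (PG M L ζ v).coeff n = 0 := by
        rw [PG, HahnSeries.ofPowerSeries_apply, HahnSeries.embDomain_of_notMem_range]
        rintro ⟨a, ha⟩
        have h6 : ((a : ℕ) : ℤ) = n := ha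
        omega
      rw [this]; exact Submodule.zero_mem _
    · lift n to ℕ using hn
      rw [PG, HahnSeries.ofPowerSeries_apply_coeff, PGs, Pser, PowerSeries.coeff_mk]
      split_ifs with h1 h2
      · exact Submodule.subset_span (Set.mem_insert _ _)
      · exact Submodule.zero_mem _
      · refine Submodule.sum_mem _ fun x _ => ?_
        have e : dterm M L ζ 3 (v 0) (v 1) x = ((x.2 : ℤ) ^ 2) •
            ((if (x.1 : ZMod M) = v 0 then ζ ^ ((v 1).val * x.2) else 0) -
              (if (x.1 : ZMod M) = - v 0 then ζ ^ ((- v 1).val * x.2) else 0)) := by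
          rw [dterm, zsmul_eq_mul]
          push_cast
          ring
        rw [e]
        refine Submodule.smul_mem _ _ (Submodule.sub_mem _ ?_ ?_)
        · split_ifs
          · exact hpow _
          · exact Submodule.zero_mem _
        · split_ifs
          · exact hpow _
          · exact Submodule.zero_mem _
  have h2 : dInvM M L ∈ tame L := intCast_coeff_mem_tame (dInvM M ℤ) (by rw [coeffMap_dInvM])
  exact (tame L).mul_mem ((tame L).mul_mem (h1 v) ((tame L).pow_mem (h1 w) 3)) h2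

theorem phiL_faithful (hM : 2 < M) {K : Type*} [Field K] {ζ : K} (hζ : IsPrimitiveRoot ζ M)
    {g : Matrix.SpecialLinearGroup (Fin 2) ℤ}
    (h : ∀ v w : Fin 2 → ZMod M, Prim M v → Prim M w →
      phiL M K ζ (vact v g) (vact w g) = phiL M K ζ v w) :
    ((g 0 1 : ℤ) : ZMod M) = 0 ∧ ((g 1 0 : ℤ) : ZMod M) = 0 ∧
      ((((g 0 0 : ℤ) : ZMod M) = 1 ∧ ((g 1 1 : ℤ) : ZMod M) = 1) ∨
        (((g 0 0 : ℤ) : ZMod M) = -1 ∧ ((g 1 1 : ℤ) : ZMod M) = -1)) := by
  refine faithful hM hζ fun v w hv hw => ?_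
  have h1 := mul_right_cancel₀ (dInvM_ne_zero M K) (h v w hv hw)
  rw [PG, PG, PG, PG, ← map_pow, ← map_pow, ← map_mul, ← map_mul] at h1
  exact HahnSeries.ofPowerSeries_injective h1

end phi

section red

variable {L : Type*} [Field L] (A : ValuationSubring L) {κ : Type*} [Field κ] (π : A →+* κ)

theorem zeta_mem {ζ : L} (hζ : ζ ^ M = 1) : ζ ∈ A := by
  rw [← A.valuation_le_one_iff]
  by_contra hcon
  push Not at hcon
  have h1 : A.valuation (ζ ^ M) = 1 := by rw [hζ, map_one]
  rw [map_pow] at h1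
  exact (one_lt_pow₀ hcon (NeZero.ne M)).ne' h1

theorem prim_red {ζ : A} (hζ : IsPrimitiveRoot (ζ : L) M) (hM : (M : κ) ≠ 0) :
    IsPrimitiveRoot (π ζ) M := by
  have hζA : IsPrimitiveRoot ζ M := by
    refine IsPrimitiveRoot.of_map_of_injective (f := A.subtype) ?_ Subtype.val_injective
    exact hζ
  refine IsPrimitiveRoot.mk_of_lt _ (Nat.pos_of_ne_zero (NeZero.ne M)) ?_ ?_
  · rw [← map_pow, hζA.pow_eq_one, map_one]
  · intro l hl hlM h0
    obtain ⟨n, rfl⟩ : ∃ n, M = n + 1 := ⟨M - 1, by have := NeZero.pos M; omega⟩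
    have h1 := hζA.prod_one_sub_pow_eq_order
    have h2 : π (∏ k ∈ Finset.range n, (1 - ζ ^ (k + 1))) = 0 := by
      rw [map_prod]
      refine Finset.prod_eq_zero (i := l - 1) (Finset.mem_range.mpr (by omega)) ?_
      rw [show l - 1 + 1 = l by omega, map_sub, map_one, map_pow, h0, sub_self]
    rw [h1] at h2
    apply hM
    push_cast
    rw [← h2, map_add, map_natCast, map_one]

variable {A π}

/-- `x` and `y` are the images of the same element of `A` -/
def Lft (A : ValuationSubring L) (π : A →+* κ) (x : L) (y : κ) : Prop :=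
  ∃ a : A, (a : L) = x ∧ π a = y

theorem Lft.add {x x' : L} {y y' : κ} (h : Lft A π x y) (h' : Lft A π x' y') :
    Lft A π (x + x') (y + y') := by
  obtain ⟨a, rfl, rfl⟩ := h
  obtain ⟨b, rfl, rfl⟩ := h'
  exact ⟨a + b, rfl, map_add π a b⟩

theorem Lft.mul {x x' : L} {y y' : κ} (h : Lft A π x y) (h' : Lft A π x' y') :
    Lft A π (x * x') (y * y') := by
  obtain ⟨a, rfl, rfl⟩ := h
  obtain ⟨b, rfl, rfl⟩ := h'
  exact ⟨a * b, rfl, map_mul π a b⟩

theorem Lft.neg {x : L} {y : κ} (h : Lft A π x y) : Lft A π (-x) (-y) := by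
  obtain ⟨a, rfl, rfl⟩ := h
  exact ⟨-a, rfl, map_neg π a⟩

theorem Lft.zero : Lft A π 0 0 := ⟨0, rfl, map_zero π⟩
theorem Lft.one : Lft A π 1 1 := ⟨1, rfl, map_one π⟩

theorem Lft.natCast (n : ℕ) : Lft A π (n : L) (n : κ) := ⟨n, rfl, map_natCast π n⟩

theorem Lft.pow {x : L} {y : κ} (h : Lft A π x y) (n : ℕ) : Lft A π (x ^ n) (y ^ n) := by
  induction n with
  | zero => rw [pow_zero, pow_zero]; exact Lft.one
  | succ n ih => rw [pow_succ, pow_succ]; exact ih.mul h

theorem Lft.sum {ι : Type*} (s : Finset ι) {x : ι → L} {y : ι → κ}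
    (h : ∀ i ∈ s, Lft A π (x i) (y i)) : Lft A π (∑ i ∈ s, x i) (∑ i ∈ s, y i) := by
  classical
  induction s using Finset.induction_on with
  | empty => rw [Finset.sum_empty, Finset.sum_empty]; exact Lft.zero
  | insert a s ha ih =>
    rw [Finset.sum_insert ha, Finset.sum_insert ha]
    exact (h a (Finset.mem_insert_self a s)).add
      (ih fun i hi => h i (Finset.mem_insert_of_mem hi))

theorem Lft.ite {p : Prop} [Decidable p] {x x' : L} {y y' : κ} (h : Lft A π x y)
    (h' : Lft A π x' y') : Lft A π (if p then x else x') (if p then y else y') := by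
  split_ifs
  · exact h
  · exact h'

theorem Lft.inv [IsLocalHom π] {x : L} {y : κ} (h : Lft A π x y) (hy : y ≠ 0) :
    Lft A π x⁻¹ y⁻¹ := by
  obtain ⟨a, rfl, rfl⟩ := h
  have hu : IsUnit a := isUnit_of_map_unit π a (isUnit_iff_ne_zero.mpr hy)
  obtain ⟨b, hb⟩ := isUnit_iff_exists_inv.mp hu
  refine ⟨b, ?_, ?_⟩
  · have hb' : (a : L) * b = 1 := congrArg Subtype.val hb
    exact (inv_eq_of_mul_eq_one_right hb').symm
  · have hb' : π a * π b = 1 := by rw [← map_mul, hb, map_one]
    exact (inv_eq_of_mul_eq_one_right hb').symm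

variable [IsLocalHom π]

theorem lft_PGs {ζ : A} (hζ : IsPrimitiveRoot (ζ : L) M) (hM : (M : κ) ≠ 0)
    (v : Fin 2 → ZMod M) (n : ℕ) :
    Lft A π ((PGs M L (ζ : L) v).coeff n) ((PGs M κ (π ζ) v).coeff n) := by
  have hz : Lft A π (ζ : L) (π ζ) := ⟨ζ, rfl, rfl⟩
  rw [PGs, PGs, Pser, Pser, PowerSeries.coeff_mk, PowerSeries.coeff_mk]
  refine Lft.ite (Lft.ite ?_ Lft.zero) (Lft.sum _ fun x _ => ?_)
  · rw [cstK, cstK]
    by_cases hb : v 1 = 0
    · rw [if_pos hb, if_pos hb]; exact Lft.zero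
    · rw [if_neg hb, if_neg hb, ratR, ratR, if_pos rfl, if_pos rfl, div_eq_mul_inv, div_eq_mul_inv]
      have hw := hz.pow (v 1).val
      have h1 : 1 - π ζ ^ (v 1).val ≠ 0 :=
        sub_ne_zero.mpr (pow_val_ne_one (prim_red A π hζ hM) hb).symm
      refine (hw.mul (Lft.one.add hw)).mul (Lft.inv (Lft.pow ?_ 3) (pow_ne_zero _ h1))
      rw [sub_eq_add_neg, sub_eq_add_neg]
      exact Lft.one.add hw.neg
  · rw [dterm, dterm]
    refine ((Lft.natCast x.2).pow _).mul (Lft.add (Lft.ite (hz.pow _) Lft.zero)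
      (((Lft.one.neg).pow 3).mul (Lft.ite (hz.pow _) Lft.zero)))

theorem exists_PG_lift {ζ : A} (hζ : IsPrimitiveRoot (ζ : L) M) (hM : (M : κ) ≠ 0)
    (v : Fin 2 → ZMod M) : ∃ P : LaurentSeries A, coeffMap A.subtype P = PG M L (ζ : L) v ∧
      coeffMap π P = PG M κ (π ζ) v := by
  choose c hc1 hc2 using lft_PGs (π := π) hζ hM v
  refine ⟨HahnSeries.ofPowerSeries ℤ A (PowerSeries.mk c), ?_, ?_⟩
  · rw [coeffMap_ofPowerSeries, PG]
    congr 1
    ext n
    rw [PowerSeries.coeff_map, PowerSeries.coeff_mk]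
    exact hc1 n
  · rw [coeffMap_ofPowerSeries, PG]
    congr 1
    ext n
    rw [PowerSeries.coeff_map, PowerSeries.coeff_mk]
    exact hc2 n

/-- integrality and reduction of the test functions -/
theorem exists_phi_lift {ζ : A} (hζ : IsPrimitiveRoot (ζ : L) M) (hM : (M : κ) ≠ 0)
    (v w : Fin 2 → ZMod M) : ∃ P : LaurentSeries A,
      coeffMap A.subtype P = phiL M L (ζ : L) v w ∧ coeffMap π P = phiL M κ (π ζ) v w := by
  obtain ⟨P, h1, h2⟩ := exists_PG_lift (π := π) hζ hM v
  obtain ⟨Q, h3, h4⟩ := exists_PG_lift (π := π) hζ hM w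
  refine ⟨P * Q ^ 3 * dInvM M A, ?_, ?_⟩
  · rw [map_mul, map_mul, map_pow, h1, h3, coeffMap_dInvM, phiL]
  · rw [map_mul, map_mul, map_pow, h2, h4, coeffMap_dInvM, phiL]

end red

end Fermat.Agent.XMB
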