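import Fermat.Agent.XMB.Fix
import Fermat.Agent.XMB.Act2

/-!
# The extension `F_{Γ(Q)} / L(j(q^Q))` is Galois, of degree the index of `Gs Q`
-/

set_option autoImplicit false
set_option linter.unusedSectionVars false

noncomputable section

open UpperHalfPlane Function ModularCurve Filter ModularForm AlgebraicCurve WithZero
  CongruenceSubgroup IntermediateField
open scoped Manifold MatrixGroups Topology ModularForm

namespace Fermat.Agent.XMB

open Fermat.Agent.X0Places Fermat.Agent.TorsCmp Fermat.Agent.FunField Fermat.Agent.LG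
open Fermat.Agent.HeckeHom (mapGL_inj)
open Matrix.SpecialLinearGroup (mapGL)

section Index

variable (Q : ℕ) [hQ : NeZero Q]

theorem dgam_inj {γ γ' : SL(2, ℤ)} (h : dgam Q γ = dgam Q γ') : γ = γ' := by
  apply mapGL_inj
  rw [dgam, dgam, mul_assoc, mul_assoc] at h
  exact mul_right_cancel (mul_left_cancel h)

/-- `Γ⁰(Q)` -/
def GT : Subgroup SL(2, ℤ) := (Gamma0 Q).comap (MulAut.conj ModularGroup.S).toMonoidHom

omit hQ in
theorem mem_GT {γ : SL(2, ℤ)} : γ ∈ GT Q ↔ (Q : ℤ) ∣ γ 0 1 := by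
  rw [GT, Subgroup.mem_comap, Gamma0_mem, ZMod.intCast_zmod_eq_zero_iff_dvd]
  have h6 : ((MulAut.conj ModularGroup.S).toMonoidHom γ) 1 0 = - γ 0 1 := by
    have hS : ((ModularGroup.S : SL(2, ℤ)) : Matrix (Fin 2) (Fin 2) ℤ) = !![0, -1; 1, 0] := rfl
    have hSi : ((ModularGroup.S⁻¹ : SL(2, ℤ)) : Matrix (Fin 2) (Fin 2) ℤ) = !![0, 1; -1, 0] := by
      rw [Matrix.SpecialLinearGroup.coe_inv, Matrix.adjugate_fin_two, hS]
      simp
    show ((ModularGroup.S * γ * ModularGroup.S⁻¹ : SL(2, ℤ)) : Matrix (Fin 2) (Fin 2) ℤ) 1 0 =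
      - (γ : Matrix (Fin 2) (Fin 2) ℤ) 0 1
    rw [Matrix.SpecialLinearGroup.coe_mul, Matrix.SpecialLinearGroup.coe_mul, hS, hSi]
    simp only [Matrix.mul_apply, Fin.sum_univ_two]
    simp
  rw [h6, dvd_neg]

omit hQ in
theorem index_GT : (GT Q).index = (Gamma0 Q).index :=
  Subgroup.index_comap_of_surjective _ (MulAut.conj ModularGroup.S).surjective

omit hQ in
theorem PG_le_GT : PG Q ≤ GT Q := by
  intro γ hγ
  rw [mem_PG_iff] at hγ
  rw [mem_GT, ← ZMod.intCast_zmod_eq_zero_iff_dvd]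
  exact hγ.1

omit hQ in
theorem Gs_le' : Gs Q ≤ Gamma0 Q := fun γ hγ => by
  have h := DS1.G1_le_gamma0 hγ
  rw [Gamma0_mem, ZMod.intCast_zmod_eq_zero_iff_dvd] at h ⊢
  exact (Int.natCast_dvd_natCast.2 (dvd_pow_self Q two_ne_zero)).trans h

/-- the isomorphism of `Γ⁰(Q)` and `Γ₀(Q)` -/
def phiT : GT Q →* SL(2, ℤ) where
  toFun γ := (exists_of_dvd ((mem_GT Q).1 γ.2)).choose
  map_one' := by
    apply mapGL_inj
    rw [← (exists_of_dvd ((mem_GT Q).1 (1 : GT Q).2)).choose_spec.1, map_one]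
    exact dgam_one Q
  map_mul' γ γ' := by
    apply mapGL_inj
    rw [← (exists_of_dvd ((mem_GT Q).1 (γ * γ').2)).choose_spec.1, map_mul,
      ← (exists_of_dvd ((mem_GT Q).1 γ.2)).choose_spec.1,
      ← (exists_of_dvd ((mem_GT Q).1 γ'.2)).choose_spec.1]
    exact dgam_mul Q _ _

theorem dgam_eq_phiT (γ : GT Q) : dgam Q (γ : SL(2, ℤ)) = mapGL ℝ (phiT Q γ) :=
  (exists_of_dvd ((mem_GT Q).1 γ.2)).choose_spec.1

theorem phiT_10 (γ : GT Q) : (phiT Q γ) 1 0 = (γ : SL(2, ℤ)) 1 0 * Q :=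
  (exists_of_dvd ((mem_GT Q).1 γ.2)).choose_spec.2.1

theorem range_phiT : (phiT Q).range = Gamma0 Q := by
  ext g
  constructor
  · rintro ⟨γ, rfl⟩
    rw [Gamma0_mem, ZMod.intCast_zmod_eq_zero_iff_dvd, phiT_10]
    exact dvd_mul_left _ _
  · intro hg
    rw [Gamma0_mem, ZMod.intCast_zmod_eq_zero_iff_dvd] at hg
    obtain ⟨c, hc⟩ := hg
    have hdet : g 0 0 * g 1 1 - g 0 1 * g 1 0 = 1 := by
      have := g.det_coe
      rwa [Matrix.det_fin_two] at this
    have hdet' : g 0 0 * g 1 1 - (Q * g 0 1) * c = 1 := by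
      rw [hc] at hdet
      linear_combination hdet
    have hm : mkSL (g 0 0) (Q * g 0 1) c (g 1 1) hdet' ∈ GT Q := by
      rw [mem_GT, mkSL_01]
      exact dvd_mul_right _ _
    refine ⟨⟨_, hm⟩, ?_⟩
    apply mapGL_inj
    rw [← dgam_eq_phiT]
    have h4 : mapGL ℝ (mkSL (g 0 0) (Q * g 0 1) c (g 1 1) hdet') * heckeDiagMatrix Q =
        heckeDiagMatrix Q * mapGL ℝ g := by
      apply Units.ext
      rw [Units.val_mul, Units.val_mul, val_heckeDiagMatrix hQ.out]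
      have hc' : ((g 1 0 : ℤ) : ℝ) = (Q : ℝ) * c := by rw [hc]; push_cast; ring
      ext i j
      fin_cases i <;> fin_cases j <;>
        simp [Matrix.mul_apply, Fin.sum_univ_two, mapGL, hc'] <;> ring
    show dgam Q (mkSL (g 0 0) (Q * g 0 1) c (g 1 1) hdet') = mapGL ℝ g
    rw [dgam, mul_assoc, h4, inv_mul_cancel_left]

theorem comap_phiT : (Gs Q).comap (phiT Q) = (PG Q).subgroupOf (GT Q) := by
  ext γ
  rw [Subgroup.mem_comap, Subgroup.mem_subgroupOf]
  constructor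
  · intro h
    obtain ⟨γ', h1, h2⟩ := exists_PG Q h
    rw [← dgam_eq_phiT] at h2
    rwa [← dgam_inj Q h2]
  · intro h
    obtain ⟨γ', h1, h2⟩ := exists_Gs Q h
    rw [dgam_eq_phiT] at h2
    rwa [mapGL_inj h2]

theorem index_Gs : (Gs Q).index = (PG Q).index := by
  rw [← Subgroup.relIndex_mul_index (Gs_le' Q), ← Subgroup.relIndex_mul_index (PG_le_GT Q),
    index_GT, ← range_phiT, ← Subgroup.index_comap, comap_phiT]
  rfl

theorem card_XG_Gs : Nat.card (XG (Gs Q)) = (PG Q).index := index_Gs Q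

end Index

theorem fix_adjoin_simple {K F : Type*} [Field K] [Field F] [Algebra K F] (e : F ≃ₐ[K] F) {h : F}
    (he : e h = h) {x : F} (hx : x ∈ K⟮h⟯) : e x = x := by
  induction hx using IntermediateField.adjoin_induction with
  | mem y hy =>
    rw [Set.mem_singleton_iff] at hy
    rw [hy, he]
  | algebraMap y => exact e.commutes y
  | add y z _ _ h1 h2 => rw [map_add, h1, h2]
  | inv y _ h1 => rw [map_inv₀, h1]
  | mul y z _ _ h1 h2 => rw [map_mul, h1, h2]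

section Gal

variable {Q : ℕ} [NeZero Q] {L : Type*} [Field L] [Algebra ℚ L] [IsAlgClosed L] (ι : L →+* ℂ)

theorem qExpand_j_mem_Gs : qExpand L Q (jqModC L) ∈ FG ι (Gs Q) (Q ^ 2) := by
  have h1 : jqModC L ∈ FG ι (Gamma0 1) 1 := by
    rw [FG_gamma0_eq_full]
    exact jqModC_mem_full L 1
  exact scaleQ_mem (one_dvd Q) ι h1

/-- the function `j(q^Q)` -/
abbrev hQF (Q : ℕ) [NeZero Q] : FG ι (Gs Q) (Q ^ 2) := ⟨_, qExpand_j_mem_Gs ι⟩

variable (hQ2 : 2 < Q)

theorem mem_adjoin_hQF_iff {x : FG ι (Gs Q) (Q ^ 2)} :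
    x ∈ L⟮hQF ι Q⟯ ↔ ∀ γ, act ι hQ2 γ x = x := by
  constructor
  · intro hx γ
    have h1 : ∀ γ, act ι hQ2 γ (hQF ι Q) = hQF ι Q :=
      (fix_all_iff ι hQ2).2 ⟨jqModC L, subset_adjoin _ _ rfl, rfl⟩
    exact fix_adjoin_simple _ (h1 γ) hx
  · intro hx
    obtain ⟨g, hg, h⟩ := (fix_all_iff ι hQ2).1 hx
    have h1 : IntermediateField.adjoin L {jqModC L} ≤
        (L⟮hQF ι Q⟯.map (FG ι (Gs Q) (Q ^ 2)).val).comap (qExpandAlgHomC L Q) := by
      rw [IntermediateField.adjoin_le_iff, Set.singleton_subset_iff]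
      exact ⟨hQF ι Q, subset_adjoin _ _ rfl, rfl⟩
    obtain ⟨y, hy, hy'⟩ := h1 hg
    have h2 : y = x := by
      apply Subtype.ext
      rw [h]
      exact hy'
    rw [← h2]
    exact hy

theorem toSubfield_eq : (L⟮hQF ι Q⟯).toSubfield =
    FixedPoints.subfield (actH ι hQ2).range (FG ι (Gs Q) (Q ^ 2)) := by
  ext x
  have h1 := mem_adjoin_hQF_iff ι hQ2 (x := x)
  refine h1.trans ?_
  constructor
  · rintro h ⟨_, γ, rfl⟩
    exact h γ⁻¹
  · intro h γ
    have h2 := h ⟨actH ι hQ2 γ⁻¹, γ⁻¹, rfl⟩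
    have h3 : actH ι hQ2 γ⁻¹ x = x := h2
    rwa [actH_apply, inv_inv] at h3

include hQ2 in
/-- **the extension is Galois** -/
theorem galL : IsGalois L⟮hQF ι Q⟯ (FG ι (Gs Q) (Q ^ 2)) := by
  have h1 : IsGalois (L⟮hQF ι Q⟯).toSubfield (FG ι (Gs Q) (Q ^ 2)) := by
    rw [toSubfield_eq ι hQ2]
    infer_instance
  exact h1

theorem ker_actH : (actH ι hQ2).ker = PG Q := by
  refine le_antisymm ?_ (PG_le_ker ι hQ2)
  intro γ hγ
  rw [MonoidHom.mem_ker] at hγ
  rw [← inv_mem_iff, ← act_eq_iff ι hQ2]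
  intro f
  have h1 : actH ι hQ2 γ f = f := by rw [hγ]; rfl
  rwa [actH_apply] at h1

theorem card_range_actH : Nat.card (actH ι hQ2).range = (PG Q).index := by
  rw [← Subgroup.index_ker, ker_actH]

include hQ2 in
/-- **the degree of the extension** -/
theorem degL : Module.finrank L⟮hQF ι Q⟯ (FG ι (Gs Q) (Q ^ 2)) = Nat.card (XG (Gs Q)) := by
  classical
  have hfin := Fintype.ofFinite (actH ι hQ2).range
  have h1 : Module.finrank (L⟮hQF ι Q⟯).toSubfield (FG ι (Gs Q) (Q ^ 2)) =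
      Nat.card (XG (Gs Q)) := by
    rw [toSubfield_eq ι hQ2, FixedPoints.finrank_eq_card, card_XG_Gs, ← card_range_actH ι hQ2,
      Nat.card_eq_fintype_card]
  exact h1

end Gal

end Fermat.Agent.XMB
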