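import Fermat.Agent.XM.Formal

/-!
# The expansions `PG` separate the elements of `SL(2, ℤ/M)/±1`
-/

set_option autoImplicit false
set_option linter.unusedSectionVars false

noncomputable section

open ModularCurve Matrix
open scoped MatrixGroups

namespace Fermat.Agent.XM

variable {M : ℕ} [NeZero M] {K : Type*} [Field K] {ζ : K}

theorem two_ne_zero_of_three_le (h3 : 3 ≤ M) : (2 : ZMod M) ≠ 0 := by
  intro h
  have h1 : ((2 : ℕ) : ZMod M) = 0 := by exact_mod_cast h
  rw [ZMod.natCast_eq_zero_iff] at h1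
  exact absurd (Nat.le_of_dvd (by norm_num) h1) (by omega)

theorem isUnit_of_prim_zero {v : Fin 2 → ZMod M} (hv : Prim M v) (h0 : v 0 = 0) :
    IsUnit (v 1) := by
  obtain ⟨x, y, h⟩ := hv
  rw [h0, mul_zero, zero_add] at h
  exact IsUnit.of_mul_eq_one y (by rw [mul_comm]; exact h)

theorem pow_val_two (hζ : IsPrimitiveRoot ζ M) {b : ZMod M} (h : ζ ^ b.val * ζ ^ b.val = 1) :
    2 * b = 0 := by
  rw [two_mul]
  by_contra hne
  apply ne_one_of_prim hζ hne
  rw [zc_add hζ.pow_eq_one]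
  exact h

/-- the leading coefficient does not vanish -/
theorem lead_ne_zero (h3 : 3 ≤ M) (hζ : IsPrimitiveRoot ζ M) {v : Fin 2 → ZMod M}
    (hv : Prim M v) : (PGs M K ζ v).coeff (ab (v 0)) ≠ 0 := by
  have h2 := two_ne_zero_of_three_le h3
  have hz : ζ ≠ 0 := hζ.ne_zero (NeZero.ne M)
  by_cases h0 : v 0 = 0
  · rw [h0, ab_zero, coeff_PGs_zero, if_pos h0]
    have hu := isUnit_of_prim_zero hv h0
    have hb : v 1 ≠ 0 := by
      intro h
      rw [h] at hu
      have := hu.mul_left_cancel (show (0 : ZMod M) * 2 = 0 * 0 by simp)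
      exact h2 this
    rw [cstK, if_neg hb, WOne.ratR, if_pos rfl]
    have h1 := ne_one_of_prim hζ hb
    have hm1 : 1 + ζ ^ (v 1).val ≠ 0 := by
      intro h
      have h4 : ζ ^ (v 1).val = -1 := by linear_combination h
      have h5 := pow_val_two hζ (b := v 1) (by rw [h4]; ring)
      rw [mul_comm] at h5
      exact h2 (hu.mul_left_cancel (by rw [h5, mul_zero]))
    refine div_ne_zero (mul_ne_zero (pow_ne_zero _ hz) ?_) (pow_ne_zero _ (sub_ne_zero.mpr (Ne.symm h1)))
    exact hm1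
  · rw [coeff_PGs_ab h0]
    rcases lt_trichotomy (v 0).val (-(v 0)).val with h | h | h
    · rw [if_pos h.le, if_neg (not_le.mpr h), sub_zero]
      exact pow_ne_zero _ hz
    · rw [if_pos h.le, if_pos h.ge]
      intro h4
      have hv0 : v 0 = - v 0 := ZMod.val_injective M h
      have h5 : 2 * v 0 = 0 := by linear_combination hv0
      have h6 : ζ ^ (v 1).val * ζ ^ (v 1).val = 1 := by
        rw [sub_eq_zero] at h4
        nth_rw 1 [h4]
        rw [← zc_add hζ.pow_eq_one, neg_add_cancel, ZMod.val_zero, pow_zero]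
      have h7 := pow_val_two hζ h6
      obtain ⟨x, y, hxy⟩ := hv
      apply h2
      linear_combination (-2 : ZMod M) * hxy + x * h5 + y * h7
    · rw [if_neg (not_le.mpr h), if_pos h.le, zero_sub]
      exact neg_ne_zero.mpr (pow_ne_zero _ hz)

theorem order_PGs (h3 : 3 ≤ M) (hζ : IsPrimitiveRoot ζ M) {v : Fin 2 → ZMod M}
    (hv : Prim M v) : (PGs M K ζ v).order = (ab (v 0) : ℕ) := by
  rw [PowerSeries.order_eq_nat]
  exact ⟨lead_ne_zero h3 hζ hv, fun i hi => coeff_PGs_of_lt hi⟩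

theorem PGs_ne_zero (h3 : 3 ≤ M) (hζ : IsPrimitiveRoot ζ M) {v : Fin 2 → ZMod M}
    (hv : Prim M v) : PGs M K ζ v ≠ 0 := by
  intro h
  apply lead_ne_zero h3 hζ hv
  rw [h, map_zero]

theorem PG_ne_zero (h3 : 3 ≤ M) (hζ : IsPrimitiveRoot ζ M) {v : Fin 2 → ZMod M}
    (hv : Prim M v) : PG M K ζ v ≠ 0 := by
  intro h
  apply PGs_ne_zero h3 hζ hv
  apply HahnSeries.ofPowerSeries_injective (Γ := ℤ)
  rw [map_zero]
  exact h

theorem ab_add_eq (h3 : 3 ≤ M) (hζ : IsPrimitiveRoot ζ M) {v w v' w' : Fin 2 → ZMod M}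
    (hv : Prim M v) (hw : Prim M w) (hv' : Prim M v') (hw' : Prim M w')
    (h : PGs M K ζ v * PGs M K ζ w = PGs M K ζ v' * PGs M K ζ w') :
    ab (v 0) + ab (w 0) = ab (v' 0) + ab (w' 0) := by
  have h1 := congrArg PowerSeries.order h
  rw [PowerSeries.order_mul, PowerSeries.order_mul, order_PGs h3 hζ hv, order_PGs h3 hζ hw,
    order_PGs h3 hζ hv', order_PGs h3 hζ hw'] at h1
  exact_mod_cast h1

theorem va_neg (v : Fin 2 → ZMod M) (g : SL(2, ZMod M)) : va v (-g) = - va v g := by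
  rw [va, va, Matrix.SpecialLinearGroup.coe_neg, Matrix.vecMul_neg]

theorem sep_aux (h3 : 3 ≤ M) (hζ : IsPrimitiveRoot ζ M) (g : SL(2, ZMod M)) (hc : g 1 0 = 0)
    (ha : g 0 0 = 1)
    (h : ∀ v w, Prim M v → Prim M w →
      PGs M K ζ (va v g) * PGs M K ζ w = PGs M K ζ (va w g) * PGs M K ζ v) : g = 1 := by
  have hdet := g.det_coe
  rw [Matrix.det_fin_two] at hdet
  have hd : g 1 1 = 1 := by
    have : g 0 0 * g 1 1 - g 0 1 * g 1 0 = 1 := hdet
    rw [hc, ha] at this
    linear_combination this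
  have e1 : va ![0, 1] g = ![0, 1] := by
    ext i; fin_cases i
    · show va ![0, 1] g 0 = _
      rw [va_zero']; simp [hc]
    · show va ![0, 1] g 1 = _
      rw [va_one']; simp [hd]
  have h1 := h ![1, 0] ![0, 1] prim_10 prim_01
  rw [e1, mul_comm] at h1
  have h2 := mul_left_cancel₀ (PGs_ne_zero h3 hζ prim_01) h1
  have e0 : va ![1, 0] g 0 = 1 := by rw [va_zero']; simp [ha]
  have e0' : va ![1, 0] g 1 = g 0 1 := by rw [va_one']; simp
  have hM : Fact (1 < M) := ⟨by omega⟩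
  have hval1 : (1 : ZMod M).val = 1 := ZMod.val_one M
  have hneg1 : (-(1 : ZMod M)).val = M - 1 := by
    have := neg_val_add (M := M) (a := 1) one_ne_zero
    omega
  have hval : (1 : ZMod M).val ≤ (-(1 : ZMod M)).val := by omega
  have hval' : ¬ ((-(1 : ZMod M)).val ≤ (1 : ZMod M).val) := by omega
  have h4 := coeff_PGs_ab (K := K) (ζ := ζ) (v := va ![1, 0] g) (by rw [e0]; exact one_ne_zero)
  rw [e0, e0', if_pos hval, if_neg hval', sub_zero] at h4
  have h5 := coeff_PGs_ab (K := K) (ζ := ζ) (v := ![(1 : ZMod M), 0])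
    (by rw [show (![(1 : ZMod M), 0] : Fin 2 → ZMod M) 0 = 1 from rfl]; exact one_ne_zero)
  rw [show (![(1 : ZMod M), 0] : Fin 2 → ZMod M) 0 = 1 from rfl,
    show (![(1 : ZMod M), 0] : Fin 2 → ZMod M) 1 = 0 from rfl, if_pos hval, if_neg hval',
    sub_zero, ZMod.val_zero, pow_zero] at h5
  have h6 : ζ ^ (g 0 1).val = 1 := by
    rw [← h4, ← h5, h2]
  have hb : g 0 1 = 0 := by
    by_contra hne
    exact ne_one_of_prim hζ hne h6
  ext i j
  fin_cases i <;> fin_cases j
  · exact ha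
  · exact hb
  · exact hc
  · exact hd

/-- **Separation.** -/
theorem sep (h3 : 3 ≤ M) (hζ : IsPrimitiveRoot ζ M) (g : SL(2, ZMod M))
    (h : ∀ v w, Prim M v → Prim M w →
      PGs M K ζ (va v g) * PGs M K ζ w = PGs M K ζ (va w g) * PGs M K ζ v) :
    g = 1 ∨ g = -1 := by
  have hdet := g.det_coe
  rw [Matrix.det_fin_two] at hdet
  have hM : Fact (1 < M) := ⟨by omega⟩
  have hpw : Prim M ![-(g 1 0), g 0 0] := ⟨g 0 1, g 1 1, by
    show g 0 1 * (-(g 1 0)) + g 1 1 * g 0 0 = 1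
    have : g 0 0 * g 1 1 - g 0 1 * g 1 0 = 1 := hdet
    linear_combination this⟩
  have hpw0 : va ![-(g 1 0), g 0 0] g 0 = 0 := by
    rw [va_zero']
    show -(g 1 0) * g 0 0 + g 0 0 * g 1 0 = 0
    ring
  have hv0 : va ![0, 1] g 0 = g 1 0 := by rw [va_zero']; simp
  have h1 := ab_add_eq h3 hζ (prim_va prim_01 g) hpw (prim_va hpw g) prim_01
    (h _ _ prim_01 hpw)
  rw [hpw0, hv0] at h1
  have hc : g 1 0 = 0 := by
    have : ab (![(0 : ZMod M), 1] 0) = 0 := ab_zero
    rw [this, ab_zero] at h1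
    exact ab_eq_zero.mp (by omega)
  have h2 := ab_add_eq h3 hζ (prim_va prim_10 g) prim_01 (prim_va prim_01 g) prim_10
    (h _ _ prim_10 prim_01)
  have e0 : va ![1, 0] g 0 = g 0 0 := by rw [va_zero']; simp
  rw [hv0, hc, e0] at h2
  have h01 : ab (![(0 : ZMod M), 1] 0) = 0 := ab_zero
  have h10 : ab (![(1 : ZMod M), 0] 0) = 1 := by
    show ab (1 : ZMod M) = 1
    rw [ab]
    have := neg_val_add (M := M) (a := 1) one_ne_zero
    rw [ZMod.val_one M] at this ⊢
    omega
  rw [h01, h10, ab_zero, add_zero, zero_add] at h2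
  have ha : g 0 0 = 1 ∨ g 0 0 = -1 := by
    rw [ab] at h2
    rcases min_choice (g 0 0).val (-(g 0 0)).val with h4 | h4
    · left
      rw [h4] at h2
      apply ZMod.val_injective M
      rw [h2, ZMod.val_one M]
    · right
      rw [h4] at h2
      rw [← neg_eq_iff_eq_neg]
      apply ZMod.val_injective M
      rw [h2, ZMod.val_one M]
  rcases ha with ha | ha
  · exact Or.inl (sep_aux h3 hζ g hc ha h)
  · right
    have h5 : -g = 1 := by
      refine sep_aux h3 hζ (-g) ?_ ?_ ?_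
      · show -(g 1 0) = 0
        rw [hc, neg_zero]
      · show -(g 0 0) = 1
        rw [ha, neg_neg]
      · intro v w hv hw
        rw [va_neg, va_neg, PGs_neg hζ, PGs_neg hζ, neg_mul, neg_mul, h v w hv hw]
    rw [← h5, neg_neg]

/-- **Separation**, version for quotients of Laurent series. -/
theorem sep_div (h3 : 3 ≤ M) (hζ : IsPrimitiveRoot ζ M) (g : SL(2, ZMod M))
    (h : ∀ v w, Prim M v → Prim M w →
      PG M K ζ (va v g) / PG M K ζ (va w g) = PG M K ζ v / PG M K ζ w) :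
    g = 1 ∨ g = -1 := by
  refine sep (K := K) (ζ := ζ) h3 hζ g fun v w hv hw => ?_
  have h1 := h v w hv hw
  rw [div_eq_div_iff (PG_ne_zero h3 hζ (prim_va hw g)) (PG_ne_zero h3 hζ hw)] at h1
  apply HahnSeries.ofPowerSeries_injective (Γ := ℤ)
  rw [map_mul, map_mul, mul_comm (HahnSeries.ofPowerSeries ℤ K (PGs M K ζ (va w g)))]
  exact h1

end Fermat.Agent.XM
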